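/-
GEN-16 (helper83), field-theoretic part: a separable algebraic extension all of whose elements
have degree at most `μ` has degree at most `μ`.
-/
import Mathlib

set_option autoImplicit false

open IntermediateField

namespace Fermat.Agent.H83

/-- If every element of `F` is algebraic of degree `≤ μ` over the characteristic-zero field `k`,
then `F` is finite over `k` of degree `≤ μ`. -/
theorem finrank_le_of_forall_natDegree_minpoly_le {k F : Type*} [Field k] [Field F] [Algebra k F]
    [CharZero k] (μ : ℕ)
    (h : ∀ x : F, IsAlgebraic k x ∧ (minpoly k x).natDegree ≤ μ) :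
    FiniteDimensional k F ∧ Module.finrank k F ≤ μ := by
  have : Algebra.IsAlgebraic k F := ⟨fun x => (h x).1⟩
  have : Algebra.IsSeparable k F := inferInstance
  have : Infinite k := inferInstance
  -- an element of maximal degree
  obtain ⟨α, hα⟩ : ∃ α : F, ∀ x : F, (minpoly k x).natDegree ≤ (minpoly k α).natDegree := by
    classical
    let S : Set ℕ := Set.range fun x : F => (minpoly k x).natDegree
    have hS : S.Nonempty := ⟨_, ⟨0, rfl⟩⟩
    have hb : BddAbove S := ⟨μ, by rintro _ ⟨x, rfl⟩; exact (h x).2⟩
    obtain ⟨α, hα⟩ := Nat.sSup_mem hS hb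
    refine ⟨α, fun x => ?_⟩
    show (minpoly k x).natDegree ≤ (fun x : F => (minpoly k x).natDegree) α
    rw [hα]
    exact le_csSup hb ⟨x, rfl⟩
  have hint : ∀ x : F, IsIntegral k x := fun x => (h x).1.isIntegral
  have htop : k⟮α⟯ = ⊤ := by
    rw [eq_top_iff]
    intro β _
    obtain ⟨γ, hγ⟩ := Field.primitive_element_inf_aux k α β
    have hle : k⟮α⟯ ≤ k⟮γ⟯ := by
      rw [← hγ]
      exact adjoin.mono k _ _ (by simp)
    have : FiniteDimensional k k⟮γ⟯ := adjoin.finiteDimensional (hint γ)
    have hfr : Module.finrank k k⟮γ⟯ ≤ Module.finrank k k⟮α⟯ := by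
      rw [adjoin.finrank (hint γ), adjoin.finrank (hint α)]
      exact hα γ
    have heq : k⟮α⟯ = k⟮γ⟯ := eq_of_le_of_finrank_le hle hfr
    rw [heq, ← hγ]
    exact subset_adjoin k _ (by simp)
  have : FiniteDimensional k k⟮α⟯ := adjoin.finiteDimensional (hint α)
  have hfd : FiniteDimensional k F := by
    have : FiniteDimensional k (⊤ : IntermediateField k F) := by rw [← htop]; infer_instance
    exact (IntermediateField.topEquiv (F := k) (E := F)).toLinearEquiv.finiteDimensional
  refine ⟨hfd, ?_⟩
  have h1 : Module.finrank k F = Module.finrank k k⟮α⟯ := by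
    rw [htop]
    exact (IntermediateField.finrank_top').symm
  rw [h1, adjoin.finrank (hint α)]
  exact (h α).2

end Fermat.Agent.H83
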