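/-
GEN-16 (helper83), algebraic part: from `K`-linear relations among the monomials `j^l r^i`
(`i ≤ μ`) for all `r` in a subalgebra `R` generating `F` as a field, deduce `[F : K(j)] ≤ μ`.
-/
import Fermat.Agent.H83.Gen16Field

set_option autoImplicit false

open IntermediateField Polynomial

namespace Fermat.Agent.H83

theorem linearIndependent_pow_of_transcendental {K A : Type*} [Field K] [Ring A] [Algebra K A]
    {x : A} (hx : Transcendental K x) : LinearIndependent K (fun n : ℕ => x ^ n) := by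
  have h := (Polynomial.basisMonomials K).linearIndependent
  have h2 := h.map' (Polynomial.aeval x).toLinearMap
    (LinearMap.ker_eq_bot.mpr (transcendental_iff_injective.mp hx))
  have h3 : (⇑(Polynomial.aeval x).toLinearMap ∘ ⇑(Polynomial.basisMonomials K)) =
      fun n : ℕ => x ^ n := by
    funext n
    simp [Polynomial.coe_basisMonomials]
  rwa [h3] at h2

section

variable {K F : Type*} [Field K] [Field F] [Algebra K F]

/-- A `K`-linear relation among the `j^l r^i`, `i ≤ μ`, bounds the degree of `r` over `K(j)`. -/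
theorem natDegree_minpoly_le_of_not_linearIndependent (j : F) (hj : Transcendental K j) (r : F)
    (μ L : ℕ)
    (h : ¬ LinearIndependent K
      (fun p : Fin (μ + 1) × Fin (L + 1) => j ^ (p.2 : ℕ) * r ^ (p.1 : ℕ))) :
    IsAlgebraic K⟮j⟯ r ∧ (minpoly K⟮j⟯ r).natDegree ≤ μ := by
  by_contra hcon
  apply h
  -- powers of `r` are independent over `K(j)`
  have hr : LinearIndependent K⟮j⟯ (fun i : Fin (μ + 1) => r ^ (i : ℕ)) := by
    by_cases halg : IsAlgebraic K⟮j⟯ r
    · have hdeg : μ + 1 ≤ (minpoly K⟮j⟯ r).natDegree := by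
        by_contra hlt
        exact hcon ⟨halg, by omega⟩
      exact (linearIndependent_pow (K := K⟮j⟯) r).comp (Fin.castLE hdeg)
        (Fin.castLE_injective hdeg)
    · exact (linearIndependent_pow_of_transcendental (K := K⟮j⟯) halg).comp
        (fun i : Fin (μ + 1) => (i : ℕ)) Fin.val_injective
  -- powers of `j` are independent over `K`
  have hgen : Transcendental K (AdjoinSimple.gen K j) := by
    intro halg
    apply hj
    have := halg.algebraMap (A := F)
    rwa [AdjoinSimple.algebraMap_gen] at this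
  have hjl : LinearIndependent K (fun l : Fin (L + 1) => (AdjoinSimple.gen K j) ^ (l : ℕ)) :=
    (linearIndependent_pow_of_transcendental hgen).comp
      (fun l : Fin (L + 1) => (l : ℕ)) Fin.val_injective
  have h1 := linearIndependent_smul hjl hr
  have h2 := h1.comp (fun p : Fin (μ + 1) × Fin (L + 1) => (p.2, p.1))
    (fun a b hab => by
      simp only [Prod.mk.injEq] at hab
      exact Prod.ext hab.2 hab.1)
  have h3 : ((fun p : Fin (L + 1) × Fin (μ + 1) => (AdjoinSimple.gen K j) ^ (p.1 : ℕ) • r ^ (p.2 : ℕ)) ∘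
      fun p : Fin (μ + 1) × Fin (L + 1) => (p.2, p.1)) =
      fun p : Fin (μ + 1) × Fin (L + 1) => j ^ (p.2 : ℕ) * r ^ (p.1 : ℕ) := by
    funext p
    simp only [Function.comp_apply]
    rw [Algebra.smul_def, map_pow, AdjoinSimple.algebraMap_gen]
  rwa [h3] at h2

/-- The `K(j)`-subalgebra of fractions `r / p(j)`, `r ∈ R`. -/
def fracSubalgebra (j : F) (R : Subalgebra K F) (hjR : j ∈ R) : Subalgebra K⟮j⟯ F where
  carrier := {f | ∃ r ∈ R, ∃ p : K[X], aeval j p ≠ 0 ∧ aeval j p * f = r}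
  mul_mem' := by
    rintro f₁ f₂ ⟨r₁, hr₁, p₁, hp₁, h₁⟩ ⟨r₂, hr₂, p₂, hp₂, h₂⟩
    refine ⟨r₁ * r₂, R.mul_mem hr₁ hr₂, p₁ * p₂, ?_, ?_⟩
    · rw [map_mul]; exact mul_ne_zero hp₁ hp₂
    · rw [map_mul, ← h₁, ← h₂]; ring
  one_mem' := ⟨1, R.one_mem, 1, by simp, by simp⟩
  add_mem' := by
    rintro f₁ f₂ ⟨r₁, hr₁, p₁, hp₁, h₁⟩ ⟨r₂, hr₂, p₂, hp₂, h₂⟩
    have hmem : ∀ p : K[X], aeval j p ∈ R := fun p => by
      have := Subalgebra.aeval_coe R ⟨j, hjR⟩ p
      simp only at this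
      rw [this]
      exact Subtype.property _
    refine ⟨aeval j p₂ * r₁ + aeval j p₁ * r₂,
      R.add_mem (R.mul_mem (hmem _) hr₁) (R.mul_mem (hmem _) hr₂), p₁ * p₂, ?_, ?_⟩
    · rw [map_mul]; exact mul_ne_zero hp₁ hp₂
    · rw [map_mul, ← h₁, ← h₂]; ring
  zero_mem' := ⟨0, R.zero_mem, 1, by simp, by simp⟩
  algebraMap_mem' := by
    intro c
    have hmem : ∀ p : K[X], aeval j p ∈ R := fun p => by
      have := Subalgebra.aeval_coe R ⟨j, hjR⟩ p
      simp only at this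
      rw [this]
      exact Subtype.property _
    obtain ⟨u, v, huv⟩ := (IntermediateField.mem_adjoin_simple_iff K (c : F)).mp c.2
    have hc : algebraMap K⟮j⟯ F c = (c : F) := rfl
    by_cases hv : aeval j v = 0
    · refine ⟨0, R.zero_mem, 1, by simp, ?_⟩
      rw [hc, huv, hv, div_zero, mul_zero]
    · refine ⟨aeval j u, hmem u, v, hv, ?_⟩
      rw [hc, huv, mul_div_cancel₀ _ hv]

theorem mem_fracSubalgebra_of_mem (j : F) (R : Subalgebra K F) (hjR : j ∈ R) {r : F}
    (hr : r ∈ R) : r ∈ fracSubalgebra j R hjR :=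
  ⟨r, hr, 1, by simp, by simp⟩

/-- Degree bound for all elements of `F = Frac R` from the bound on `R`. -/
theorem forall_natDegree_le (j : F) (R : Subalgebra K F) (hjR : j ∈ R) (μ : ℕ)
    (hR : ∀ r ∈ R, IsAlgebraic K⟮j⟯ r ∧ (minpoly K⟮j⟯ r).natDegree ≤ μ)
    (hfrac : ∀ f : F, ∃ r ∈ R, ∃ s ∈ R, s ≠ 0 ∧ f * s = r) (f : F) :
    IsAlgebraic K⟮j⟯ f ∧ (minpoly K⟮j⟯ f).natDegree ≤ μ := by
  -- `f` lies in the subalgebra of fractions
  have hfT : f ∈ fracSubalgebra j R hjR := by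
    obtain ⟨r, hr, s, hs, hs0, hfs⟩ := hfrac f
    have hsalg := (hR s hs).1
    have hsinv : s⁻¹ ∈ fracSubalgebra j R hjR := by
      have h1 : s⁻¹ ∈ (K⟮j⟯⟮s⟯).toSubalgebra :=
        (K⟮j⟯⟮s⟯).inv_mem (IntermediateField.mem_adjoin_simple_self _ s)
      rw [IntermediateField.adjoin_simple_toSubalgebra_of_isAlgebraic hsalg] at h1
      refine Algebra.adjoin_le ?_ h1
      rintro x rfl
      exact mem_fracSubalgebra_of_mem j R hjR hs
    have hf : f = r * s⁻¹ := by
      rw [← hfs, mul_assoc, mul_inv_cancel₀ hs0, mul_one]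
    rw [hf]
    exact (fracSubalgebra j R hjR).mul_mem (mem_fracSubalgebra_of_mem j R hjR hr) hsinv
  obtain ⟨r, hr, p, hp, hpf⟩ := hfT
  obtain ⟨hralg, hrdeg⟩ := hR r hr
  -- `aeval j p` as an element of `K(j)`
  have hpmem : aeval j p ∈ K⟮j⟯ := by
    have := IntermediateField.aeval_coe (K⟮j⟯) (AdjoinSimple.gen K j) p (R := K)
    rw [AdjoinSimple.coe_gen] at this
    rw [this]
    exact Subtype.property _
  have hf : f = (aeval j p)⁻¹ * r := by
    rw [← hpf, ← mul_assoc, inv_mul_cancel₀ hp, one_mul]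
  have hfalg : IsAlgebraic K⟮j⟯ f := by
    rw [hf]
    have h1 : IsAlgebraic K⟮j⟯ (algebraMap K⟮j⟯ F ⟨(aeval j p)⁻¹, (K⟮j⟯).inv_mem hpmem⟩) :=
      isAlgebraic_algebraMap _
    exact h1.mul hralg
  refine ⟨hfalg, ?_⟩
  have heq : K⟮j⟯⟮f⟯ = K⟮j⟯⟮r⟯ := by
    apply le_antisymm
    · rw [IntermediateField.adjoin_simple_le_iff, hf]
      exact (K⟮j⟯⟮r⟯).mul_mem
        ((K⟮j⟯⟮r⟯).algebraMap_mem ⟨(aeval j p)⁻¹, (K⟮j⟯).inv_mem hpmem⟩)
        (IntermediateField.mem_adjoin_simple_self _ r)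
    · rw [IntermediateField.adjoin_simple_le_iff, ← hpf]
      exact (K⟮j⟯⟮f⟯).mul_mem ((K⟮j⟯⟮f⟯).algebraMap_mem ⟨aeval j p, hpmem⟩)
        (IntermediateField.mem_adjoin_simple_self _ f)
  rw [← IntermediateField.adjoin.finrank hfalg.isIntegral, heq,
    IntermediateField.adjoin.finrank hralg.isIntegral]
  exact hrdeg

/-- **Algebraic core of GEN-16.** -/
theorem finrank_le_of_relations [CharZero K] (j : F) (hj : Transcendental K j)
    (R : Subalgebra K F) (hjR : j ∈ R) (μ : ℕ)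
    (hrel : ∀ r ∈ R, ∃ L : ℕ, ¬ LinearIndependent K
      (fun p : Fin (μ + 1) × Fin (L + 1) => j ^ (p.2 : ℕ) * r ^ (p.1 : ℕ)))
    (hfrac : ∀ f : F, ∃ r ∈ R, ∃ s ∈ R, s ≠ 0 ∧ f * s = r) :
    FiniteDimensional K⟮j⟯ F ∧ Module.finrank K⟮j⟯ F ≤ μ := by
  have : CharZero K⟮j⟯ := charZero_of_injective_algebraMap (algebraMap K K⟮j⟯).injective
  refine finrank_le_of_forall_natDegree_minpoly_le μ
    (forall_natDegree_le j R hjR μ (fun r hr => ?_) hfrac)
  obtain ⟨L, hL⟩ := hrel r hr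
  exact natDegree_minpoly_le_of_not_linearIndependent j hj r μ L hL

end

end Fermat.Agent.H83
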