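/-
GEN-16 (helper83), linear algebra part: linearly independent Laurent series stay linearly
independent after a coefficientwise field extension; transcendence of `jBar`.
-/
import Fermat.Agent.H23.BlueprintAn

set_option autoImplicit false

open IntermediateField

namespace Fermat.Agent.H83

/-- Coefficientwise extension of scalars preserves linear independence of Laurent series. -/
theorem linearIndependent_coeffMap {K L : Type*} [Field K] [Field L] (ι : K →+* L)
    {I : Type*} (v : I → LaurentSeries K) (hv : LinearIndependent K v) :
    LinearIndependent L (fun i => ModularCurve.coeffMap ι (v i)) := by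
  classical
  let _ : Algebra K L := ι.toAlgebra
  let b := Module.Basis.ofVectorSpace K L
  rw [linearIndependent_iff'] at hv ⊢
  intro s c hc i hi
  -- coordinates of the relation
  have key : ∀ a, ∑ j ∈ s, (b.repr (c j) a) • v j = 0 := by
    intro a
    ext t
    have ht := congrArg (fun x : LaurentSeries L => x.coeff t) hc
    simp only [HahnSeries.coeff_zero] at ht
    have ht' : ∑ j ∈ s, (v j).coeff t • c j = 0 := by
      have : (∑ j ∈ s, c j • ModularCurve.coeffMap ι (v j)).coeff t
          = ∑ j ∈ s, (v j).coeff t • c j := by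
        rw [HahnSeries.coeff_sum]
        refine Finset.sum_congr rfl fun j _ => ?_
        rw [HahnSeries.coeff_smul, ModularCurve.coeffMap_coeff, smul_eq_mul, Algebra.smul_def,
          mul_comm]
        rfl
      rw [← this]
      exact ht
    have h2 := congrArg (fun x => b.repr x a) ht'
    simp only [map_sum, map_smul, Finsupp.coe_finsetSum, Finset.sum_apply, Finsupp.coe_smul,
      Pi.smul_apply, smul_eq_mul, map_zero, Finsupp.coe_zero, Pi.zero_apply] at h2
    rw [HahnSeries.coeff_sum, HahnSeries.coeff_zero]
    rw [← h2]
    refine Finset.sum_congr rfl fun j _ => ?_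
    rw [HahnSeries.coeff_smul, smul_eq_mul, mul_comm]
  have hz : b.repr (c i) = 0 := by
    ext a
    exact hv s (fun j => b.repr (c j) a) (key a) i hi
  simpa using hz

/-- The inclusion of an intermediate field of Laurent series, as a linear map for the
coefficientwise module structure on Laurent series. -/
noncomputable def valLin {K : Type*} [Field K] (E : IntermediateField K (LaurentSeries K)) :
    E →ₗ[K] LaurentSeries K where
  toFun := fun x => (x : LaurentSeries K)
  map_add' := fun _ _ => rfl
  map_smul' := fun a x => by
    show ((a • x : E) : LaurentSeries K) = a • (x : LaurentSeries K)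
    rw [Algebra.smul_def, ← HahnSeries.C_mul_eq_smul]
    show algebraMap K (LaurentSeries K) a * (x : LaurentSeries K) = _
    rw [ModularCurve.algebraMap_laurentSeries_eq_single]
    rfl

theorem valLin_apply {K : Type*} [Field K] (E : IntermediateField K (LaurentSeries K)) (x : E) :
    valLin E x = (x : LaurentSeries K) := rfl

theorem ker_valLin {K : Type*} [Field K] (E : IntermediateField K (LaurentSeries K)) :
    LinearMap.ker (valLin E) = ⊥ :=
  LinearMap.ker_eq_bot.mpr fun _ _ h => Subtype.ext h

/-- The Laurent series underlying `jBar N`. -/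
theorem coe_jBar (N : ℕ) [NeZero N] :
    ((Fermat.Agent.H23.jBar N : ↥(ModularCurve.modularFunctionFieldBar N)) :
        LaurentSeries (AlgebraicClosure ℚ)) =
      ModularCurve.coeffEmb (AlgebraicClosure ℚ) ModularCurve.jq := rfl

/-- `jBarD N 1 = jBar N`. -/
theorem jBarD_one (N : ℕ) [NeZero N] :
    Fermat.Agent.H23.jBarD N 1 (one_dvd N) = Fermat.Agent.H23.jBar N := by
  apply Subtype.ext
  show ModularCurve.coeffEmb (AlgebraicClosure ℚ) (ModularCurve.qExpand ℚ 1 ModularCurve.jq) = _
  rw [ModularCurve.qExpand_one_apply]
  rfl

/-- `jBar N` lies in `Rsub N`. -/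
theorem jBar_mem_Rsub (N : ℕ) [NeZero N] : Fermat.Agent.H23.jBar N ∈ Fermat.Agent.H23.Rsub N := by
  rw [← jBarD_one]
  exact Algebra.subset_adjoin ⟨1, inferInstance, one_dvd N, rfl⟩

/-- `jBar N` is transcendental over `ℚ̄`: it has a pole at `q = 0`. -/
theorem transcendental_jBar (N : ℕ) [NeZero N] :
    Transcendental (AlgebraicClosure ℚ) (Fermat.Agent.H23.jBar N) := by
  intro halg
  have hint : IsIntegral (AlgebraicClosure ℚ) (Fermat.Agent.H23.jBar N) := halg.isIntegral
  have hdeg : (minpoly (AlgebraicClosure ℚ) (Fermat.Agent.H23.jBar N)).degree = 1 :=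
    IsAlgClosed.degree_eq_one_of_irreducible _ (minpoly.irreducible hint)
  obtain ⟨c, hc⟩ := minpoly.mem_range_of_degree_eq_one _ _ hdeg
  have h1 := congrArg (fun x : ↥(ModularCurve.modularFunctionFieldBar N) =>
    (x : LaurentSeries (AlgebraicClosure ℚ)).coeff (-1)) hc
  simp only [coe_jBar, ModularCurve.coeffEmb_coeff, ModularCurve.coeff_jq_neg_one, map_one] at h1
  have h2 : ((algebraMap (AlgebraicClosure ℚ) ↥(ModularCurve.modularFunctionFieldBar N) c :
      ↥(ModularCurve.modularFunctionFieldBar N)) : LaurentSeries (AlgebraicClosure ℚ)) =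
      HahnSeries.single 0 c := by
    rw [← ModularCurve.algebraMap_laurentSeries_eq_single]
    rfl
  rw [h2, HahnSeries.coeff_single_of_ne (by norm_num)] at h1
  exact zero_ne_one h1

end Fermat.Agent.H83
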