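/-
GEN-16 (helper83), modular-form bookkeeping: a function-level "is a modular form of weight `k`"
predicate with its closure properties, and the level-one structure statement
`G = Δ ^ m * P(j)` for `G` of weight `12 m`.
-/
import Mathlib
import Fermat.Agent.H96.LevelOneStructure
import Fermat.Agent.H62.SeparatingForm

set_option autoImplicit false

open UpperHalfPlane ModularForm CongruenceSubgroup SlashInvariantForm Filter
open scoped MatrixGroups ModularForm Topology Manifold

namespace Fermat.Agent.H83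

noncomputable section

/-- `g` is (the underlying function of) a modular form of weight `k` and level `Γ`. -/
def IsMF (Γ : Subgroup (GL (Fin 2) ℝ)) (k : ℤ) (g : ℍ → ℂ) : Prop :=
  ∃ A : ModularForm Γ k, ⇑A = g

namespace IsMF

variable {Γ : Subgroup (GL (Fin 2) ℝ)} {k l : ℤ} {g h : ℍ → ℂ}

theorem of_form (A : ModularForm Γ k) : IsMF Γ k ⇑A := ⟨A, rfl⟩

theorem cast (hkl : k = l) (hg : IsMF Γ k g) : IsMF Γ l g := by
  subst hkl; exact hg

theorem congr (hgh : g = h) (hg : IsMF Γ k g) : IsMF Γ k h := by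
  subst hgh; exact hg

theorem add (hg : IsMF Γ k g) (hh : IsMF Γ k h) : IsMF Γ k (g + h) := by
  obtain ⟨A, rfl⟩ := hg
  obtain ⟨B, rfl⟩ := hh
  exact ⟨A + B, rfl⟩

theorem sub (hg : IsMF Γ k g) (hh : IsMF Γ k h) : IsMF Γ k (g - h) := by
  obtain ⟨A, rfl⟩ := hg
  obtain ⟨B, rfl⟩ := hh
  exact ⟨A - B, rfl⟩

theorem smul [Γ.HasDetOne] (c : ℂ) (hg : IsMF Γ k g) : IsMF Γ k (c • g) := by
  obtain ⟨A, rfl⟩ := hg
  exact ⟨c • A, rfl⟩

theorem mul [Γ.HasDetPlusMinusOne] (hg : IsMF Γ k g) (hh : IsMF Γ l h) :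
    IsMF Γ (k + l) (g * h) := by
  obtain ⟨A, rfl⟩ := hg
  obtain ⟨B, rfl⟩ := hh
  exact ⟨A.mul B, rfl⟩

theorem const [Γ.HasDetOne] (c : ℂ) : IsMF Γ 0 (fun _ => c) :=
  ⟨ModularForm.const c, rfl⟩

theorem one [Γ.HasDetOne] : IsMF Γ 0 (1 : ℍ → ℂ) := const 1

theorem pow [Γ.HasDetOne] (hg : IsMF Γ k g) (n : ℕ) : IsMF Γ (k * n) (g ^ n) := by
  induction n with
  | zero => simpa using (one (Γ := Γ))
  | succ n ih =>
    have := ih.mul hg
    refine (this.cast ?_).congr ?_
    · push_cast; ring
    · rw [pow_succ]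

theorem prod [Γ.HasDetOne] {ι : Type*} (s : Finset ι) (f : ι → ℍ → ℂ)
    (hf : ∀ i ∈ s, IsMF Γ k (f i)) : IsMF Γ (k * s.card) (∏ i ∈ s, f i) := by
  classical
  induction s using Finset.induction_on with
  | empty => simpa using (one (Γ := Γ))
  | insert a s ha ih =>
    rw [Finset.prod_insert ha, Finset.card_insert_of_notMem ha]
    have h1 := hf a (Finset.mem_insert_self a s)
    have h2 := ih fun i hi => hf i (Finset.mem_insert_of_mem hi)
    refine (h1.mul h2).cast ?_
    push_cast; ring

end IsMF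

/-- The analytic `j`-function. -/
def jf (z : ℍ) : ℂ := E₄ z ^ 3 / ModularForm.discriminant z

theorem E₄_cube_eq (z : ℍ) : E₄ z ^ 3 = jf z * ModularForm.discriminant z := by
  rw [jf, div_mul_cancel₀ _ (ModularForm.discriminant_ne_zero z)]

/-- Level-one structure: a modular form of weight `12 m` is `Δ ^ m` times a polynomial of degree
at most `m` in `j`. -/
theorem levelOne_poly (m : ℕ) : ∀ (k : ℤ) (_ : k = 12 * m) (G : ModularForm 𝒮ℒ k),
    ∃ P : Polynomial ℂ, P.natDegree ≤ m ∧
      ∀ z, G z = ModularForm.discriminant z ^ m * P.eval (jf z) := by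
  induction m with
  | zero =>
    intro k hk G
    have hk0 : k = 0 := by simpa using hk
    subst hk0
    obtain ⟨c, hc⟩ := ModularFormClass.levelOne_weight_zero_const G
    refine ⟨Polynomial.C c, by simp, fun z => ?_⟩
    rw [hc]
    simp
  | succ m ih =>
    intro k hk G
    -- the form `E₄ ^ (3 (m + 1))` of weight `k`
    obtain ⟨E, hE⟩ : IsMF 𝒮ℒ k (⇑E₄ ^ (3 * (m + 1))) := by
      refine ((IsMF.of_form E₄).pow (3 * (m + 1))).cast ?_
      rw [hk]; push_cast; ring
    set a : ℂ := (qExpansion 1 G).coeff 0 with ha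
    -- `H = G - a E` vanishes at infinity
    let H : ModularForm 𝒮ℒ k := G - a • E
    have hHlim : Tendsto H atImInfty (𝓝 0) := by
      have h1 := Fermat.Agent.H96.tendsto_atImInfty_coeff_zero G
      have h2 : Tendsto E atImInfty (𝓝 1) := by
        rw [hE]
        have := (Fermat.Agent.H62.tendsto_E₄_atImInfty).pow (3 * (m + 1))
        rw [one_pow] at this
        exact this
      have h3 : Tendsto (fun z => G z - a * E z) atImInfty (𝓝 (a - a * 1)) :=
        h1.sub (h2.const_mul a)
      have h4 : (fun z => G z - a * E z) = ⇑H := by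
        funext z
        rfl
      rw [h4] at h3
      simpa using h3
    have hH0 : (qExpansion 1 H).coeff 0 = 0 :=
      tendsto_nhds_unique (Fermat.Agent.H96.tendsto_atImInfty_coeff_zero H) hHlim
    obtain ⟨h, hh⟩ := Fermat.Agent.H96.exists_eq_discriminant_mul H hH0
    obtain ⟨P, hPdeg, hP⟩ := ih (k - 12) (by rw [hk]; push_cast; ring) h
    refine ⟨Polynomial.C a * Polynomial.X ^ (m + 1) + P, ?_, fun z => ?_⟩
    · refine (Polynomial.natDegree_add_le _ _).trans (max_le ?_ (hPdeg.trans (Nat.le_succ m)))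
      exact (Polynomial.natDegree_C_mul_le _ _).trans (Polynomial.natDegree_X_pow_le _)
    · have hG : G z = a * E z + H z := by
        show G z = a * E z + (G z - a * E z)
        ring
      have hEz : E z = E₄ z ^ (3 * (m + 1)) := by
        rw [hE]; rfl
      rw [hG, hh z, hP z, hEz, pow_mul, E₄_cube_eq]
      simp only [Polynomial.eval_add, Polynomial.eval_mul, Polynomial.eval_C, Polynomial.eval_pow,
        Polynomial.eval_X]
      ring

end

end Fermat.Agent.H83
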