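/-
GEN-16 (helper83): the functions `z ↦ j (d z)`, `d ∣ N`, and all polynomials in them are quotients
`A / B₀ ^ M` of a modular form on `Γ₀(N)` by a power of the nowhere vanishing form
`B₀ = ∏_{d ∣ N} Δ (d z)`.
-/
import Fermat.Agent.H83.Gen16MF
import Fermat.Agent.H18.SeparatingForm

set_option autoImplicit false

open UpperHalfPlane ModularForm CongruenceSubgroup SlashInvariantForm Filter
open scoped MatrixGroups ModularForm Topology Manifold

namespace Fermat.Agent.H83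

noncomputable section

/-- `Γ₀(N)` inside `GL(2, ℝ)`. -/
abbrev G0 (N : ℕ) : Subgroup (GL (Fin 2) ℝ) :=
  Subgroup.map (Matrix.SpecialLinearGroup.mapGL ℝ) (Gamma0 N)

theorem Gamma0_le_of_dvd {d N : ℕ} (h : d ∣ N) : Gamma0 N ≤ Gamma0 d := by
  intro A hA
  rw [Gamma0_mem] at hA ⊢
  rw [ZMod.intCast_zmod_eq_zero_iff_dvd] at hA ⊢
  exact (Int.natCast_dvd_natCast.mpr h).trans hA

theorem G0_le_of_dvd {d N : ℕ} (h : d ∣ N) : G0 N ≤ G0 d :=
  Subgroup.map_mono (Gamma0_le_of_dvd h)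

/-- The dilation `z ↦ d z` (total in `d`). -/
def dil (d : ℕ) (z : ℍ) : ℍ := heckeDiagMatrix d • z

theorem coe_dil {d : ℕ} (hd : d ≠ 0) (z : ℍ) : ((dil d z : ℍ) : ℂ) = (d : ℂ) * (z : ℂ) :=
  coe_heckeDiagMatrix_smul hd z

theorem isMF_dilate {N d : ℕ} (hd0 : d ≠ 0) (hd : d ∣ N) {k : ℤ} (g : ModularForm 𝒮ℒ k) :
    IsMF (G0 N) k (fun z => g (dil d z)) := by
  have : NeZero d := ⟨hd0⟩
  exact ⟨Fermat.Agent.H18.restrictLevel (G0_le_of_dvd hd) (Fermat.Agent.H62.dilate d g),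
    funext fun z => Fermat.Agent.H62.dilate_apply d g z⟩

theorem isMF_E₄_dil {N d : ℕ} (hd0 : d ≠ 0) (hd : d ∣ N) :
    IsMF (G0 N) 4 (fun z => E₄ (dil d z)) := isMF_dilate hd0 hd E₄

theorem isMF_Δ_dil {N d : ℕ} (hd0 : d ≠ 0) (hd : d ∣ N) :
    IsMF (G0 N) 12 (fun z => ModularForm.discriminant (dil d z)) :=
  isMF_dilate hd0 hd (CuspForm.discriminant : ModularForm 𝒮ℒ 12)

/-- The nowhere vanishing form `∏_{d ∣ N} Δ(d z)`. -/
def B0 (N : ℕ) : ℍ → ℂ := ∏ d ∈ N.divisors, fun z => ModularForm.discriminant (dil d z)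

theorem B0_apply (N : ℕ) (z : ℍ) :
    B0 N z = ∏ d ∈ N.divisors, ModularForm.discriminant (dil d z) := by
  simp [B0, Finset.prod_apply]

theorem B0_ne_zero (N : ℕ) (z : ℍ) : B0 N z ≠ 0 := by
  rw [B0_apply]
  exact Finset.prod_ne_zero_iff.mpr fun _ _ => ModularForm.discriminant_ne_zero _

/-- weight of `B0 N` -/
def w0 (N : ℕ) : ℤ := 12 * (N.divisors.card : ℤ)

theorem isMF_B0 (N : ℕ) : IsMF (G0 N) (w0 N) (B0 N) :=
  IsMF.prod _ _ fun _ hd =>
    isMF_Δ_dil (Nat.pos_of_mem_divisors hd).ne' (Nat.dvd_of_mem_divisors hd)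

/-- `g` is a quotient of a modular form on `Γ₀(N)` by a power of `B0 N`. -/
def IsQuot (N : ℕ) (g : ℍ → ℂ) : Prop :=
  ∃ M : ℕ, IsMF (G0 N) (w0 N * M) (g * B0 N ^ M)

namespace IsQuot

variable {N : ℕ} {g h : ℍ → ℂ}

theorem const (c : ℂ) : IsQuot N (fun _ => c) := by
  refine ⟨0, ?_⟩
  have := IsMF.const (Γ := G0 N) c
  refine (this.cast (by simp)).congr ?_
  funext z
  simp

theorem add (hg : IsQuot N g) (hh : IsQuot N h) : IsQuot N (g + h) := by
  obtain ⟨M₁, h₁⟩ := hg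
  obtain ⟨M₂, h₂⟩ := hh
  refine ⟨M₁ + M₂, ?_⟩
  have hB₁ := (isMF_B0 N).pow M₁
  have hB₂ := (isMF_B0 N).pow M₂
  have e₁ := (h₁.mul hB₂).cast (l := w0 N * ((M₁ + M₂ : ℕ) : ℤ)) (by push_cast; ring)
  have e₂ := (h₂.mul hB₁).cast (l := w0 N * ((M₁ + M₂ : ℕ) : ℤ)) (by push_cast; ring)
  refine (e₁.add e₂).congr ?_
  funext z
  simp only [Pi.add_apply, Pi.mul_apply, Pi.pow_apply]
  ring

theorem mul (hg : IsQuot N g) (hh : IsQuot N h) : IsQuot N (g * h) := by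
  obtain ⟨M₁, h₁⟩ := hg
  obtain ⟨M₂, h₂⟩ := hh
  refine ⟨M₁ + M₂, ?_⟩
  have e := (h₁.mul h₂).cast (l := w0 N * ((M₁ + M₂ : ℕ) : ℤ)) (by push_cast; ring)
  refine e.congr ?_
  funext z
  simp only [Pi.mul_apply, Pi.pow_apply]
  ring

/-- The generators `z ↦ j (d z)`. -/
theorem jf_dil {d : ℕ} (hd0 : d ≠ 0) (hd : d ∣ N) (hN : N ≠ 0) :
    IsQuot N (fun z => jf (dil d z)) := by
  classical
  refine ⟨1, ?_⟩
  have hmem : d ∈ N.divisors := Nat.mem_divisors.mpr ⟨hd, hN⟩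
  have h1 : IsMF (G0 N) (4 * (3 : ℕ)) ((fun z => E₄ (dil d z)) ^ 3) :=
    (isMF_E₄_dil hd0 hd).pow 3
  have h2 : IsMF (G0 N) (12 * ((N.divisors.erase d).card : ℤ))
      (∏ e ∈ N.divisors.erase d, fun z => ModularForm.discriminant (dil e z)) :=
    IsMF.prod _ _ fun e he =>
      isMF_Δ_dil (Nat.pos_of_mem_divisors (Finset.mem_of_mem_erase he)).ne'
        (Nat.dvd_of_mem_divisors (Finset.mem_of_mem_erase he))
  have hcard : (N.divisors.erase d).card + 1 = N.divisors.card :=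
    Finset.card_erase_add_one hmem
  refine ((h1.mul h2).cast ?_).congr ?_
  · rw [w0, ← hcard]; push_cast; ring
  · funext z
    have hprod : B0 N z = ModularForm.discriminant (dil d z) *
        ∏ e ∈ N.divisors.erase d, ModularForm.discriminant (dil e z) := by
      rw [B0_apply]
      exact (Finset.mul_prod_erase N.divisors
        (fun e => ModularForm.discriminant (dil e z)) hmem).symm
    simp only [Pi.mul_apply, Pi.pow_apply, Finset.prod_apply, pow_one]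
    rw [hprod, E₄_cube_eq]
    ring

end IsQuot

end

end Fermat.Agent.H83
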