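/-
GEN-16 (helper83), analytic core: a quotient `g = A / B` of modular forms on `Γ₀(N)` (with `B`
nowhere vanishing) satisfies a nontrivial polynomial relation with `j`, of degree at most
`[SL(2,ℤ) : Γ₀(N)]` in `g`.  Proof: the norm `∏_cosets (y B - A)|γ` is a level-one form for every
`y`, hence `Δ ^ m` times a polynomial in `j`; interpolate in `y`.
-/
import Fermat.Agent.H83.Gen16Quot

set_option autoImplicit false

open UpperHalfPlane ModularForm CongruenceSubgroup SlashInvariantForm Filter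
open scoped MatrixGroups ModularForm Topology Manifold

namespace Fermat.Agent.H83

noncomputable section

theorem card_quot_eq (N : ℕ) :
    Nat.card (𝒮ℒ ⧸ (G0 N).subgroupOf 𝒮ℒ) = Nat.card (SL(2, ℤ) ⧸ Gamma0 N) := by
  rw [← Subgroup.index_eq_card, ← Subgroup.index_eq_card]
  show (G0 N).relIndex 𝒮ℒ = _
  rw [MonoidHom.range_eq_map, G0,
    Subgroup.relIndex_map_map_of_injective _ _ Matrix.SpecialLinearGroup.mapGL_injective,
    Subgroup.relIndex_top_right]

section quotientFunc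

variable {N : ℕ} {w : ℤ}

theorem quotientFunc_smul_sub (A B : ModularForm (G0 N) w) (c : ℝ)
    (q : 𝒮ℒ ⧸ (G0 N).subgroupOf 𝒮ℒ) (τ : ℍ) :
    quotientFunc ((c : ℂ) • B - A) q τ = c * quotientFunc B q τ - quotientFunc A q τ := by
  induction q using Quotient.inductionOn with
  | h r =>
    simp only [quotientFunc_mk]
    have : (⇑((c : ℂ) • B - A) : ℍ → ℂ) = (c : ℂ) • ⇑B + -⇑A := by
      funext z
      simp [sub_eq_add_neg]
    rw [this, SlashAction.add_slash, SlashAction.neg_slash, ModularForm.smul_slash]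
    simp [sub_eq_add_neg]

theorem quotientFunc_ne_zero (B : ModularForm (G0 N) w) (hB : ∀ z, B z ≠ 0)
    (q : 𝒮ℒ ⧸ (G0 N).subgroupOf 𝒮ℒ) (τ : ℍ) : quotientFunc B q τ ≠ 0 := by
  induction q using Quotient.inductionOn with
  | h r =>
    simp only [quotientFunc_mk]
    rw [ModularForm.slash_apply]
    refine mul_ne_zero (mul_ne_zero ?_ ?_) ?_
    · simpa using hB _
    · apply zpow_ne_zero
      rw [Ne, Complex.ofReal_eq_zero, abs_eq_zero]
      exact Units.ne_zero _
    · exact zpow_ne_zero _ (denom_ne_zero _ _)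

theorem quotientFunc_one (B : ModularForm (G0 N) w) (τ : ℍ) :
    quotientFunc B (⟦1⟧ : 𝒮ℒ ⧸ (G0 N).subgroupOf 𝒮ℒ) τ = B τ := by
  simp [quotientFunc_mk]

end quotientFunc

section bivariate

open Polynomial

/-- Expansion of `∑_l b_l(y) P_l(x)` as a bivariate polynomial. -/
theorem sum_eval_mul_eval {ι : Type*} (s : Finset ι) (b P : ι → Polynomial ℂ) (μ m : ℕ)
    (hb : ∀ l ∈ s, (b l).natDegree < μ + 1) (hP : ∀ l ∈ s, (P l).natDegree < m + 1) (x y : ℂ) :
    ∑ p : Fin (μ + 1) × Fin (m + 1),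
        (∑ l ∈ s, (b l).coeff (p.1 : ℕ) * (P l).coeff (p.2 : ℕ)) * x ^ (p.2 : ℕ) * y ^ (p.1 : ℕ) =
      ∑ l ∈ s, (b l).eval y * (P l).eval x := by
  have h1 : ∀ l ∈ s, (b l).eval y * (P l).eval x =
      ∑ p : Fin (μ + 1) × Fin (m + 1),
        (b l).coeff (p.1 : ℕ) * (P l).coeff (p.2 : ℕ) * x ^ (p.2 : ℕ) * y ^ (p.1 : ℕ) := by
    intro l hl
    rw [Polynomial.eval_eq_sum_range' (hb l hl), Polynomial.eval_eq_sum_range' (hP l hl),
      ← Fin.sum_univ_eq_sum_range (fun i => (b l).coeff i * y ^ i),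
      ← Fin.sum_univ_eq_sum_range (fun i => (P l).coeff i * x ^ i), Finset.sum_mul_sum,
      Fintype.sum_prod_type]
    refine Finset.sum_congr rfl fun i _ => Finset.sum_congr rfl fun k _ => ?_
    ring
  rw [Finset.sum_congr rfl h1, Finset.sum_comm]
  refine Finset.sum_congr rfl fun p _ => ?_
  rw [Finset.sum_mul, Finset.sum_mul]

end bivariate

section main

open Polynomial

/-- Core relation, with the index written as `Nat.card (𝒮ℒ ⧸ Γ₀(N))`. -/
theorem exists_relation_aux (N : ℕ) [NeZero N] (g : ℍ → ℂ) (hg : IsQuot N g) :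
    ∃ (L : ℕ) (c : Fin (Nat.card (𝒮ℒ ⧸ (G0 N).subgroupOf 𝒮ℒ) + 1) × Fin (L + 1) → ℂ), c ≠ 0 ∧
      ∀ z, ∑ p, c p * jf z ^ (p.2 : ℕ) * g z ^ (p.1 : ℕ) = 0 := by
  classical
  obtain ⟨M, A, hA⟩ := hg
  obtain ⟨B, hB⟩ := (isMF_B0 N).pow M
  let _ : Fintype (𝒮ℒ ⧸ (G0 N).subgroupOf 𝒮ℒ) := Fintype.ofFinite _
  set μ : ℕ := Nat.card (𝒮ℒ ⧸ (G0 N).subgroupOf 𝒮ℒ) with hμ
  have hBne : ∀ z, B z ≠ 0 := fun z => by
    rw [hB]
    exact pow_ne_zero _ (B0_ne_zero N z)
  have hAB : ∀ z, A z = g z * B z := fun z => by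
    rw [hA, hB]; rfl
  -- the level-one forms
  let F : ℕ → ModularForm (G0 N) (w0 N * M) := fun l => (((l : ℝ) : ℂ)) • B - A
  let G : ℕ → ModularForm 𝒮ℒ (w0 N * M * μ) := fun l => ModularForm.norm 𝒮ℒ (F l)
  set m : ℕ := N.divisors.card * M * μ with hm
  have hw : w0 N * M * μ = 12 * (m : ℤ) := by
    rw [hm, w0]; push_cast; ring
  have hpoly : ∀ l, ∃ P : Polynomial ℂ, P.natDegree ≤ m ∧
      ∀ z, G l z = ModularForm.discriminant z ^ m * P.eval (jf z) :=
    fun l => levelOne_poly m _ hw (G l)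
  choose P hPdeg hP using hpoly
  -- the pointwise polynomial in `y`
  let p : ℍ → Polynomial ℂ := fun τ =>
    ∏ q : 𝒮ℒ ⧸ (G0 N).subgroupOf 𝒮ℒ, (C (quotientFunc B q τ) * X - C (quotientFunc A q τ))
  have hp_eval : ∀ τ y, (p τ).eval y =
      ∏ q : 𝒮ℒ ⧸ (G0 N).subgroupOf 𝒮ℒ, (quotientFunc B q τ * y - quotientFunc A q τ) := by
    intro τ y
    simp only [p, Polynomial.eval_prod, Polynomial.eval_sub, Polynomial.eval_mul,
      Polynomial.eval_C, Polynomial.eval_X]
  have hp_natDeg : ∀ τ, (p τ).natDegree ≤ μ := by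
    intro τ
    refine (Polynomial.natDegree_prod_le _ _).trans ?_
    have h1 : ∀ q ∈ (Finset.univ : Finset (𝒮ℒ ⧸ (G0 N).subgroupOf 𝒮ℒ)),
        (C (quotientFunc B q τ) * X - C (quotientFunc A q τ)).natDegree ≤ 1 := fun q _ =>
      (Polynomial.natDegree_sub_le _ _).trans
        (max_le ((Polynomial.natDegree_C_mul_le _ _).trans Polynomial.natDegree_X_le) (by simp))
    refine (Finset.sum_le_sum h1).trans ?_
    simp [hμ, Nat.card_eq_fintype_card]
  have hp_ne : ∀ τ, p τ ≠ 0 := by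
    intro τ
    refine Finset.prod_ne_zero_iff.mpr fun q _ h0 => ?_
    have h1 := congrArg (fun f : Polynomial ℂ => f.coeff 1) h0
    simp only [Polynomial.coeff_sub, Polynomial.coeff_C_mul, Polynomial.coeff_X_one, mul_one,
      Polynomial.coeff_C_succ, sub_zero, Polynomial.coeff_zero] at h1
    exact quotientFunc_ne_zero B hBne q τ h1
  have hG : ∀ l τ, G l τ = (p τ).eval (l : ℂ) := by
    intro l τ
    rw [hp_eval]
    show (ModularForm.norm 𝒮ℒ (F l)) τ = _
    rw [ModularForm.coe_norm, Finset.prod_apply]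
    refine Finset.prod_congr rfl fun q _ => ?_
    rw [quotientFunc_smul_sub]
    push_cast
    ring
  -- Lagrange interpolation in `y`
  let s : Finset ℕ := Finset.range (μ + 1)
  let v : ℕ → ℂ := fun l => (l : ℂ)
  have hv : Set.InjOn v (s : Set ℕ) := fun a _ b _ hab => by
    have : (a : ℂ) = (b : ℂ) := hab
    exact_mod_cast this
  have hscard : s.card = μ + 1 := Finset.card_range _
  have hlag : ∀ τ y, (p τ).eval y =
      ∑ l ∈ s, (Lagrange.basis s v l).eval y * (P l).eval (jf τ) *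
        ModularForm.discriminant τ ^ m := by
    intro τ y
    have hdeg : (p τ).degree < s.card := by
      refine (Polynomial.degree_le_of_natDegree_le (hp_natDeg τ)).trans_lt ?_
      rw [hscard]
      exact_mod_cast Nat.lt_succ_self μ
    have h1 := Lagrange.eq_interpolate hv hdeg
    rw [Lagrange.interpolate_apply] at h1
    have h2 := congrArg (fun f : Polynomial ℂ => f.eval y) h1
    simp only [Polynomial.eval_finsetSum, Polynomial.eval_mul, Polynomial.eval_C] at h2
    rw [h2]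
    refine Finset.sum_congr rfl fun l _ => ?_
    rw [← hG, hP]
    ring
  have hbdeg : ∀ l ∈ s, (Lagrange.basis s v l).natDegree < μ + 1 := by
    intro l hl
    have h1 := Lagrange.degree_basis hv hl
    rw [hscard, Nat.add_sub_cancel] at h1
    have h2 := Polynomial.natDegree_le_of_degree_le h1.le
    omega
  have hPdeg' : ∀ l ∈ s, (P l).natDegree < m + 1 := fun l _ => Nat.lt_succ_of_le (hPdeg l)
  refine ⟨m, fun q => ∑ l ∈ s, (Lagrange.basis s v l).coeff (q.1 : ℕ) * (P l).coeff (q.2 : ℕ),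
    ?_, fun z => ?_⟩
  · -- nontriviality
    intro hc
    have hzero : ∀ x y : ℂ, ∑ l ∈ s, (Lagrange.basis s v l).eval y * (P l).eval x = 0 := by
      intro x y
      rw [← sum_eval_mul_eval s _ P μ m hbdeg hPdeg' x y]
      refine Finset.sum_eq_zero fun q _ => ?_
      have := congrFun hc q
      simp only [Pi.zero_apply] at this
      rw [this, zero_mul, zero_mul]
    apply hp_ne UpperHalfPlane.I
    refine Polynomial.funext fun y => ?_
    rw [hlag, Polynomial.eval_zero, ← Finset.sum_mul, hzero, zero_mul]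
  · -- the relation
    have h1 := sum_eval_mul_eval s (Lagrange.basis s v) P μ m hbdeg hPdeg' (jf z) (g z)
    rw [h1]
    have h2 := hlag z (g z)
    rw [← Finset.sum_mul] at h2
    have h3 : (p z).eval (g z) = 0 := by
      rw [hp_eval]
      refine Finset.prod_eq_zero (Finset.mem_univ (⟦1⟧ : 𝒮ℒ ⧸ (G0 N).subgroupOf 𝒮ℒ)) ?_
      rw [quotientFunc_one, quotientFunc_one, hAB]
      ring
    rw [h3] at h2
    have h4 : ModularForm.discriminant z ^ m ≠ 0 :=
      pow_ne_zero _ (ModularForm.discriminant_ne_zero z)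
    exact (mul_eq_zero.mp h2.symm).resolve_right h4

/-- **Analytic core of GEN-16**: a quotient `g` of modular forms on `Γ₀(N)` satisfies a nontrivial
relation `∑ c_{i,l} j^l g^i = 0` with `i ≤ [SL(2,ℤ) : Γ₀(N)]`. -/
theorem exists_relation (N : ℕ) [NeZero N] (g : ℍ → ℂ) (hg : IsQuot N g) :
    ∃ (L : ℕ) (c : Fin (Nat.card (SL(2, ℤ) ⧸ Gamma0 N) + 1) × Fin (L + 1) → ℂ), c ≠ 0 ∧
      ∀ z, ∑ p, c p * jf z ^ (p.2 : ℕ) * g z ^ (p.1 : ℕ) = 0 := by
  have h := exists_relation_aux N g hg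
  rwa [card_quot_eq] at h

end main

end

end Fermat.Agent.H83
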