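/-
GEN-16 (helper83): degree of the modular equation.  `[F_N : ℚ̄(j)] ≤ [SL(2,ℤ) : Γ₀(N)]`, given the
relation-transfer form `CoreRT N` of the GEN-11 core statement.
-/
import Fermat.Agent.H23.BlueprintAn
import Fermat.Agent.H83.Gen16Lin
import Fermat.Agent.H83.Gen16Norm
import Fermat.Agent.H83.Gen16Alg

set_option autoImplicit false

open UpperHalfPlane ModularForm CongruenceSubgroup IntermediateField
open scoped MatrixGroups ModularForm Topology Manifold

namespace Fermat.Agent.H83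

open Fermat.Agent.H23

/-- **Relation transfer** (the form of the GEN-11 core statement used by GEN-16): the map `Θ` from
`Rsub N` to functions on `ℍ` is given on generators, and every `ℂ`-linear relation among values of
`Θ` already holds among the (coefficientwise embedded) `q`-expansions. -/
def CoreRT (N : ℕ) [NeZero N] : Prop :=
  ∃ (ι : AlgebraicClosure ℚ →+* ℂ) (Θ : ↥(Rsub N) →+* (ℍ → ℂ)),
    (∀ c : AlgebraicClosure ℚ, Θ (algebraMap (AlgebraicClosure ℚ) ↥(Rsub N) c) = fun _ => ι c) ∧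
    (∀ (d : ℕ) (_ : NeZero d) (hd : d ∣ N) (h : jBarD N d hd ∈ Rsub N),
      Θ ⟨jBarD N d hd, h⟩ = fun z => jfun (scaleH d z)) ∧
    (∀ (n : ℕ) (c : Fin n → ℂ) (r : Fin n → ↥(Rsub N)),
      (∑ i, c i • Θ (r i)) = 0 →
      ∑ i, c i • ModularCurve.coeffMap ι
        (((r i : ↥(ModularCurve.modularFunctionFieldBar N)) :
          LaurentSeries (AlgebraicClosure ℚ))) = 0)

theorem scaleH_eq_dil (d : ℕ) [NeZero d] (z : ℍ) : scaleH d z = dil d z := by
  apply UpperHalfPlane.ext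
  rw [coe_dil (NeZero.ne d)]
  rfl

theorem jfun_eq_jf : jfun = jf := rfl

theorem scaleH_one (z : ℍ) : scaleH 1 z = z := by
  apply UpperHalfPlane.ext
  show ((1 : ℕ) : ℂ) * (z : ℂ) = z
  simp

section

variable {N : ℕ} [NeZero N] {ι : AlgebraicClosure ℚ →+* ℂ} {Θ : ↥(Rsub N) →+* (ℍ → ℂ)}

theorem isQuot_Θ
    (hconst : ∀ c : AlgebraicClosure ℚ,
      Θ (algebraMap (AlgebraicClosure ℚ) ↥(Rsub N) c) = fun _ => ι c)
    (hgen : ∀ (d : ℕ) (_ : NeZero d) (hd : d ∣ N) (h : jBarD N d hd ∈ Rsub N),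
      Θ ⟨jBarD N d hd, h⟩ = fun z => jfun (scaleH d z))
    (r : ↥(Rsub N)) : IsQuot N (Θ r) := by
  obtain ⟨x, hx⟩ := r
  induction hx using Algebra.adjoin_induction with
  | mem x hx =>
    obtain ⟨d, hdne, hd, rfl⟩ := hx
    have h1 := hgen d hdne hd (Algebra.subset_adjoin ⟨d, hdne, hd, rfl⟩)
    have h2 : (fun z => jfun (scaleH d z)) = fun z => jf (dil d z) := by
      funext z
      rw [scaleH_eq_dil, jfun_eq_jf]
    have h3 : IsQuot N (fun z => jf (dil d z)) :=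
      IsQuot.jf_dil (NeZero.ne d) hd (NeZero.ne N)
    rw [← h2, ← h1] at h3
    exact h3
  | algebraMap c =>
    have : (⟨algebraMap (AlgebraicClosure ℚ) ↥(ModularCurve.modularFunctionFieldBar N) c,
        Subalgebra.algebraMap_mem _ c⟩ : ↥(Rsub N)) =
        algebraMap (AlgebraicClosure ℚ) ↥(Rsub N) c := rfl
    rw [this, hconst]
    exact IsQuot.const _
  | add x y hx hy ihx ihy =>
    have : (⟨x + y, Subalgebra.add_mem _ hx hy⟩ : ↥(Rsub N)) = ⟨x, hx⟩ + ⟨y, hy⟩ := rfl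
    rw [this, map_add]
    exact ihx.add ihy
  | mul x y hx hy ihx ihy =>
    have : (⟨x * y, Subalgebra.mul_mem _ hx hy⟩ : ↥(Rsub N)) = ⟨x, hx⟩ * ⟨y, hy⟩ := rfl
    rw [this, map_mul]
    exact ihx.mul ihy

theorem not_linearIndependent_aux
    (hgen : ∀ (d : ℕ) (_ : NeZero d) (hd : d ∣ N) (h : jBarD N d hd ∈ Rsub N),
      Θ ⟨jBarD N d hd, h⟩ = fun z => jfun (scaleH d z))
    (hRT : ∀ (n : ℕ) (c : Fin n → ℂ) (r : Fin n → ↥(Rsub N)),
      (∑ i, c i • Θ (r i)) = 0 →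
      ∑ i, c i • ModularCurve.coeffMap ι
        (((r i : ↥(ModularCurve.modularFunctionFieldBar N)) :
          LaurentSeries (AlgebraicClosure ℚ))) = 0)
    (r : ↥(Rsub N)) (μ L : ℕ) (c : Fin (μ + 1) × Fin (L + 1) → ℂ) (hc : c ≠ 0)
    (hrel : ∀ z, ∑ p, c p * jf z ^ (p.2 : ℕ) * Θ r z ^ (p.1 : ℕ) = 0) :
    ¬ LinearIndependent (AlgebraicClosure ℚ)
      (fun p : Fin (μ + 1) × Fin (L + 1) =>
        (jBar N) ^ (p.2 : ℕ) * (r : ↥(ModularCurve.modularFunctionFieldBar N)) ^ (p.1 : ℕ)) := by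
  intro hLI
  apply hc
  let jR : ↥(Rsub N) := ⟨jBar N, jBar_mem_Rsub N⟩
  have hΘj : Θ jR = jf := by
    have hmem : jBarD N 1 (one_dvd N) ∈ Rsub N := by
      rw [jBarD_one]; exact jBar_mem_Rsub N
    have h1 := hgen 1 inferInstance (one_dvd N) hmem
    have h2 : (⟨jBarD N 1 (one_dvd N), hmem⟩ : ↥(Rsub N)) = jR := Subtype.ext (jBarD_one N)
    rw [h2] at h1
    rw [h1]
    funext z
    rw [scaleH_one]
    rfl
  let rr : Fin (μ + 1) × Fin (L + 1) → ↥(Rsub N) := fun p => jR ^ (p.2 : ℕ) * r ^ (p.1 : ℕ)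
  have hΘrr : ∀ p z, Θ (rr p) z = jf z ^ (p.2 : ℕ) * Θ r z ^ (p.1 : ℕ) := by
    intro p z
    simp only [rr, map_mul, map_pow, hΘj, Pi.mul_apply, Pi.pow_apply]
  have hsum : ∑ p, c p • Θ (rr p) = 0 := by
    funext z
    rw [Finset.sum_apply, Pi.zero_apply, ← hrel z]
    refine Finset.sum_congr rfl fun p _ => ?_
    rw [Pi.smul_apply, hΘrr, smul_eq_mul, mul_assoc]
  -- reindex by `Fin n`
  let e : Fin ((μ + 1) * (L + 1)) ≃ Fin (μ + 1) × Fin (L + 1) := finProdFinEquiv.symm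
  have h1 := hRT _ (c ∘ e) (rr ∘ e) (by
    rw [← hsum]
    exact Equiv.sum_comp e (fun p => c p • Θ (rr p)))
  have h2 : ∑ p, c p • ModularCurve.coeffMap ι
      (((rr p : ↥(ModularCurve.modularFunctionFieldBar N)) :
        LaurentSeries (AlgebraicClosure ℚ))) = 0 := by
    rw [← h1]
    exact (Equiv.sum_comp e (fun p => c p • ModularCurve.coeffMap ι
      (((rr p : ↥(ModularCurve.modularFunctionFieldBar N)) :
        LaurentSeries (AlgebraicClosure ℚ))))).symm
  -- linear independence over `ℚ̄` passes to Laurent series and then to `ℂ`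
  have hLI1 : LinearIndependent (AlgebraicClosure ℚ)
      (fun p => (((rr p : ↥(ModularCurve.modularFunctionFieldBar N)) :
        LaurentSeries (AlgebraicClosure ℚ)))) := by
    have h3 := hLI.map' (valLin (ModularCurve.modularFunctionFieldBar N)) (ker_valLin _)
    have h4 : (⇑(valLin (ModularCurve.modularFunctionFieldBar N)) ∘
        fun p : Fin (μ + 1) × Fin (L + 1) =>
          (jBar N) ^ (p.2 : ℕ) * (r : ↥(ModularCurve.modularFunctionFieldBar N)) ^ (p.1 : ℕ)) =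
        fun p => (((rr p : ↥(ModularCurve.modularFunctionFieldBar N)) :
          LaurentSeries (AlgebraicClosure ℚ))) := by
      funext p
      rfl
    rwa [h4] at h3
  have hLI2 := linearIndependent_coeffMap ι _ hLI1
  exact funext (Fintype.linearIndependent_iff.mp hLI2 c h2)

theorem not_linearIndependent_of_coreRT
    (hconst : ∀ c : AlgebraicClosure ℚ,
      Θ (algebraMap (AlgebraicClosure ℚ) ↥(Rsub N) c) = fun _ => ι c)
    (hgen : ∀ (d : ℕ) (_ : NeZero d) (hd : d ∣ N) (h : jBarD N d hd ∈ Rsub N),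
      Θ ⟨jBarD N d hd, h⟩ = fun z => jfun (scaleH d z))
    (hRT : ∀ (n : ℕ) (c : Fin n → ℂ) (r : Fin n → ↥(Rsub N)),
      (∑ i, c i • Θ (r i)) = 0 →
      ∑ i, c i • ModularCurve.coeffMap ι
        (((r i : ↥(ModularCurve.modularFunctionFieldBar N)) :
          LaurentSeries (AlgebraicClosure ℚ))) = 0)
    (r : ↥(Rsub N)) :
    ∃ L : ℕ, ¬ LinearIndependent (AlgebraicClosure ℚ)
      (fun p : Fin (Nat.card (SL(2, ℤ) ⧸ Gamma0 N) + 1) × Fin (L + 1) =>
        (jBar N) ^ (p.2 : ℕ) * (r : ↥(ModularCurve.modularFunctionFieldBar N)) ^ (p.1 : ℕ)) := by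
  obtain ⟨L, c, hc, hrel⟩ := exists_relation N (Θ r) (isQuot_Θ hconst hgen r)
  exact ⟨L, not_linearIndependent_aux hgen hRT r _ L c hc hrel⟩

end

/-- **GEN-16, conditional on relation transfer.** -/
theorem degree_of_coreRT (N : ℕ) [NeZero N] (hrt : CoreRT N)
    (hfrac : ∀ f : ↥(ModularCurve.modularFunctionFieldBar N), ∃ r s : ↥(Rsub N), s ≠ 0 ∧
      f * (s : ↥(ModularCurve.modularFunctionFieldBar N)) = r) :
    DegreeStatement N := by
  obtain ⟨ι, Θ, hconst, hgen, hRT⟩ := hrt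
  have h := finrank_le_of_relations (K := AlgebraicClosure ℚ) (jBar N) (transcendental_jBar N)
    (Rsub N) (jBar_mem_Rsub N) (Nat.card (SL(2, ℤ) ⧸ Gamma0 N))
    (fun r hr => not_linearIndependent_of_coreRT hconst hgen hRT ⟨r, hr⟩)
    (fun f => by
      obtain ⟨r, s, hs, h⟩ := hfrac f
      exact ⟨r, r.2, s, s.2, fun h0 => hs (Subtype.ext h0), h⟩)
  exact ⟨transcendental_jBar N, h.1, h.2⟩

/-- **GEN-16**: the degree statement, from the core statement together with relation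
transfer. -/
theorem degree_of_core (N : ℕ) [NeZero N] (hcore : CoreStatement N) (hrt : CoreRT N) :
    DegreeStatement N := by
  obtain ⟨_, _, _, _, _, _, hfrac⟩ := hcore
  exact degree_of_coreRT N hrt hfrac

end Fermat.Agent.H83
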