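/-
GEN-16 (helper83), final statement: `[F_N : ℚ̄(j)] ≤ [SL(2,ℤ) : Γ₀(N)]`, unconditionally
(using the landed GEN-11 results `H44.core` and `H44.core_rt`).
-/
import Fermat.Agent.H83.Gen16
import Fermat.Agent.H44.Gen11.Core

set_option autoImplicit false

namespace Fermat.Agent.H83

/-- **GEN-16** (P-GENUS): degree of the modular equation, in the shape of the subtask spec. -/
theorem degree_of_coreStatement (N : ℕ) [NeZero N] (hcore : Fermat.Agent.H23.CoreStatement N) :
    Fermat.Agent.H23.DegreeStatement N :=
  degree_of_core N hcore (Fermat.Agent.H44.core_rt N)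

/-- **GEN-16** (P-GENUS): `jBar N` is transcendental over `ℚ̄`, the function field of `X₀(N)` is
finite over `ℚ̄(j)` and its degree is at most the index of `Γ₀(N)` in `SL(2, ℤ)`. -/
theorem degree (N : ℕ) [NeZero N] : Fermat.Agent.H23.DegreeStatement N :=
  degree_of_coreStatement N (Fermat.Agent.H44.core N)

end Fermat.Agent.H83
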