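/-
P-PET / PET-MEAN (helper83): the invariant measure on the upper half plane is positive on
nonempty open sets, and the standard fundamental domain has finite volume.  Mathlib only.
-/
import Mathlib

set_option autoImplicit false

noncomputable section

namespace Fermat.Agent.H83.Pet

open MeasureTheory UpperHalfPlane
open scoped ENNReal NNReal

/-- The density of the invariant measure with respect to Lebesgue measure. -/
def dens (z : ℂ) : ℝ≥0∞ := ((1 / ‖z.im‖₊) ^ 2 : ℝ≥0)

theorem measurable_dens : Measurable dens := by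
  unfold dens
  fun_prop

theorem volume_eq_lintegral_dens (s : Set ℍ) :
    volume s = ∫⁻ z : ℂ in (↑) '' s, dens z := volume_eq_lintegral s

theorem dens_ne_zero {z : ℂ} (hz : z.im ≠ 0) : dens z ≠ 0 := by
  unfold dens
  have h1 : (‖z.im‖₊ : ℝ≥0) ≠ 0 := by simpa using hz
  have h2 : ((1 / ‖z.im‖₊) ^ 2 : ℝ≥0) ≠ 0 := pow_ne_zero _ (by positivity)
  exact_mod_cast h2

/-- The invariant measure is positive on nonempty open sets. -/
theorem volume_pos_of_isOpen {U : Set ℍ} (hU : IsOpen U) (hne : U.Nonempty) :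
    0 < (volume : Measure ℍ) U := by
  rw [volume_eq_lintegral_dens, setLIntegral_pos_iff measurable_dens]
  have hopen : IsOpen ((↑) '' U : Set ℂ) := isOpenEmbedding_coe.isOpenMap U hU
  have hsub : ((↑) '' U : Set ℂ) ⊆ Function.support dens ∩ (↑) '' U := by
    rintro _ ⟨z, hz, rfl⟩
    exact ⟨dens_ne_zero z.im_ne_zero, z, hz, rfl⟩
  exact lt_of_lt_of_le (hopen.measure_pos volume (hne.image _)) (measure_mono hsub)

theorem dens_eq_ofReal {y : ℝ} (hy : 0 < y) (x : ℝ) :
    dens (Complex.measurableEquivRealProd.symm (x, y)) = ENNReal.ofReal (y ^ (-2 : ℝ)) := by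
  unfold dens
  have him : (Complex.measurableEquivRealProd.symm (x, y)).im = y := by
    simp [Complex.measurableEquivRealProd]
  rw [him]
  rw [← ENNReal.ofReal_coe_nnreal]
  congr 1
  push_cast
  rw [Real.norm_of_nonneg hy.le, Real.rpow_neg hy.le, one_div, inv_pow]
  norm_num

/-- The standard fundamental domain has finite volume. -/
theorem volume_fd_lt_top : (volume : Measure ℍ) ModularGroup.fd < ⊤ := by
  rw [volume_eq_lintegral_dens, ModularGroup.coe_fd]
  have hsub : {z : ℂ | 0 < z.im ∧ 1 ≤ ‖z‖ ∧ |z.re| ≤ 1 / 2} ⊆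
      Complex.measurableEquivRealProd ⁻¹' (Set.Icc (-1 / 2 : ℝ) (1 / 2) ×ˢ Set.Ioi (1 / 4 : ℝ)) := by
    rintro z ⟨h1, h2, h3⟩
    have hre := abs_le.mp h3
    refine ⟨⟨by simpa [Complex.measurableEquivRealProd] using (by linarith [hre.1] : (-1/2 : ℝ) ≤ z.re),
      by simpa [Complex.measurableEquivRealProd] using hre.2⟩, ?_⟩
    have h4 : 1 ≤ z.re ^ 2 + z.im ^ 2 := by
      have := Complex.sq_norm z
      rw [Complex.normSq_apply] at this
      nlinarith [norm_nonneg z]
    have h5 : z.re ^ 2 ≤ 1 / 4 := by nlinarith [hre.1, hre.2]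
    show (1 / 4 : ℝ) < (Complex.measurableEquivRealProd z).2
    have : (Complex.measurableEquivRealProd z).2 = z.im := by simp [Complex.measurableEquivRealProd]
    rw [this]
    nlinarith
  refine lt_of_le_of_lt (lintegral_mono_set hsub) ?_
  have e1 := Complex.volume_preserving_equiv_real_prod.setLIntegral_comp_preimage_emb
    Complex.measurableEquivRealProd.measurableEmbedding
    (fun p => dens (Complex.measurableEquivRealProd.symm p))
    (Set.Icc (-1 / 2 : ℝ) (1 / 2) ×ˢ Set.Ioi (1 / 4 : ℝ))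
  simp only [MeasurableEquiv.symm_apply_apply] at e1
  rw [e1, Measure.volume_eq_prod, setLIntegral_prod]
  · have hA : ∫⁻ y in Set.Ioi (1 / 4 : ℝ), ENNReal.ofReal (y ^ (-2 : ℝ)) < ⊤ :=
      (integrableOn_Ioi_rpow_of_lt (by norm_num : (-2 : ℝ) < -1)
        (by norm_num : (0 : ℝ) < 1 / 4)).lintegral_lt_top
    have hin : ∀ x : ℝ, ∫⁻ y in Set.Ioi (1 / 4 : ℝ),
        dens (Complex.measurableEquivRealProd.symm (x, y))
        = ∫⁻ y in Set.Ioi (1 / 4 : ℝ), ENNReal.ofReal (y ^ (-2 : ℝ)) := by
      intro x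
      refine setLIntegral_congr_fun measurableSet_Ioi fun y hy => ?_
      exact dens_eq_ofReal (lt_trans (by norm_num) hy) x
    simp_rw [hin]
    rw [lintegral_const]
    refine ENNReal.mul_lt_top hA ?_
    rw [Measure.restrict_apply MeasurableSet.univ, Set.univ_inter, Real.volume_Icc]
    exact ENNReal.ofReal_lt_top
  · exact (measurable_dens.comp Complex.measurableEquivRealProd.symm.measurable).aemeasurable

end Fermat.Agent.H83.Pet
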