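/-
P-PET / PET-MEAN (helper83): abstract unfolding for partitions of unity.

A countable group `H` acts on a measure space preserving the measure.  An `H`-partition of unity
is a measurable function `F ≥ 0` with `∑_{h ∈ H} F (h x) = 1` for all `x`.  Two partitions of
unity give the same integral against every `H`-invariant function (unfolding); partitions of
unity can be conjugated and pushed down to subgroups.  Mathlib only.
-/
import Mathlib

set_option autoImplicit false

noncomputable section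

namespace Fermat.Agent.H83.Pet

open MeasureTheory
open scoped ENNReal Pointwise

section Abstract

variable {𝔾 X : Type*} [Group 𝔾] [MulAction 𝔾 X]

/-- `g` is invariant under `H`. -/
def IsInv {β : Type*} (H : Subgroup 𝔾) (g : X → β) : Prop :=
  ∀ h ∈ H, ∀ x, g (h • x) = g x

theorem IsInv.mono {β : Type*} {H H' : Subgroup 𝔾} (hle : H' ≤ H) {g : X → β} (hg : IsInv H g) :
    IsInv H' g := fun h hh x => hg h (hle hh) x

theorem IsInv.comp {β γ : Type*} {H : Subgroup 𝔾} {g : X → β} (hg : IsInv H g) (φ : β → γ) :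
    IsInv H (fun x => φ (g x)) := fun h hh x => by
  show φ (g (h • x)) = φ (g x)
  rw [hg h hh x]

theorem isInv_const {β : Type*} (H : Subgroup 𝔾) (c : β) : IsInv H (fun _ : X => c) :=
  fun _ _ _ => rfl

variable [MeasurableSpace X] [MeasurableConstSMul 𝔾 X]

/-- `F` is a partition of unity for the subgroup `H`. -/
def IsPOU (H : Subgroup 𝔾) (F : X → ℝ≥0∞) : Prop :=
  Measurable F ∧ ∀ x, ∑' h : H, F ((h : 𝔾) • x) = 1

variable (μ : Measure X) [SMulInvariantMeasure 𝔾 X μ]

theorem lintegral_comp_smul (a : 𝔾) {f : X → ℝ≥0∞} (hf : Measurable f) :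
    ∫⁻ x, f (a • x) ∂μ = ∫⁻ x, f x ∂μ :=
  (measurePreserving_smul a μ).lintegral_comp hf

/-- **Unfolding**: two partitions of unity give the same integral against invariant functions. -/
theorem unfold {H : Subgroup 𝔾} [Countable H] {F₁ F₂ g : X → ℝ≥0∞}
    (h₁ : IsPOU H F₁) (h₂ : IsPOU H F₂) (hg : Measurable g) (hinv : IsInv H g) :
    ∫⁻ x, F₁ x * g x ∂μ = ∫⁻ x, F₂ x * g x ∂μ := by
  have key : ∀ (A B : X → ℝ≥0∞), IsPOU H A → IsPOU H B →
      ∫⁻ x, A x * g x ∂μ = ∑' h : H, ∫⁻ x, A x * g x * B ((h : 𝔾) • x) ∂μ := by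
    intro A B hA hB
    rw [← lintegral_tsum]
    · congr 1
      funext x
      rw [ENNReal.tsum_mul_left, hB.2 x, mul_one]
    · intro h
      exact ((hA.1.mul hg).mul (hB.1.comp (measurable_const_smul (h : 𝔾)))).aemeasurable
  rw [key F₁ F₂ h₁ h₂, key F₂ F₁ h₂ h₁, ← (Equiv.inv H).tsum_eq]
  congr 1
  funext h
  have hm : Measurable (fun x => F₁ x * g x * F₂ (((h⁻¹ : H) : 𝔾) • x)) :=
    (h₁.1.mul hg).mul (h₂.1.comp (measurable_const_smul _))
  rw [Equiv.inv_apply, ← lintegral_comp_smul μ ((h : H) : 𝔾) hm]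
  congr 1
  funext y
  rw [hinv h h.2 y, Subgroup.coe_inv, inv_smul_smul]
  ring

/-- Conjugating a partition of unity. -/
theorem IsPOU.conj {H : Subgroup 𝔾} {F : X → ℝ≥0∞} (hF : IsPOU H F) (a : 𝔾) :
    IsPOU (ConjAct.toConjAct a • H) (fun x => F (a⁻¹ • x)) := by
  refine ⟨hF.1.comp (measurable_const_smul _), fun x => ?_⟩
  rw [← (Subgroup.equivSMul (ConjAct.toConjAct a) H).toEquiv.tsum_eq, ← hF.2 (a⁻¹ • x)]
  congr 1
  funext h
  have : ((Subgroup.equivSMul (ConjAct.toConjAct a) H h : (ConjAct.toConjAct a • H : Subgroup 𝔾))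
      : 𝔾) = a * h * a⁻¹ := by
    rw [Subgroup.equivSMul_apply_coe, ConjAct.toConjAct_smul]
  show F (a⁻¹ • ((Subgroup.equivSMul (ConjAct.toConjAct a) H h : _) : 𝔾) • x) = _
  rw [this, mul_smul, mul_smul, inv_smul_smul]

/-! ### Pushing a partition of unity down to a subgroup -/

omit [MeasurableSpace X] [MeasurableConstSMul 𝔾 X] in
/-- A left transversal of `H'` in `H` (a set of elements of `H`), containing `1`. -/
def transversal (H' H : Subgroup 𝔾) : Set H :=
  (Subgroup.exists_isComplement_left (H'.subgroupOf H) 1).choose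

omit [MulAction 𝔾 X] [MeasurableSpace X] [MeasurableConstSMul 𝔾 X] in
theorem transversal_isComplement (H' H : Subgroup 𝔾) :
    Subgroup.IsComplement (transversal H' H) (H'.subgroupOf H : Set H) :=
  (Subgroup.exists_isComplement_left (H'.subgroupOf H) 1).choose_spec.1

omit [MulAction 𝔾 X] [MeasurableSpace X] [MeasurableConstSMul 𝔾 X] in
theorem one_mem_transversal (H' H : Subgroup 𝔾) : (1 : H) ∈ transversal H' H :=
  (Subgroup.exists_isComplement_left (H'.subgroupOf H) 1).choose_spec.2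

omit [MulAction 𝔾 X] [MeasurableSpace X] [MeasurableConstSMul 𝔾 X] in
/-- Every element of `H` is `r * k` with `r` in the transversal and `k ∈ H'`. -/
theorem exists_transversal_mul (H' H : Subgroup 𝔾) (h : 𝔾) (hh : h ∈ H) :
    ∃ r : transversal H' H, ∃ k ∈ H', h = ((r : H) : 𝔾) * k := by
  obtain ⟨⟨r, k⟩, hrk⟩ := (transversal_isComplement H' H).2 ⟨h, hh⟩
  refine ⟨r, ((k : H) : 𝔾), Subgroup.mem_subgroupOf.mp k.2, ?_⟩
  have := congrArg (Subtype.val : H → 𝔾) hrk
  simpa using this.symm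

/-- The push-down of a partition of unity of `H` to the subgroup `H'`. -/
def pouDown (H' H : Subgroup 𝔾) (F : X → ℝ≥0∞) : X → ℝ≥0∞ :=
  fun x => ∑' r : transversal H' H, F (((r : H) : 𝔾) • x)

omit [MulAction 𝔾 X] [MeasurableSpace X] [MeasurableConstSMul 𝔾 X] in
/-- The index of `H'` in `H`, as an extended nonnegative real number. -/
def eindex (H' H : Subgroup 𝔾) : ℝ≥0∞ := ∑' _ : transversal H' H, 1

omit [MulAction 𝔾 X] [MeasurableSpace X] [MeasurableConstSMul 𝔾 X] in
theorem eindex_ne_zero (H' H : Subgroup 𝔾) : eindex H' H ≠ 0 := by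
  have h1 : (1 : ℝ≥0∞) ≤ eindex H' H :=
    ENNReal.le_tsum (f := fun _ : transversal H' H => (1 : ℝ≥0∞)) ⟨1, one_mem_transversal H' H⟩
  intro h0
  rw [h0] at h1
  exact absurd h1 (by norm_num)

omit [MulAction 𝔾 X] [MeasurableSpace X] [MeasurableConstSMul 𝔾 X] in
theorem eindex_ne_top (H' H : Subgroup 𝔾) (h : H'.relIndex H ≠ 0) : eindex H' H ≠ ⊤ := by
  have hcard : Nat.card (transversal H' H) = H'.relIndex H :=
    (transversal_isComplement H' H).card_left
  have hfin : Finite (transversal H' H) := Nat.finite_of_card_ne_zero (by rw [hcard]; exact h)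
  have : Fintype (transversal H' H) := Fintype.ofFinite _
  unfold eindex
  rw [tsum_fintype]
  simp

omit [MeasurableSpace X] [MeasurableConstSMul 𝔾 X] in
theorem le_pouDown (H' H : Subgroup 𝔾) (F : X → ℝ≥0∞) (r : transversal H' H) (x : X) :
    F (((r : H) : 𝔾) • x) ≤ pouDown H' H F x :=
  ENNReal.le_tsum (f := fun r : transversal H' H => F (((r : H) : 𝔾) • x)) r

theorem measurable_pouDown (H' H : Subgroup 𝔾) [Countable H] {F : X → ℝ≥0∞}
    (hF : Measurable F) : Measurable (pouDown H' H F) := by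
  unfold pouDown
  exact Measurable.tsum fun r => hF.comp (measurable_const_smul _)

theorem IsPOU.down {H' H : Subgroup 𝔾} [Countable H] (hle : H' ≤ H) {F : X → ℝ≥0∞}
    (hF : IsPOU H F) : IsPOU H' (pouDown H' H F) := by
  refine ⟨measurable_pouDown H' H hF.1, fun x => ?_⟩
  have hS := transversal_isComplement H' H
  let e : (H'.subgroupOf H) ≃ H' := (Subgroup.subgroupOfEquivOfLe hle).toEquiv
  rw [← e.tsum_eq]
  have h1 : ∀ k : H'.subgroupOf H, pouDown H' H F (((e k : H') : 𝔾) • x)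
      = ∑' r : transversal H' H, F ((((r : H) * (k : H) : H) : 𝔾) • x) := by
    intro k
    unfold pouDown
    congr 1
    funext r
    rw [Subgroup.coe_mul, mul_smul]
    rfl
  simp_rw [h1]
  rw [ENNReal.tsum_comm, ← ENNReal.tsum_prod (f := fun (r : transversal H' H)
    (k : H'.subgroupOf H) => F ((((r : H) * (k : H) : H) : 𝔾) • x)), ← hF.2 x]
  exact (Equiv.ofBijective _ hS).tsum_eq (fun h : H => F ((h : 𝔾) • x))

theorem lintegral_pouDown (H' H : Subgroup 𝔾) [Countable H] {F g : X → ℝ≥0∞}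
    (hF : Measurable F) (hg : Measurable g) (hinv : IsInv H g) :
    ∫⁻ x, pouDown H' H F x * g x ∂μ = eindex H' H * ∫⁻ x, F x * g x ∂μ := by
  unfold pouDown eindex
  simp_rw [← ENNReal.tsum_mul_right]
  rw [lintegral_tsum]
  · congr 1
    funext r
    have hm : Measurable (fun x => F x * g x) := hF.mul hg
    rw [one_mul, ← lintegral_comp_smul μ (((r : H) : 𝔾)) hm]
    congr 1
    funext x
    rw [hinv _ (r : H).2 x]
  · intro r
    exact ((hF.comp (measurable_const_smul _)).mul hg).aemeasurable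

end Abstract

/-! ### Transfer of normalised means -/

section Mean

variable {X : Type*} [MeasurableSpace X]

theorem integrable_of_bounded (ν : Measure X) [IsFiniteMeasure ν] {E : Type*}
    [NormedAddCommGroup E] [MeasurableSpace E] [BorelSpace E]
    [SecondCountableTopology E] {Φ : X → E} (hΦm : Measurable Φ) (hΦb : ∃ C : ℝ, ∀ x, ‖Φ x‖ ≤ C) :
    Integrable Φ ν := by
  obtain ⟨C, hC⟩ := hΦb
  exact Integrable.of_bound hΦm.aestronglyMeasurable C (Filter.Eventually.of_forall hC)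

/-- Real-valued transfer. -/
theorem integral_comp_eq_of_lintegral (ν₁ ν₂ : Measure X) [IsFiniteMeasure ν₁]
    [IsFiniteMeasure ν₂] (T : X → X) (hT : Measurable T) (c : ℝ≥0∞)
    (P : (X → ℝ≥0∞) → Prop)
    (hP : ∀ g, Measurable g → P g → ∫⁻ x, g (T x) ∂ν₁ = c * ∫⁻ x, g x ∂ν₂)
    (f : X → ℝ) (hfm : Measurable f) (hfb : ∃ C : ℝ, ∀ x, ‖f x‖ ≤ C)
    (hPf : ∀ φ : ℝ → ℝ≥0∞, P (fun x => φ (f x))) :
    ∫ x, f (T x) ∂ν₁ = c.toReal * ∫ x, f x ∂ν₂ := by
  have hi2 : Integrable f ν₂ := integrable_of_bounded ν₂ hfm hfb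
  have hi1 : Integrable (fun x => f (T x)) ν₁ :=
    integrable_of_bounded ν₁ (hfm.comp hT) (by obtain ⟨C, hC⟩ := hfb; exact ⟨C, fun x => hC _⟩)
  rw [integral_eq_lintegral_pos_part_sub_lintegral_neg_part hi1,
    integral_eq_lintegral_pos_part_sub_lintegral_neg_part hi2]
  have e1 := hP (fun x => ENNReal.ofReal (f x)) (ENNReal.measurable_ofReal.comp hfm)
    (hPf fun t => ENNReal.ofReal t)
  have e2 := hP (fun x => ENNReal.ofReal (-f x)) (ENNReal.measurable_ofReal.comp hfm.neg)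
    (hPf fun t => ENNReal.ofReal (-t))
  rw [e1, e2, ENNReal.toReal_mul, ENNReal.toReal_mul]
  ring

/-- Complex-valued transfer of normalised means. -/
theorem mean_comp_eq_of_lintegral (ν₁ ν₂ : Measure X) [IsFiniteMeasure ν₁]
    [IsFiniteMeasure ν₂] (T : X → X) (hT : Measurable T) (c : ℝ≥0∞) (hc0 : c ≠ 0) (hctop : c ≠ ⊤)
    (P : (X → ℝ≥0∞) → Prop)
    (hP : ∀ g, Measurable g → P g → ∫⁻ x, g (T x) ∂ν₁ = c * ∫⁻ x, g x ∂ν₂)
    (hP1 : P (fun _ => 1))
    (Φ : X → ℂ) (hΦm : Measurable Φ) (hΦb : ∃ C : ℝ, ∀ x, ‖Φ x‖ ≤ C)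
    (hPΦ : ∀ φ : ℂ → ℝ≥0∞, P (fun x => φ (Φ x))) :
    (∫ x, Φ (T x) ∂ν₁) / ((ν₁ Set.univ).toReal : ℂ)
      = (∫ x, Φ x ∂ν₂) / ((ν₂ Set.univ).toReal : ℂ) := by
  have hc : c.toReal ≠ 0 := (ENNReal.toReal_ne_zero).mpr ⟨hc0, hctop⟩
  obtain ⟨C, hC⟩ := hΦb
  have hi2 : Integrable Φ ν₂ := integrable_of_bounded ν₂ hΦm ⟨C, hC⟩
  have hi1 : Integrable (fun x => Φ (T x)) ν₁ :=
    integrable_of_bounded ν₁ (hΦm.comp hT) ⟨C, fun x => hC _⟩
  have hre := integral_comp_eq_of_lintegral ν₁ ν₂ T hT c P hP (fun x => (Φ x).re)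
    (Complex.measurable_re.comp hΦm)
    ⟨C, fun x => (Complex.abs_re_le_norm (Φ x)).trans (hC x)⟩
    (fun φ => hPΦ fun z => φ z.re)
  have him := integral_comp_eq_of_lintegral ν₁ ν₂ T hT c P hP (fun x => (Φ x).im)
    (Complex.measurable_im.comp hΦm)
    ⟨C, fun x => (Complex.abs_im_le_norm (Φ x)).trans (hC x)⟩
    (fun φ => hPΦ fun z => φ z.im)
  have hint : ∫ x, Φ (T x) ∂ν₁ = (c.toReal : ℂ) * ∫ x, Φ x ∂ν₂ := by
    apply Complex.ext
    · have h1 := integral_re (𝕜 := ℂ) hi1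
      have h2 := integral_re (𝕜 := ℂ) hi2
      simp only [RCLike.re_to_complex] at h1 h2
      rw [← h1, Complex.re_ofReal_mul, ← h2]
      exact hre
    · have h1 := integral_im (𝕜 := ℂ) hi1
      have h2 := integral_im (𝕜 := ℂ) hi2
      simp only [RCLike.im_to_complex] at h1 h2
      rw [← h1, Complex.im_ofReal_mul, ← h2]
      exact him
  have huniv : (ν₁ Set.univ).toReal = c.toReal * (ν₂ Set.univ).toReal := by
    have := hP (fun _ => 1) measurable_const hP1
    simp only [lintegral_const, one_mul] at this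
    rw [this, ENNReal.toReal_mul]
  rw [hint, huniv, Complex.ofReal_mul]
  exact mul_div_mul_left _ _ (by exact_mod_cast hc)

end Mean

end Fermat.Agent.H83.Pet
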