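/-
P-PET / PET-MEAN (helper83): the canonical partition of unity `f₀ = 1_𝒟 / #{g : g z ∈ 𝒟}` for
`SL(2, ℤ)` acting on the upper half plane.
-/
import Fermat.Agent.H83.PetUnfold
import Fermat.Agent.H83.PetMeasure

set_option autoImplicit false

noncomputable section

namespace Fermat.Agent.H83.Pet

open MeasureTheory UpperHalfPlane Matrix.SpecialLinearGroup
open scoped ENNReal NNReal MatrixGroups Pointwise Modular

/-- The finite set of `g` which can move a point of `𝒟` to a point of `𝒟`. -/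
def fdSet : Set SL(2, ℤ) :=
  {1, -1, ModularGroup.T, -ModularGroup.T, ModularGroup.T⁻¹, -ModularGroup.T⁻¹,
    ModularGroup.S, -ModularGroup.S, ModularGroup.T * ModularGroup.S,
    -(ModularGroup.T * ModularGroup.S),
    ModularGroup.T⁻¹ * ModularGroup.S * ModularGroup.T⁻¹,
    -(ModularGroup.T⁻¹ * ModularGroup.S * ModularGroup.T⁻¹),
    ModularGroup.S * ModularGroup.T⁻¹, -(ModularGroup.S * ModularGroup.T⁻¹),
    ModularGroup.S * ModularGroup.T, -(ModularGroup.S * ModularGroup.T),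
    ModularGroup.T * ModularGroup.S * ModularGroup.T,
    -(ModularGroup.T * ModularGroup.S * ModularGroup.T),
    ModularGroup.T⁻¹ * ModularGroup.S, -(ModularGroup.T⁻¹ * ModularGroup.S)}

theorem finite_fdSet : fdSet.Finite := by
  unfold fdSet
  exact Set.toFinite _

theorem mem_fdSet {g : SL(2, ℤ)} {z : ℍ} (hz : z ∈ 𝒟) (hg : g • z ∈ 𝒟) : g ∈ fdSet := by
  have := ModularGroup.cases_of_mem_fd_smul_mem_fd hz hg
  unfold fdSet
  rcases this with h | ⟨h, -⟩ | ⟨h, -⟩ | ⟨h, -⟩ | ⟨h, -⟩ | ⟨h, -⟩ | ⟨h, -⟩ | ⟨h, -⟩ | ⟨h, -⟩ |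
    ⟨h, -⟩
  all_goals
    rcases h with rfl | rfl
    all_goals simp only [Set.mem_insert_iff, Set.mem_singleton_iff, true_or, or_true]

/-- The number of `g ∈ SL(2, ℤ)` with `g z ∈ 𝒟`. -/
def wfun (z : ℍ) : ℝ≥0∞ :=
  ∑' g : SL(2, ℤ), (𝒟).indicator (fun _ => (1 : ℝ≥0∞)) (g • z)

theorem wfun_smul (g : SL(2, ℤ)) (z : ℍ) : wfun (g • z) = wfun z := by
  unfold wfun
  rw [← (Equiv.mulRight g).tsum_eq (fun g' : SL(2, ℤ) =>
    (𝒟).indicator (fun _ => (1 : ℝ≥0∞)) (g' • z))]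
  congr 1
  funext g'
  rw [Equiv.coe_mulRight, mul_smul]

theorem countable_SL : Countable SL(2, ℤ) :=
  Function.Injective.countable (f := fun g : SL(2, ℤ) => (fun i j => g.1 i j : Fin 2 → Fin 2 → ℤ))
    (fun g h hgh => Subtype.ext (Matrix.ext fun i j => congrFun (congrFun hgh i) j))

theorem measurable_smul_SL (g : SL(2, ℤ)) : Measurable (fun z : ℍ => g • z) :=
  measurable_const_smul (mapGL ℝ g : GL (Fin 2) ℝ)

theorem measurable_wfun : Measurable wfun :=
  haveI := countable_SL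
  Measurable.tsum fun g =>
    (measurable_const.indicator ModularGroup.isClosed_fd.measurableSet).comp (measurable_smul_SL g)

theorem wfun_ne_zero (z : ℍ) : wfun z ≠ 0 := by
  obtain ⟨g, hg⟩ := ModularGroup.exists_smul_mem_fd z
  have h1 : (1 : ℝ≥0∞) ≤ wfun z := by
    have := ENNReal.le_tsum (f := fun g : SL(2, ℤ) =>
      (𝒟).indicator (fun _ => (1 : ℝ≥0∞)) (g • z)) g
    rw [Set.indicator_of_mem hg] at this
    exact this
  intro h0
  rw [h0] at h1
  exact absurd h1 (by norm_num)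

theorem wfun_ne_top (z : ℍ) : wfun z ≠ ⊤ := by
  obtain ⟨g₀, hg₀⟩ := ModularGroup.exists_smul_mem_fd z
  rw [← wfun_smul g₀ z]
  unfold wfun
  have hsupp : Function.support (fun g : SL(2, ℤ) =>
      (𝒟).indicator (fun _ => (1 : ℝ≥0∞)) (g • g₀ • z)) ⊆ ↑finite_fdSet.toFinset := by
    intro g hg
    rw [Function.mem_support] at hg
    have hmem : g • g₀ • z ∈ 𝒟 := by
      by_contra hn
      exact hg (Set.indicator_of_notMem hn _)
    simpa using mem_fdSet hg₀ hmem
  rw [tsum_eq_sum' hsupp]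
  refine (ENNReal.sum_lt_top.2 fun g _ => ?_).ne
  by_cases hm : g • g₀ • z ∈ 𝒟
  · rw [Set.indicator_of_mem hm]
    exact ENNReal.one_lt_top
  · rw [Set.indicator_of_notMem hm]
    exact ENNReal.zero_lt_top

/-- The canonical partition of unity for `SL(2, ℤ)`. -/
def f0 (z : ℍ) : ℝ≥0∞ := (𝒟).indicator (fun z => (wfun z)⁻¹) z

theorem measurable_f0 : Measurable f0 :=
  measurable_wfun.inv.indicator ModularGroup.isClosed_fd.measurableSet

theorem f0_le_indicator (z : ℍ) : f0 z ≤ (𝒟).indicator (fun _ => (1 : ℝ≥0∞)) z := by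
  unfold f0
  by_cases hz : z ∈ 𝒟
  · rw [Set.indicator_of_mem hz, Set.indicator_of_mem hz]
    rw [ENNReal.inv_le_one]
    have := ENNReal.le_tsum (f := fun g : SL(2, ℤ) =>
      (𝒟).indicator (fun _ => (1 : ℝ≥0∞)) (g • z)) 1
    rw [one_smul, Set.indicator_of_mem hz] at this
    exact this
  · rw [Set.indicator_of_notMem hz, Set.indicator_of_notMem hz]

theorem f0_pos {z : ℍ} (hz : z ∈ 𝒟) : 0 < f0 z := by
  unfold f0
  rw [Set.indicator_of_mem hz]
  exact ENNReal.inv_pos.mpr (wfun_ne_top z)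

theorem f0_smul (g : SL(2, ℤ)) (z : ℍ) :
    f0 (g • z) = (𝒟).indicator (fun _ => (1 : ℝ≥0∞)) (g • z) * (wfun z)⁻¹ := by
  unfold f0
  by_cases hz : g • z ∈ 𝒟
  · rw [Set.indicator_of_mem hz, Set.indicator_of_mem hz, one_mul, wfun_smul]
  · rw [Set.indicator_of_notMem hz, Set.indicator_of_notMem hz, zero_mul]

theorem tsum_f0 (z : ℍ) : ∑' g : SL(2, ℤ), f0 (g • z) = 1 := by
  simp_rw [f0_smul]
  rw [ENNReal.tsum_mul_right]
  exact ENNReal.mul_inv_cancel (wfun_ne_zero z) (wfun_ne_top z)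

theorem lintegral_f0_lt_top : ∫⁻ z, f0 z < ⊤ := by
  refine lt_of_le_of_lt (lintegral_mono f0_le_indicator) ?_
  rw [lintegral_indicator ModularGroup.isClosed_fd.measurableSet, lintegral_const,
    Measure.restrict_apply MeasurableSet.univ, Set.univ_inter, one_mul]
  exact volume_fd_lt_top

theorem fdo_nonempty : (𝒟ᵒ).Nonempty := by
  refine ⟨⟨2 * Complex.I, by simp⟩, ?_, ?_⟩
  · show 1 < Complex.normSq (2 * Complex.I)
    simp [Complex.normSq_apply]
    norm_num
  · show |(2 * Complex.I).re| < 1 / 2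
    simp

theorem lintegral_f0_pos : 0 < ∫⁻ z, f0 z := by
  rw [lintegral_pos_iff_support measurable_f0]
  have hsub : 𝒟ᵒ ⊆ Function.support f0 := fun z hz =>
    (f0_pos (ModularGroup.fdo_subset_fd hz)).ne'
  exact lt_of_lt_of_le (volume_pos_of_isOpen ModularGroup.isOpen_fdo fdo_nonempty)
    (measure_mono hsub)

end Fermat.Agent.H83.Pet
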