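/-
P-PET / PET-MEAN (helper83): normalised means over finite-index subgroups of `SL(2, ℤ)` and their
behaviour under conjugation.
-/
import Fermat.Agent.H83.PetPOU

set_option autoImplicit false
set_option linter.style.haveILetI false

noncomputable section

namespace Fermat.Agent.H83.Pet

open MeasureTheory UpperHalfPlane Matrix.SpecialLinearGroup CongruenceSubgroup
open scoped ENNReal NNReal MatrixGroups Pointwise Modular

/-- The image of `SL(2, ℤ)` in `GL(2, ℝ)`. -/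
abbrev SLimg : Subgroup (GL (Fin 2) ℝ) := (mapGL ℝ : SL(2, ℤ) →* GL (Fin 2) ℝ).range

/-- The image of a subgroup of `SL(2, ℤ)` in `GL(2, ℝ)`. -/
def Himg (Γ : Subgroup SL(2, ℤ)) : Subgroup (GL (Fin 2) ℝ) := Γ.map (mapGL ℝ)

theorem Himg_le (Γ : Subgroup SL(2, ℤ)) : Himg Γ ≤ SLimg := Subgroup.map_le_range _ _

theorem Himg_mono {Γ₁ Γ₂ : Subgroup SL(2, ℤ)} (h : Γ₁ ≤ Γ₂) : Himg Γ₁ ≤ Himg Γ₂ :=
  Subgroup.map_mono h

theorem mem_Himg {Γ : Subgroup SL(2, ℤ)} {h : GL (Fin 2) ℝ} :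
    h ∈ Himg Γ ↔ ∃ γ ∈ Γ, mapGL ℝ γ = h := Subgroup.mem_map

theorem countable_SLimg : Countable SLimg :=
  haveI := countable_SL
  (MonoidHom.rangeRestrict_surjective (mapGL ℝ : SL(2, ℤ) →* GL (Fin 2) ℝ)).countable

theorem countable_of_le {H : Subgroup (GL (Fin 2) ℝ)} (h : H ≤ SLimg) : Countable H :=
  haveI := countable_SLimg
  (Subgroup.inclusion_injective h).countable

theorem countable_conj (a : GL (Fin 2) ℝ) (H : Subgroup (GL (Fin 2) ℝ)) [Countable H] :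
    Countable (ConjAct.toConjAct a • H : Subgroup (GL (Fin 2) ℝ)) :=
  (Subgroup.equivSMul (ConjAct.toConjAct a) H).symm.injective.countable

/-- Invariance of a function under a subgroup of `SL(2, ℤ)`. -/
def Inv {β : Type*} (Γ : Subgroup SL(2, ℤ)) (Φ : ℍ → β) : Prop :=
  ∀ γ ∈ Γ, ∀ z, Φ (γ • z) = Φ z

theorem isInv_Himg {β : Type*} {Γ : Subgroup SL(2, ℤ)} {Φ : ℍ → β} (h : Inv Γ Φ) :
    IsInv (Himg Γ) Φ := by
  rintro _ ⟨γ, hγ, rfl⟩ z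
  exact h γ hγ z

theorem isPOU_f0 : IsPOU SLimg f0 := by
  refine ⟨measurable_f0, fun z => ?_⟩
  rw [← (MonoidHom.ofInjective (mapGL_injective (n := Fin 2) (R := ℤ) (S := ℝ))).toEquiv.tsum_eq,
    ← tsum_f0 z]
  rfl

/-- The partition of unity of (the image of) `Γ`. -/
def FΓ (Γ : Subgroup SL(2, ℤ)) : ℍ → ℝ≥0∞ := pouDown (Himg Γ) SLimg f0

theorem measurable_FΓ (Γ : Subgroup SL(2, ℤ)) : Measurable (FΓ Γ) :=
  haveI := countable_SLimg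
  measurable_pouDown _ _ measurable_f0

theorem isPOU_FΓ (Γ : Subgroup SL(2, ℤ)) : IsPOU (Himg Γ) (FΓ Γ) :=
  haveI := countable_SLimg
  isPOU_f0.down (Himg_le Γ)

theorem f0_le_FΓ (Γ : Subgroup SL(2, ℤ)) (r : transversal (Himg Γ) SLimg) (z : ℍ) :
    f0 (((r : SLimg) : GL (Fin 2) ℝ) • z) ≤ FΓ Γ z :=
  le_pouDown _ _ f0 r z

/-- The finite measure attached to `Γ`. -/
def νΓ (Γ : Subgroup SL(2, ℤ)) : Measure ℍ := volume.withDensity (FΓ Γ)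

theorem lintegral_νΓ (Γ : Subgroup SL(2, ℤ)) {g : ℍ → ℝ≥0∞} (hg : Measurable g) :
    ∫⁻ z, g z ∂(νΓ Γ) = ∫⁻ z, FΓ Γ z * g z := by
  rw [νΓ, lintegral_withDensity_eq_lintegral_mul _ (measurable_FΓ Γ) hg]
  rfl

theorem νΓ_univ (Γ : Subgroup SL(2, ℤ)) :
    νΓ Γ Set.univ = eindex (Himg Γ) SLimg * ∫⁻ z, f0 z := by
  haveI := countable_SLimg
  have h1 := lintegral_νΓ Γ (g := fun _ => 1) measurable_const
  have h2 := lintegral_pouDown (volume : Measure ℍ) (Himg Γ) SLimg (g := fun _ => 1)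
    measurable_f0 measurable_const (isInv_const _ _)
  simp only [lintegral_const, one_mul, mul_one] at h1 h2
  rw [h1]
  exact h2

theorem νΓ_univ_ne_zero (Γ : Subgroup SL(2, ℤ)) : νΓ Γ Set.univ ≠ 0 := by
  rw [νΓ_univ]
  exact mul_ne_zero (eindex_ne_zero _ _) lintegral_f0_pos.ne'

theorem relIndex_Himg (Γ : Subgroup SL(2, ℤ)) : (Himg Γ).relIndex SLimg = Γ.index := by
  have h := Subgroup.relIndex_map_map_of_injective (f := (mapGL ℝ : SL(2, ℤ) →* GL (Fin 2) ℝ))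
    Γ ⊤ mapGL_injective
  rw [Subgroup.relIndex_top_right, ← MonoidHom.range_eq_map] at h
  exact h

theorem νΓ_univ_ne_top (Γ : Subgroup SL(2, ℤ)) [Γ.FiniteIndex] : νΓ Γ Set.univ ≠ ⊤ := by
  rw [νΓ_univ]
  refine ENNReal.mul_ne_top (eindex_ne_top _ _ ?_) lintegral_f0_lt_top.ne
  rw [relIndex_Himg]
  exact Subgroup.FiniteIndex.index_ne_zero

theorem isFiniteMeasure_νΓ (Γ : Subgroup SL(2, ℤ)) [Γ.FiniteIndex] : IsFiniteMeasure (νΓ Γ) :=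
  ⟨(νΓ_univ_ne_top Γ).lt_top⟩

/-- The normalised mean of `Φ` over `Γ \ ℍ`. -/
def mean (Γ : Subgroup SL(2, ℤ)) (Φ : ℍ → ℂ) : ℂ :=
  (∫ z, Φ z ∂(νΓ Γ)) / (((νΓ Γ) Set.univ).toReal : ℂ)

/-- **Conjugation lemma.** If `a Γ' a⁻¹ ⊆ Γ` and `Φ` is `Γ`-invariant, then the mean of `Φ ∘ a`
over `Γ'` is the mean of `Φ` over `Γ`. -/
theorem mean_conj (a : GL (Fin 2) ℝ) (Γ Γ' : Subgroup SL(2, ℤ)) [Γ.FiniteIndex]
    [Γ'.FiniteIndex] (hconj : ConjAct.toConjAct a • Himg Γ' ≤ Himg Γ) (Φ : ℍ → ℂ)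
    (hΦm : Measurable Φ) (hΦb : ∃ C : ℝ, ∀ z, ‖Φ z‖ ≤ C) (hinv : IsInv (Himg Γ) Φ) :
    mean Γ' (fun z => Φ (a • z)) = mean Γ Φ := by
  haveI := isFiniteMeasure_νΓ Γ
  haveI := isFiniteMeasure_νΓ Γ'
  haveI : Countable (Himg Γ) := countable_of_le (Himg_le Γ)
  haveI : Countable (Himg Γ') := countable_of_le (Himg_le Γ')
  haveI : Countable (ConjAct.toConjAct a • Himg Γ' : Subgroup (GL (Fin 2) ℝ)) :=
    countable_conj a _
  have hP1 : IsPOU (ConjAct.toConjAct a • Himg Γ') (fun x => FΓ Γ' (a⁻¹ • x)) :=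
    (isPOU_FΓ Γ').conj a
  have hP2 : IsPOU (ConjAct.toConjAct a • Himg Γ')
      (pouDown (ConjAct.toConjAct a • Himg Γ') (Himg Γ) (FΓ Γ)) :=
    (isPOU_FΓ Γ).down hconj
  have key : ∀ g : ℍ → ℝ≥0∞, Measurable g → IsInv (Himg Γ) g →
      ∫⁻ z, g (a • z) ∂(νΓ Γ') =
        eindex (ConjAct.toConjAct a • Himg Γ') (Himg Γ) * ∫⁻ z, g z ∂(νΓ Γ) := by
    intro g hg hginv
    have hga : Measurable (fun z => g (a • z)) := hg.comp (measurable_const_smul a)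
    rw [lintegral_νΓ Γ' hga, lintegral_νΓ Γ hg]
    have hm : Measurable (fun y => FΓ Γ' (a⁻¹ • y) * g y) :=
      ((measurable_FΓ Γ').comp (measurable_const_smul _)).mul hg
    have h1 : ∫⁻ z, FΓ Γ' z * g (a • z) = ∫⁻ y, FΓ Γ' (a⁻¹ • y) * g y := by
      rw [← lintegral_comp_smul volume a hm]
      congr 1
      funext z
      rw [inv_smul_smul]
    rw [h1, unfold volume hP1 hP2 hg (hginv.mono hconj),
      lintegral_pouDown volume _ (Himg Γ) (measurable_FΓ Γ) hg hginv]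
  have hc0 := eindex_ne_zero (ConjAct.toConjAct a • Himg Γ') (Himg Γ)
  have hctop : eindex (ConjAct.toConjAct a • Himg Γ') (Himg Γ) ≠ ⊤ := by
    have h := key (fun _ => 1) measurable_const (isInv_const _ _)
    simp only [lintegral_const, one_mul] at h
    intro htop
    rw [htop, ENNReal.top_mul (νΓ_univ_ne_zero Γ)] at h
    exact νΓ_univ_ne_top Γ' h
  exact mean_comp_eq_of_lintegral (νΓ Γ') (νΓ Γ) (fun z => a • z) (measurable_const_smul a) _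
    hc0 hctop (IsInv (Himg Γ)) key (isInv_const _ _) Φ hΦm hΦb (fun φ => hinv.comp φ)

/-- **Independence of the group.** -/
theorem mean_mono (Γ₁ Γ₂ : Subgroup SL(2, ℤ)) [Γ₁.FiniteIndex] [Γ₂.FiniteIndex]
    (hle : Γ₁ ≤ Γ₂) (Φ : ℍ → ℂ) (hΦm : Measurable Φ) (hΦb : ∃ C : ℝ, ∀ z, ‖Φ z‖ ≤ C)
    (hinv : Inv Γ₂ Φ) : mean Γ₁ Φ = mean Γ₂ Φ := by
  have h := mean_conj 1 Γ₂ Γ₁ (by
    rw [map_one, one_smul]
    exact Himg_mono hle) Φ hΦm hΦb (isInv_Himg hinv)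
  simpa only [one_smul] using h

/-- The invariant mean. -/
def meanI (Φ : ℍ → ℂ) : ℂ := by
  classical
  exact if h : ∃ Γ : Subgroup SL(2, ℤ), Γ.FiniteIndex ∧ Inv Γ Φ then mean h.choose Φ else 0

theorem meanI_eq (Φ : ℍ → ℂ) (hΦm : Measurable Φ) (hΦb : ∃ C : ℝ, ∀ z, ‖Φ z‖ ≤ C)
    (Γ : Subgroup SL(2, ℤ)) [hΓ : Γ.FiniteIndex] (hinv : Inv Γ Φ) : meanI Φ = mean Γ Φ := by
  classical
  have h : ∃ Γ : Subgroup SL(2, ℤ), Γ.FiniteIndex ∧ Inv Γ Φ := ⟨Γ, hΓ, hinv⟩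
  unfold meanI
  rw [dif_pos h]
  haveI := h.choose_spec.1
  have h0 := h.choose_spec.2
  rw [← mean_mono (h.choose ⊓ Γ) h.choose inf_le_left Φ hΦm hΦb h0,
    ← mean_mono (h.choose ⊓ Γ) Γ inf_le_right Φ hΦm hΦb hinv]

end Fermat.Agent.H83.Pet
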