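/-
P-PET / PET-MEAN (helper83): the invariant mean on admissible functions on the upper half plane,
`Fermat.Agent.H83.Pet.invariantMean : Fermat.Agent.H30.InvariantMeanStatement`.
-/
import Fermat.Agent.H83.PetMean
import Fermat.Agent.H30.PeterssonInterfaces

set_option autoImplicit false
set_option linter.style.haveILetI false

noncomputable section

namespace Fermat.Agent.H83.Pet

open MeasureTheory UpperHalfPlane Matrix.SpecialLinearGroup CongruenceSubgroup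
open scoped ENNReal NNReal MatrixGroups Pointwise Modular

open Fermat.Agent.H30 (PetAdmissible InvariantMeanStatement)

theorem PetAdmissible.measurable {Φ : ℍ → ℂ} (h : PetAdmissible Φ) : Measurable Φ :=
  h.1.measurable

theorem isCongruenceSubgroup_Gamma (M : ℕ) (hM : 0 < M) : IsCongruenceSubgroup (Gamma M) :=
  ⟨M, hM.ne', le_refl _⟩

/-- Invariance of the mean under rational matrices. -/
theorem meanI_comp_rat (g : GL (Fin 2) ℚ) (Φ : ℍ → ℂ) (hΦ : PetAdmissible Φ) :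
    meanI (fun z => Φ ((g.map (Rat.castHom ℝ)) • z)) = meanI Φ := by
  obtain ⟨hcont, hb, M, hM, hinv⟩ := hΦ
  haveI : NeZero M := ⟨hM.ne'⟩
  set a : GL (Fin 2) ℝ := g.map (Rat.castHom ℝ) with ha
  have hcong : IsCongruenceSubgroup (conjGL (Gamma M) a) :=
    (isCongruenceSubgroup_Gamma M hM).conjGL g
  haveI : (conjGL (Gamma M) a).FiniteIndex := hcong.finiteIndex
  have hconj : ConjAct.toConjAct a • Himg (conjGL (Gamma M) a) ≤ Himg (Gamma M) := by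
    intro h hh
    rw [Subgroup.mem_pointwise_smul_iff_inv_smul_mem] at hh
    obtain ⟨x, hx, hxh⟩ := mem_Himg.mp hh
    obtain ⟨y, hy, hyx⟩ := mem_conjGL.mp hx
    refine mem_Himg.mpr ⟨y, hy, ?_⟩
    have h1 : mapGL ℝ y = a * mapGL ℝ x * a⁻¹ := hyx
    rw [h1, hxh, ← ConjAct.toConjAct_inv, ConjAct.toConjAct_smul]
    group
  have hΨinv : Inv (conjGL (Gamma M) a) (fun z => Φ (a • z)) := by
    intro x hx z
    obtain ⟨y, hy, hyx⟩ := mem_conjGL.mp hx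
    have h1 : mapGL ℝ y = a * mapGL ℝ x * a⁻¹ := hyx
    have h2 : a • x • z = y • (a • z) := by
      show a • (mapGL ℝ x) • z = (mapGL ℝ y) • (a • z)
      rw [h1, ← mul_smul, ← mul_smul]
      congr 1
      group
    show Φ (a • x • z) = Φ (a • z)
    rw [h2, hinv y hy]
  have hΨm : Measurable (fun z => Φ (a • z)) := hcont.measurable.comp (measurable_const_smul a)
  have hΨb : ∃ C : ℝ, ∀ z, ‖Φ (a • z)‖ ≤ C := by
    obtain ⟨C, hC⟩ := hb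
    exact ⟨C, fun z => hC _⟩
  rw [meanI_eq _ hΨm hΨb (conjGL (Gamma M) a) hΨinv, meanI_eq Φ hcont.measurable hb (Gamma M) hinv]
  exact mean_conj a (Gamma M) (conjGL (Gamma M) a) hconj Φ hcont.measurable hb (isInv_Himg hinv)

theorem mapGL_real_eq (γ : SL(2, ℤ)) :
    mapGL ℝ γ = (mapGL ℚ γ).map (Rat.castHom ℝ) := by
  ext i j
  simp [mapGL]

/-- The rational matrix `diag(a, d)`. -/
def diagQ (a d : ℕ) (ha : a ≠ 0) (hd : d ≠ 0) : GL (Fin 2) ℚ :=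
  Matrix.GeneralLinearGroup.mkOfDetNeZero !![(a : ℚ), 0; 0, (d : ℚ)] (by
    simp [Matrix.det_fin_two, ha, hd])

theorem heckeDiagMatrix_eq (ℓ : ℕ) (hℓ : ℓ ≠ 0) :
    ModularForm.heckeDiagMatrix ℓ = (diagQ ℓ 1 hℓ one_ne_zero).map (Rat.castHom ℝ) := by
  apply Units.ext
  rw [ModularForm.val_heckeDiagMatrix hℓ]
  ext i j
  fin_cases i <;> fin_cases j <;> simp [diagQ]

theorem heckeMatrix_zero_eq (ℓ : ℕ) (hℓ : ℓ ≠ 0) :
    ModularForm.heckeMatrix ℓ 0 = (diagQ 1 ℓ one_ne_zero hℓ).map (Rat.castHom ℝ) := by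
  apply Units.ext
  rw [ModularForm.val_heckeMatrix hℓ]
  ext i j
  fin_cases i <;> fin_cases j <;> simp [diagQ]

theorem meanI_add (Φ Ψ : ℍ → ℂ) (hΦ : PetAdmissible Φ) (hΨ : PetAdmissible Ψ) :
    meanI (Φ + Ψ) = meanI Φ + meanI Ψ := by
  obtain ⟨hcΦ, hbΦ, M₁, hM₁, hinvΦ⟩ := hΦ
  obtain ⟨hcΨ, hbΨ, M₂, hM₂, hinvΨ⟩ := hΨ
  haveI : NeZero M₁ := ⟨hM₁.ne'⟩
  haveI : NeZero M₂ := ⟨hM₂.ne'⟩
  have h1 : Inv (Gamma M₁ ⊓ Gamma M₂) Φ := fun γ hγ z => hinvΦ γ hγ.1 z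
  have h2 : Inv (Gamma M₁ ⊓ Gamma M₂) Ψ := fun γ hγ z => hinvΨ γ hγ.2 z
  have h3 : Inv (Gamma M₁ ⊓ Gamma M₂) (Φ + Ψ) := fun γ hγ z => by
    rw [Pi.add_apply, Pi.add_apply, h1 γ hγ z, h2 γ hγ z]
  have hb : ∃ C : ℝ, ∀ z, ‖(Φ + Ψ) z‖ ≤ C := by
    obtain ⟨C₁, hC₁⟩ := hbΦ
    obtain ⟨C₂, hC₂⟩ := hbΨ
    exact ⟨C₁ + C₂, fun z => (norm_add_le _ _).trans (add_le_add (hC₁ z) (hC₂ z))⟩
  rw [meanI_eq _ (hcΦ.add hcΨ).measurable hb (Gamma M₁ ⊓ Gamma M₂) h3,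
    meanI_eq _ hcΦ.measurable hbΦ (Gamma M₁ ⊓ Gamma M₂) h1,
    meanI_eq _ hcΨ.measurable hbΨ (Gamma M₁ ⊓ Gamma M₂) h2]
  haveI := isFiniteMeasure_νΓ (Gamma M₁ ⊓ Gamma M₂)
  unfold mean
  rw [← add_div]
  congr 1
  exact integral_add (integrable_of_bounded _ hcΦ.measurable hbΦ)
    (integrable_of_bounded _ hcΨ.measurable hbΨ)

theorem meanI_definite (Φ : ℍ → ℂ) (hΦ : PetAdmissible Φ)
    (hpos : ∀ z, 0 ≤ (Φ z).re ∧ (Φ z).im = 0) (hI : meanI Φ = 0) : ∀ z, Φ z = 0 := by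
  obtain ⟨hcont, hb, M, hM, hinv⟩ := hΦ
  haveI : NeZero M := ⟨hM.ne'⟩
  haveI := isFiniteMeasure_νΓ (Gamma M)
  rw [meanI_eq Φ hcont.measurable hb (Gamma M) hinv] at hI
  unfold mean at hI
  have hne : (((νΓ (Gamma M)) Set.univ).toReal : ℂ) ≠ 0 := by
    exact_mod_cast (ENNReal.toReal_ne_zero).mpr ⟨νΓ_univ_ne_zero _, νΓ_univ_ne_top _⟩
  have hint0 : ∫ z, Φ z ∂(νΓ (Gamma M)) = 0 := by
    rcases div_eq_zero_iff.mp hI with h | h
    · exact h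
    · exact absurd h hne
  have hi : Integrable Φ (νΓ (Gamma M)) := integrable_of_bounded _ hcont.measurable hb
  have hre : ∫ z, (Φ z).re ∂(νΓ (Gamma M)) = 0 := by
    have h1 := integral_re (𝕜 := ℂ) hi
    simp only [RCLike.re_to_complex] at h1
    rw [h1, hint0, Complex.zero_re]
  have hae : (fun z => (Φ z).re) =ᵐ[νΓ (Gamma M)] 0 :=
    (integral_eq_zero_iff_of_nonneg (fun z => (hpos z).1) hi.re).mp hre
  have hae' : ∀ᵐ z ∂(volume : Measure ℍ), FΓ (Gamma M) z ≠ 0 → (Φ z).re = 0 := by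
    have := (ae_withDensity_iff (μ := (volume : Measure ℍ)) (p := fun z => (Φ z).re = 0)
      (measurable_FΓ (Gamma M))).mp hae
    exact this
  by_contra hcon
  push Not at hcon
  obtain ⟨z₁, hz₁⟩ := hcon
  obtain ⟨g₁, hg₁⟩ := ModularGroup.exists_smul_mem_fd z₁
  obtain ⟨r, k, hk, hrk⟩ := exists_transversal_mul (Himg (Gamma M)) SLimg (mapGL ℝ g₁) ⟨g₁, rfl⟩
  set x₀ : ℍ := k • z₁ with hx₀
  have hΦx₀ : Φ x₀ ≠ 0 := by
    rw [hx₀, isInv_Himg hinv k hk z₁]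
    exact hz₁
  have hrx₀ : ((r : SLimg) : GL (Fin 2) ℝ) • x₀ ∈ 𝒟 := by
    rw [hx₀, ← mul_smul, ← hrk]
    exact hg₁
  set ρ : GL (Fin 2) ℝ := ((r : SLimg) : GL (Fin 2) ℝ) with hρ
  set U : Set ℍ := {x | Φ x ≠ 0} ∩ (fun x => ρ • x) ⁻¹' 𝒟ᵒ with hU
  have hUopen : IsOpen U := by
    refine IsOpen.inter ?_ ?_
    · exact isOpen_ne_fun hcont continuous_const
    · exact ModularGroup.isOpen_fdo.preimage (continuous_const_smul ρ)
  have hUne : U.Nonempty := by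
    have h1 : x₀ ∈ closure ((fun x => ρ • x) ⁻¹' 𝒟ᵒ) := by
      have := (Homeomorph.smul ρ).preimage_closure (𝒟ᵒ : Set ℍ)
      have h2 : x₀ ∈ (Homeomorph.smul ρ) ⁻¹' closure (𝒟ᵒ : Set ℍ) := by
        show ρ • x₀ ∈ closure (𝒟ᵒ : Set ℍ)
        rw [← ModularGroup.fd_eq_closure_fdo]
        exact hrx₀
      rw [this] at h2
      exact h2
    obtain ⟨x, hx1, hx2⟩ := mem_closure_iff.mp h1 {x | Φ x ≠ 0}
      (isOpen_ne_fun hcont continuous_const) hΦx₀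
    exact ⟨x, hx1, hx2⟩
  have hUpos := volume_pos_of_isOpen hUopen hUne
  have hUnull : (volume : Measure ℍ) U = 0 := by
    refine measure_mono_null ?_ (ae_iff.mp hae')
    intro x hx
    obtain ⟨hx1, hx2⟩ := hx
    show ¬ (FΓ (Gamma M) x ≠ 0 → (Φ x).re = 0)
    push Not
    refine ⟨?_, ?_⟩
    · have h3 : 0 < f0 (ρ • x) := f0_pos (ModularGroup.fdo_subset_fd hx2)
      exact (lt_of_lt_of_le h3 (f0_le_FΓ (Gamma M) r x)).ne'
    · intro hre0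
      exact hx1 (Complex.ext hre0 (hpos x).2)
  rw [hUnull] at hUpos
  exact lt_irrefl _ hUpos

/-- **PET-MEAN**: the invariant mean on admissible functions. -/
theorem invariantMean : InvariantMeanStatement := by
  refine ⟨meanI, meanI_add, ?_, ?_, ?_, meanI_definite⟩
  · intro Φ hΦ γ
    have := meanI_comp_rat (mapGL ℚ γ) Φ hΦ
    rw [← mapGL_real_eq] at this
    exact this
  · intro Φ hΦ ℓ hℓ
    have := meanI_comp_rat (diagQ ℓ 1 hℓ.ne' one_ne_zero) Φ hΦ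
    rw [← heckeDiagMatrix_eq ℓ hℓ.ne'] at this
    exact this
  · intro Φ hΦ ℓ hℓ
    have := meanI_comp_rat (diagQ 1 ℓ one_ne_zero hℓ.ne') Φ hΦ
    rw [← heckeMatrix_zero_eq ℓ hℓ.ne'] at this
    exact this

end Fermat.Agent.H83.Pet
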