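import Mathlib
import Fermat.Agent.H21.CocDefs

/-!
# HF-A2: Fox calculus for cocycles (helper83, for S22)

The value of a cocycle at `γ ∈ Γ = closure (gens)` is an integral linear expression in its values
on the generators.
-/

set_option autoImplicit false
set_option linter.unusedSectionVars false
set_option linter.unusedVariables false

open UpperHalfPlane CongruenceSubgroup Matrix.SpecialLinearGroup
open scoped MatrixGroups ModularForm Manifold
open Fermat.Agent.H21

namespace Fermat.Agent.H83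

/-- Integer matrices have integer entries. -/
theorem hasEntriesIn_int_mapGL (γ : SL(2, ℤ)) : HasEntriesIn ℤ (mapGL ℝ γ) := by
  intro i j
  refine ⟨γ i j, ?_⟩
  simp [Matrix.SpecialLinearGroup.mapGL]

theorem isCoc_one {Γ : Subgroup SL(2, ℤ)} {c : SL(2, ℤ) → ℂ → ℂ → ℂ} (hc : IsCoc Γ c) :
    c 1 = 0 := by
  have h := hc 1 Γ.one_mem 1 Γ.one_mem
  rw [mul_one, map_one, subst_one] at h
  have h2 : c 1 + 0 = c 1 + c 1 := by rw [add_zero]; exact h
  exact (add_left_cancel h2).symm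

theorem exists_fox (Γ : Subgroup SL(2, ℤ)) (w m : ℕ) (gens : Fin m → SL(2, ℤ))
    (hgens : Subgroup.closure (Set.range gens) = Γ) (γ : SL(2, ℤ)) (hγ : γ ∈ Γ) :
    ∃ E : (Fin m → ℂ → ℂ → ℂ) →ₗ[ℂ] (ℂ → ℂ → ℂ),
      (∀ c, IsCoc Γ c → c γ = E (fun j => c (gens j))) ∧
      (∀ u : Fin m → ℂ → ℂ → ℂ, (∀ j, u j ∈ poly ℤ w) → E u ∈ poly ℤ w) := by
  have hγ' : γ ∈ Subgroup.closure (Set.range gens) := by rw [hgens]; exact hγ
  induction hγ' using Subgroup.closure_induction with
  | mem x hx =>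
      obtain ⟨j, rfl⟩ := hx
      refine ⟨LinearMap.proj j, ?_, ?_⟩
      · intro c _
        rfl
      · intro u hu
        exact hu j
  | one =>
      refine ⟨0, ?_, ?_⟩
      · intro c hc
        rw [isCoc_one hc]
        rfl
      · intro u _
        exact Submodule.zero_mem _
  | mul x y hx hy ihx ihy =>
      have hxΓ : x ∈ Γ := by rw [← hgens]; exact hx
      have hyΓ : y ∈ Γ := by rw [← hgens]; exact hy
      obtain ⟨E₁, h₁, i₁⟩ := ihx hxΓ
      obtain ⟨E₂, h₂, i₂⟩ := ihy hyΓ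
      refine ⟨(substL (mapGL ℝ y)).comp E₁ + E₂, ?_, ?_⟩
      · intro c hc
        rw [hc x hxΓ y hyΓ, h₁ c hc, h₂ c hc]
        rfl
      · intro u hu
        exact Submodule.add_mem _ (subst_mem_poly (hasEntriesIn_int_mapGL y) (i₁ u hu)) (i₂ u hu)
  | inv x hx ihx =>
      have hxΓ : x ∈ Γ := by rw [← hgens]; exact hx
      have hxiΓ : x⁻¹ ∈ Γ := Γ.inv_mem hxΓ
      obtain ⟨E₁, h₁, i₁⟩ := ihx hxΓ
      refine ⟨-((substL (mapGL ℝ x⁻¹)).comp E₁), ?_, ?_⟩
      · intro c hc
        have h := hc x hxΓ x⁻¹ hxiΓ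
        rw [mul_inv_cancel, isCoc_one hc, h₁ c hc] at h
        have h' : c x⁻¹ = -subst (mapGL ℝ x⁻¹) (E₁ fun j => c (gens j)) :=
          eq_neg_of_add_eq_zero_right h.symm
        rw [h']
        rfl
      · intro u hu
        exact Submodule.neg_mem _ (subst_mem_poly (hasEntriesIn_int_mapGL x⁻¹) (i₁ u hu))

end Fermat.Agent.H83
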