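import Mathlib

/-!
# Counting half of Kummer's lemma

Generic group theory + Dirichlet's unit theorem:
if `W` is a subgroup of the units of the `p`-th cyclotomic field containing all `p`-th powers
and admitting `(p-1)/2` units independent modulo `W`, then `W` is exactly the group of `p`-th
powers.
-/

namespace Fermat.Agent.H83

open NumberField NumberField.Units

section Group

variable {G : Type*} [CommGroup G]

/-- In a commutative group generated by a finite family, every element is a product of
integer powers of the family. -/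
theorem exists_zpow_prod_of_closure_eq_top {ι : Type*} [Fintype ι] (g : ι → G)
    (hg : Subgroup.closure (Set.range g) = ⊤) (x : G) :
    ∃ e : ι → ℤ, x = ∏ i, g i ^ e i := by
  classical
  have hx : x ∈ Subgroup.closure (Set.range g) := by rw [hg]; trivial
  induction hx using Subgroup.closure_induction with
  | mem y hy =>
      obtain ⟨i, rfl⟩ := hy
      refine ⟨Pi.single i 1, ?_⟩
      rw [Finset.prod_eq_single i]
      · simp
      · intro j _ hj
        simp [Pi.single_eq_of_ne hj]
      · intro h; exact absurd (Finset.mem_univ i) h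
  | one => exact ⟨0, by simp⟩
  | mul y z _ _ hy hz =>
      obtain ⟨e, rfl⟩ := hy
      obtain ⟨e', rfl⟩ := hz
      exact ⟨e + e', by simp [zpow_add, Finset.prod_mul_distrib]⟩
  | inv y _ hy =>
      obtain ⟨e, rfl⟩ := hy
      exact ⟨-e, by simp [Finset.prod_inv_distrib]⟩

/-- The subgroup of `p`-th powers. -/
def powSubgroup (G : Type*) [CommGroup G] (p : ℕ) : Subgroup G := (powMonoidHom p : G →* G).range

theorem mem_powSubgroup {p : ℕ} {x : G} : x ∈ powSubgroup G p ↔ ∃ y : G, y ^ p = x := by
  simp [powSubgroup, MonoidHom.mem_range]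

theorem pow_mem_powSubgroup (p : ℕ) (x : G) : x ^ p ∈ powSubgroup G p :=
  mem_powSubgroup.2 ⟨x, rfl⟩

/-- If `G` is generated by a finite family indexed by `ι`, then `G / G^p` has at most
`p ^ card ι` elements (and is finite). -/
theorem index_powSubgroup_le {ι : Type*} [Fintype ι] (p : ℕ) (hp : 0 < p) (g : ι → G)
    (hg : Subgroup.closure (Set.range g) = ⊤) :
    (powSubgroup G p).index ≠ 0 ∧ (powSubgroup G p).index ≤ p ^ Fintype.card ι := by
  classical
  have : NeZero p := ⟨hp.ne'⟩
  let f : (ι → Fin p) → G ⧸ powSubgroup G p := fun r => QuotientGroup.mk (∏ i, g i ^ (r i : ℕ))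
  have hf : Function.Surjective f := by
    intro q
    obtain ⟨x, rfl⟩ := QuotientGroup.mk_surjective q
    obtain ⟨e, rfl⟩ := exists_zpow_prod_of_closure_eq_top g hg x
    refine ⟨fun i => ⟨((e i) % (p : ℤ)).toNat, ?_⟩, ?_⟩
    · have h1 : (e i) % (p : ℤ) < p := Int.emod_lt_of_pos _ (by exact_mod_cast hp)
      have h0 : 0 ≤ (e i) % (p : ℤ) := Int.emod_nonneg _ (by exact_mod_cast hp.ne')
      omega
    · simp only [f]
      rw [QuotientGroup.eq]
      rw [mem_powSubgroup]
      refine ⟨∏ i, g i ^ (e i / (p : ℤ)), ?_⟩
      rw [← Finset.prod_inv_distrib, ← Finset.prod_mul_distrib, ← Finset.prod_pow]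
      refine Finset.prod_congr rfl fun i _ => ?_
      have h0 : 0 ≤ (e i) % (p : ℤ) := Int.emod_nonneg _ (by exact_mod_cast hp.ne')
      rw [← zpow_natCast (g i) ((e i % (p : ℤ)).toNat), Int.toNat_of_nonneg h0, ← zpow_neg,
        ← zpow_add, ← zpow_natCast, ← zpow_mul]
      congr 1
      have := Int.emod_add_mul_ediv (e i) p
      linarith
  have : Finite (G ⧸ powSubgroup G p) := Finite.of_surjective f hf
  refine ⟨Subgroup.index_ne_zero_of_finite, ?_⟩
  have := Nat.card_le_card_of_surjective f hf
  simpa [Subgroup.index, Nat.card_eq_fintype_card] using this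

/-- Counting criterion: if `G / G^p` has at most `p ^ s` elements and `W ⊇ G^p` admits `s`
elements independent modulo `W`, then `W = G^p`. -/
theorem le_powSubgroup_of_independent {ι : Type*} [Fintype ι] (p : ℕ) (hp : 0 < p)
    (hidx : (powSubgroup G p).index ≠ 0) (hle : (powSubgroup G p).index ≤ p ^ Fintype.card ι)
    (W : Subgroup G) (hW : powSubgroup G p ≤ W) (v : ι → G)
    (hind : ∀ e : ι → ℤ, (∏ i, v i ^ e i) ∈ W → ∀ i, (p : ℤ) ∣ e i) :
    W ≤ powSubgroup G p := by
  classical
  have : NeZero p := ⟨hp.ne'⟩
  have hmul := Subgroup.relIndex_mul_index hW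
  have hWidx : W.index ≠ 0 := by
    intro h
    rw [h, mul_zero] at hmul
    exact hidx hmul.symm
  have hfi : W.FiniteIndex := ⟨hWidx⟩
  have : Finite (G ⧸ W) := Subgroup.finite_quotient_of_finiteIndex
  let f : (ι → Fin p) → G ⧸ W := fun r => QuotientGroup.mk (∏ i, v i ^ (r i : ℕ))
  have hf : Function.Injective f := by
    intro r r' h
    simp only [f] at h
    rw [QuotientGroup.eq] at h
    have h2 : (∏ i, v i ^ ((r' i : ℤ) - (r i : ℤ))) ∈ W := by
      convert h using 1
      rw [← Finset.prod_inv_distrib, ← Finset.prod_mul_distrib]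
      refine Finset.prod_congr rfl fun i _ => ?_
      rw [zpow_sub, zpow_natCast, zpow_natCast, mul_comm, ← div_eq_inv_mul]
    have h3 := hind _ h2
    funext i
    have h4 := h3 i
    have hr : (r i : ℕ) < p := (r i).2
    have hr' : (r' i : ℕ) < p := (r' i).2
    apply Fin.ext
    obtain ⟨c, hc⟩ := h4
    have hc0 : c = 0 := by
      by_contra hne
      have hpz : (0 : ℤ) < p := by exact_mod_cast hp
      rcases lt_or_gt_of_ne hne with hneg | hpos
      · have : (p : ℤ) * c ≤ -(p : ℤ) := by nlinarith
        omega
      · have : (p : ℤ) ≤ (p : ℤ) * c := by nlinarith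
        omega
    rw [hc0, mul_zero] at hc
    omega
  have hcard := Nat.card_le_card_of_injective f hf
  have hcard' : p ^ Fintype.card ι ≤ W.index := by
    simpa [Subgroup.index, Nat.card_eq_fintype_card] using hcard
  have hrel : (powSubgroup G p).relIndex W = 1 := by
    have h1 : (powSubgroup G p).relIndex W * W.index ≤ 1 * W.index := by
      rw [hmul, one_mul]; exact hle.trans hcard'
    have h2 : (powSubgroup G p).relIndex W ≤ 1 :=
      Nat.le_of_mul_le_mul_right h1 (Nat.pos_of_ne_zero hWidx)
    have h3 : (powSubgroup G p).relIndex W ≠ 0 := by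
      intro h0; rw [h0, zero_mul] at hmul; exact hidx hmul.symm
    omega
  exact Subgroup.relIndex_eq_one.1 hrel

end Group

section Units

variable (K : Type*) [Field K] [NumberField K]

/-- `E / E^p` has at most `p ^ (rank + 1)` elements, by Dirichlet's unit theorem. -/
theorem index_powSubgroup_units_le (p : ℕ) (hp : 0 < p) :
    (powSubgroup (𝓞 K)ˣ p).index ≠ 0 ∧
      (powSubgroup (𝓞 K)ˣ p).index ≤ p ^ (NumberField.Units.rank K + 1) := by
  classical
  obtain ⟨tt, hgen⟩ := IsCyclic.exists_generator (α := torsion K)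
  obtain ⟨t, ht⟩ := tt
  let g : Option (Fin (NumberField.Units.rank K)) → (𝓞 K)ˣ := fun o =>
    match o with
    | none => t
    | some i => fundSystem K i
  have hg : Subgroup.closure (Set.range g) = ⊤ := by
    rw [eq_top_iff, ← closure_fundSystem_sup_torsion_eq_top K]
    apply sup_le
    · apply Subgroup.closure_mono
      rintro x ⟨i, rfl⟩
      exact ⟨some i, rfl⟩
    · intro x hx
      have hx' : (⟨x, hx⟩ : torsion K) ∈ Subgroup.zpowers (⟨t, ht⟩ : torsion K) := hgen _
      obtain ⟨n, hn⟩ := Subgroup.mem_zpowers_iff.1 hx'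
      have hn' : t ^ n = x := by
        have := congrArg (Subtype.val) hn
        simpa using this
      rw [← hn']
      have hmem : g none ∈ Subgroup.closure (Set.range g) :=
        Subgroup.subset_closure (Set.mem_range_self none)
      exact Subgroup.zpow_mem _ hmem n
  have := index_powSubgroup_le p hp g hg
  simpa using this

end Units

end Fermat.Agent.H83
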