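import Mathlib
import Fermat.Agent.H83.KummerCount
import Fermat.Agent.H9.Descent

/-!
# Kummer's lemma from `(p-1)/2` independent units

If the `p`-th cyclotomic field has `(p-1)/2` units which are multiplicatively independent modulo
the subgroup of units congruent to a rational integer mod `p`, then every unit congruent to a
rational integer mod `p` is a `p`-th power (`Fermat.Agent.H9.KummerProp`).
-/

set_option linter.unusedSectionVars false
set_option linter.style.haveILetI false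
set_option linter.unusedVariables false

namespace Fermat.Agent.H83

open NumberField NumberField.Units

section

variable {p : ℕ} [hpri : Fact p.Prime] {K : Type*} [Field K] [NumberField K]
  [IsCyclotomicExtension {p} ℚ K]

/-- `rank K + 1 = (p - 1) / 2` for the `p`-th cyclotomic field, `p` odd. -/
theorem rank_cyclotomic_add_one (hodd : p ≠ 2) : NumberField.Units.rank K + 1 = (p - 1) / 2 := by
  have hp := hpri.out
  have h2 : 2 < p := lt_of_le_of_ne hp.two_le (Ne.symm hodd)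
  haveI : NeZero p := ⟨hp.ne_zero⟩
  have h1 := IsCyclotomicExtension.Rat.nrComplexPlaces_eq_totient_div_two p K
  have h0 := IsCyclotomicExtension.Rat.nrRealPlaces_eq_zero (n := p) K h2
  have hc := NumberField.InfinitePlace.card_eq_nrRealPlaces_add_nrComplexPlaces K
  rw [Nat.totient_prime hp] at h1
  unfold NumberField.Units.rank
  rw [hc, h0, h1, zero_add]
  have : 1 ≤ (p - 1) / 2 := by omega
  omega

/-- The units congruent to a rational integer modulo `p`. -/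
def intModSubgroup (p : ℕ) [Fact p.Prime] (K : Type*) [Field K] [NumberField K]
    [IsCyclotomicExtension {p} ℚ K] : Subgroup (𝓞 K)ˣ where
  carrier := {u | ∃ n : ℤ, (p : 𝓞 K) ∣ (u : 𝓞 K) - (n : 𝓞 K)}
  one_mem' := ⟨1, by simp⟩
  mul_mem' := by
    rintro u v ⟨n, hn⟩ ⟨m, hm⟩
    refine ⟨n * m, ?_⟩
    have : ((u * v : (𝓞 K)ˣ) : 𝓞 K) - ((n * m : ℤ) : 𝓞 K)
        = (u : 𝓞 K) * ((v : 𝓞 K) - m) + m * ((u : 𝓞 K) - n) := by
      push_cast; ring
    rw [this]
    exact dvd_add (Dvd.dvd.mul_left hm _) (Dvd.dvd.mul_left hn _)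
  inv_mem' := by
    rintro u ⟨n, hn⟩
    have hp := (Fact.out : p.Prime)
    have hζ := IsCyclotomicExtension.zeta_spec p ℚ K
    have hπ : Prime (hζ.toInteger - 1) := hζ.zeta_sub_one_prime'
    have hπp : (hζ.toInteger - 1) ∣ (p : 𝓞 K) := hζ.toInteger_sub_one_dvd_prime'
    have hpn : ¬ (p : ℤ) ∣ n := by
      rintro ⟨k, rfl⟩
      have h1 : (p : 𝓞 K) ∣ (u : 𝓞 K) := by
        have h2 : (p : 𝓞 K) ∣ ((p * k : ℤ) : 𝓞 K) := by push_cast; exact dvd_mul_right _ _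
        have := dvd_add hn h2
        simpa using this
      have h3 : (hζ.toInteger - 1) ∣ (u : 𝓞 K) := hπp.trans h1
      exact hπ.not_isUnit (isUnit_of_dvd_unit h3 u.isUnit)
    have hcop : IsCoprime (p : ℤ) n :=
      (Prime.coprime_iff_not_dvd (Nat.prime_iff_prime_int.1 hp)).2 hpn
    obtain ⟨a, b, hab⟩ := hcop
    refine ⟨b, ?_⟩
    obtain ⟨t, ht⟩ := hn
    refine ⟨((u⁻¹ : (𝓞 K)ˣ) : 𝓞 K) * (a - b * t), ?_⟩
    have hab' : (a : 𝓞 K) * p + b * n = 1 := by exact_mod_cast congrArg (Int.cast : ℤ → 𝓞 K) hab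
    have hu : ((u⁻¹ : (𝓞 K)ˣ) : 𝓞 K) * (u : 𝓞 K) = 1 := by simp
    have hn' : (n : 𝓞 K) = (u : 𝓞 K) - p * t := by rw [← ht]; ring
    have e1 : ((u⁻¹ : (𝓞 K)ˣ) : 𝓞 K) - (b : 𝓞 K)
        = ((u⁻¹ : (𝓞 K)ˣ) : 𝓞 K) * ((a : 𝓞 K) * p + b * n)
          - (b : 𝓞 K) * (((u⁻¹ : (𝓞 K)ˣ) : 𝓞 K) * (u : 𝓞 K)) := by
      rw [hab', hu]; ring
    rw [e1, hn']
    ring

theorem mem_intModSubgroup {u : (𝓞 K)ˣ} :
    u ∈ intModSubgroup p K ↔ ∃ n : ℤ, (p : 𝓞 K) ∣ (u : 𝓞 K) - (n : 𝓞 K) := Iff.rfl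

/-- `p`-th powers of units are congruent to rational integers modulo `p`. -/
theorem powSubgroup_le_intModSubgroup (hodd : p ≠ 2) :
    powSubgroup (𝓞 K)ˣ p ≤ intModSubgroup p K := by
  have hp := hpri.out
  have hζ := IsCyclotomicExtension.zeta_spec p ℚ K
  have hπ : Prime (hζ.toInteger - 1) := hζ.zeta_sub_one_prime'
  have hcard : Nat.card (𝓞 K ⧸ Ideal.span {hζ.toInteger - 1}) = p := by
    rw [IsPrimitiveRoot.card_quotient_toInteger_sub_one,
      hζ.norm_toInteger_sub_one_of_prime_ne_two' hodd]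
    simp
  have hπp : (hζ.toInteger - 1) ∣ (p : 𝓞 K) := hζ.toInteger_sub_one_dvd_prime'
  have hassoc := IsCyclotomicExtension.Rat.associated_zeta_sub_one_pow_prime p hζ
  have hpπ : (p : 𝓞 K) ∣ (hζ.toInteger - 1) ^ (p - 1) := hassoc.symm.dvd
  intro x hx
  obtain ⟨y, rfl⟩ := mem_powSubgroup.1 hx
  obtain ⟨n, hn⟩ := Fermat.Agent.H9.exists_int_sub_dvd hp hπ hπp hcard (y : 𝓞 K)
  refine ⟨n ^ p, ?_⟩
  have := Fermat.Agent.H9.natCast_dvd_pow_sub_pow hp hpπ hn
  simpa using this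

/-- **Kummer's lemma from independent units.** -/
theorem kummer_of_indep (p : ℕ) [Fact p.Prime] (hodd : p ≠ 2) (K : Type*) [Field K]
    [NumberField K] [IsCyclotomicExtension {p} ℚ K]
    (u : Fin ((p - 1) / 2) → (𝓞 K)ˣ)
    (hu : ∀ e : Fin ((p - 1) / 2) → ℤ,
      (∃ n : ℤ, (p : 𝓞 K) ∣ ((∏ i, u i ^ e i : (𝓞 K)ˣ) : 𝓞 K) - (n : 𝓞 K)) →
        ∀ i, (p : ℤ) ∣ e i) :
    Fermat.Agent.H9.KummerProp (𝓞 K) p := by
  have hp := (Fact.out : p.Prime)
  obtain ⟨hidx, hle⟩ := index_powSubgroup_units_le K p hp.pos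
  rw [rank_cyclotomic_add_one (p := p) (K := K) hodd] at hle
  have hle' : (powSubgroup (𝓞 K)ˣ p).index ≤ p ^ Fintype.card (Fin ((p - 1) / 2)) := by
    simpa using hle
  have key := le_powSubgroup_of_independent p hp.pos hidx hle' (intModSubgroup p K)
    (powSubgroup_le_intModSubgroup hodd) u (fun e he => hu e he)
  intro v hv
  obtain ⟨w, hw⟩ := mem_powSubgroup.1 (key (mem_intModSubgroup.2 hv))
  exact ⟨w, hw.symm⟩

end

end Fermat.Agent.H83
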