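import Mathlib
import Fermat.Agent.H83.KummerOfIndep

/-!
# Filtration criterion for Kummer's lemma

Let `π = ζ - 1`. If `(p-1)/2` units `u i` satisfy
`u i ≡ c i * (1 + a i * π ^ (j i)) mod π ^ (j i + 1)` with `c i, a i` rational integers,
`p ∤ a i`, and strictly increasing levels `1 ≤ j i ≤ p - 2`, then they are independent modulo
the units congruent to a rational integer mod `p`, hence Kummer's lemma holds for `p`.
-/

set_option linter.unusedSectionVars false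
set_option linter.style.haveILetI false
set_option linter.unusedVariables false

namespace Fermat.Agent.H83

open NumberField NumberField.Units

section Lev

variable {R : Type*} [CommRing R] [IsDomain R]

/-- `x ≡ C * (1 + b * π ^ j) mod π ^ (j + 1)` for some rational integer `C` prime to `p`. -/
def Lev (p : ℕ) (π : R) (j : ℕ) (x : R) (b : ℤ) : Prop :=
  ∃ C : ℤ, ¬ (p : ℤ) ∣ C ∧ π ^ (j + 1) ∣ x - (C : R) * (1 + (b : R) * π ^ j)

variable {p : ℕ} {π : R} {j : ℕ}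

/-- For an integer `n`, `π ∣ n` iff `p ∣ n`. -/
theorem prime_dvd_intCast_iff (hp : p.Prime) (hπ : Prime π) (hπp : π ∣ (p : R)) {n : ℤ} :
    π ∣ (n : R) ↔ (p : ℤ) ∣ n := by
  constructor
  · intro h
    by_contra hn
    have hcop : IsCoprime (p : ℤ) n :=
      (Prime.coprime_iff_not_dvd (Nat.prime_iff_prime_int.1 hp)).2 hn
    obtain ⟨a, b, hab⟩ := hcop
    have h1 : π ∣ ((a * p + b * n : ℤ) : R) := by
      push_cast
      exact dvd_add (Dvd.dvd.mul_left hπp _) (Dvd.dvd.mul_left h _)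
    rw [hab] at h1
    exact hπ.not_dvd_one (by simpa using h1)
  · rintro ⟨k, rfl⟩
    push_cast
    exact Dvd.dvd.mul_right hπp _

theorem Lev.one (hp : p.Prime) : Lev p π j (1 : R) 0 := by
  refine ⟨1, ?_, ?_⟩
  · intro h
    exact (Nat.prime_iff_prime_int.1 hp).not_dvd_one h
  · simp

theorem Lev.mul (hp : p.Prime) (hj : 1 ≤ j) {x y : R} {b b' : ℤ} (hx : Lev p π j x b)
    (hy : Lev p π j y b') : Lev p π j (x * y) (b + b') := by
  obtain ⟨C, hC, t, ht⟩ := hx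
  obtain ⟨C', hC', t', ht'⟩ := hy
  refine ⟨C * C', ?_, ?_⟩
  · intro h
    rcases (Nat.prime_iff_prime_int.1 hp).dvd_or_dvd h with h | h
    · exact hC h
    · exact hC' h
  · obtain ⟨k, rfl⟩ : ∃ k, j = k + 1 := ⟨j - 1, by omega⟩
    refine ⟨t * y + (C : R) * (1 + (b : R) * π ^ (k + 1)) * t' + (C : R) * C' * b * b' * π ^ k, ?_⟩
    push_cast
    linear_combination ht * y + (C : R) * (1 + (b : R) * π ^ (k + 1)) * ht'

theorem Lev.pow (hp : p.Prime) (hj : 1 ≤ j) {x : R} {b : ℤ} (hx : Lev p π j x b) (r : ℕ) :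
    Lev p π j (x ^ r) (r * b) := by
  induction r with
  | zero => simpa using Lev.one (π := π) (j := j) hp
  | succ r ih =>
      have := Lev.mul hp hj ih hx
      rw [pow_succ]
      convert this using 1
      push_cast; ring

theorem Lev.prod (hp : p.Prime) (hj : 1 ≤ j) {ι : Type*} (S : Finset ι) (x : ι → R) (β : ι → ℤ)
    (h : ∀ i ∈ S, Lev p π j (x i) (β i)) : Lev p π j (∏ i ∈ S, x i) (∑ i ∈ S, β i) := by
  classical
  induction S using Finset.induction_on with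
  | empty => simpa using Lev.one (π := π) (j := j) hp
  | insert i S hi ih =>
      rw [Finset.prod_insert hi, Finset.sum_insert hi]
      exact Lev.mul hp hj (h i (Finset.mem_insert_self i S))
        (ih fun k hk => h k (Finset.mem_insert_of_mem hk))

/-- A higher level congruence gives level-`j` congruence with `b = 0`. -/
theorem Lev.of_lt {j' : ℕ} (hjj : j < j') {x : R} {b : ℤ} (hx : Lev p π j' x b) :
    Lev p π j x 0 := by
  obtain ⟨C, hC, t, ht⟩ := hx
  refine ⟨C, hC, ?_⟩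
  obtain ⟨k, rfl⟩ : ∃ k, j' = j + 1 + k := ⟨j' - (j + 1), by omega⟩
  refine ⟨(C : R) * b * π ^ k + π ^ (k + 1) * t, ?_⟩
  have hx' : x = (C : R) * (1 + (b : R) * π ^ (j + 1 + k)) + π ^ (j + 1 + k + 1) * t := by
    rw [← ht]; ring
  rw [hx']
  push_cast
  ring

/-- An element congruent to an integer prime to `p` modulo `p` is at level `j` with `b = 0`. -/
theorem Lev.of_intMod (hpow : π ^ (p - 1) ∣ (p : R)) (hj2 : j + 2 ≤ p) {x : R}
    {n : ℤ} (hn : ¬ (p : ℤ) ∣ n) (h : (p : R) ∣ x - (n : R)) : Lev p π j x 0 := by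
  refine ⟨n, hn, ?_⟩
  have h1 : π ^ (j + 1) ∣ (p : R) := (pow_dvd_pow _ (by omega)).trans hpow
  have h2 := h1.trans h
  simpa using h2

/-- The key step: an element at level `j` with coefficient `b` which is congruent to an integer
modulo `p` has `p ∣ b`. -/
theorem Lev.dvd_of_intMod (hp : p.Prime) (hπ : Prime π) (hπp : π ∣ (p : R))
    (hpow : π ^ (p - 1) ∣ (p : R)) (hj : 1 ≤ j) (hj2 : j + 2 ≤ p) {x : R} {b : ℤ}
    (hx : Lev p π j x b) (h : ∃ n : ℤ, (p : R) ∣ x - (n : R)) : (p : ℤ) ∣ b := by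
  obtain ⟨C, hC, t, ht⟩ := hx
  obtain ⟨n, w, hw⟩ := h
  have hpp := Nat.prime_iff_prime_int.1 hp
  have h1 : π ^ (j + 1) ∣ (p : R) := (pow_dvd_pow _ (by omega)).trans hpow
  -- `n - C = C b π^j + π^(j+1) t - p w`
  have e1 : ((n - C : ℤ) : R) = (C : R) * b * π ^ j + π ^ (j + 1) * t - p * w := by
    push_cast
    linear_combination ht - hw
  have h2 : π ∣ ((n - C : ℤ) : R) := by
    rw [e1]
    refine dvd_sub (dvd_add ?_ ?_) (Dvd.dvd.mul_right hπp _)
    · exact Dvd.dvd.mul_left (dvd_pow_self _ (by omega)) _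
    · exact Dvd.dvd.mul_right (dvd_pow_self _ (by omega)) _
  have h3 : (p : ℤ) ∣ n - C := (prime_dvd_intCast_iff hp hπ hπp).1 h2
  obtain ⟨m, hm⟩ := h3
  have h4 : π ^ (j + 1) ∣ (C : R) * b * π ^ j := by
    have e2 : (C : R) * b * π ^ j = ((n - C : ℤ) : R) - π ^ (j + 1) * t + p * w := by
      rw [e1]; ring
    rw [e2, hm]
    push_cast
    refine dvd_add (dvd_sub ?_ (dvd_mul_right _ _)) (Dvd.dvd.mul_right h1 _)
    exact Dvd.dvd.mul_right h1 _
  have h5 : π ∣ ((C * b : ℤ) : R) := by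
    have hπ0 : π ^ j ≠ 0 := pow_ne_zero _ hπ.ne_zero
    have : π ^ j * π ∣ π ^ j * ((C * b : ℤ) : R) := by
      rw [← pow_succ]
      convert h4 using 1
      push_cast; ring
    exact (mul_dvd_mul_iff_left hπ0).1 this
  have h6 : (p : ℤ) ∣ C * b := (prime_dvd_intCast_iff hp hπ hπp).1 h5
  rcases hpp.dvd_or_dvd h6 with h | h
  · exact absurd h hC
  · exact h

end Lev

section Main

variable {p : ℕ} [hpri : Fact p.Prime] {K : Type*} [Field K] [NumberField K]
  [IsCyclotomicExtension {p} ℚ K]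

/-- A unit congruent to an integer `n` modulo `p` has `p ∤ n`. -/
theorem not_dvd_of_unit_intMod {ζ : K} (hζ : IsPrimitiveRoot ζ p) (v : (𝓞 K)ˣ) {n : ℤ} {y : 𝓞 K}
    (h : (hζ.toInteger - 1) ∣ (v : 𝓞 K) - (n : 𝓞 K) * y) : ¬ (p : ℤ) ∣ n := by
  have hπ : Prime (hζ.toInteger - 1) := hζ.zeta_sub_one_prime'
  have hπp : (hζ.toInteger - 1) ∣ (p : 𝓞 K) := hζ.toInteger_sub_one_dvd_prime'
  rintro ⟨k, rfl⟩
  have h1 : (hζ.toInteger - 1) ∣ ((p * k : ℤ) : 𝓞 K) * y := by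
    push_cast
    exact Dvd.dvd.mul_right (Dvd.dvd.mul_right hπp _) _
  have h2 := dvd_add h h1
  rw [sub_add_cancel] at h2
  exact hπ.not_isUnit (isUnit_of_dvd_unit h2 v.isUnit)

/-- Independence (natural exponents) of units with strictly increasing `π`-adic levels. -/
theorem indep_nat_of_levels (hodd : p ≠ 2) {ζ : K} (hζ : IsPrimitiveRoot ζ p) {s : ℕ}
    (u : Fin s → (𝓞 K)ˣ) (j : Fin s → ℕ) (c a : Fin s → ℤ)
    (hj1 : ∀ i, 1 ≤ j i) (hj2 : ∀ i, j i + 2 ≤ p) (hjmono : StrictMono j)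
    (ha : ∀ i, ¬ (p : ℤ) ∣ a i)
    (hu : ∀ i, (hζ.toInteger - 1) ^ (j i + 1) ∣
      (u i : 𝓞 K) - (c i : 𝓞 K) * (1 + (a i : 𝓞 K) * (hζ.toInteger - 1) ^ (j i)))
    (r : Fin s → ℕ)
    (hr : ∃ n : ℤ, (p : 𝓞 K) ∣ ((∏ i, u i ^ r i : (𝓞 K)ˣ) : 𝓞 K) - (n : 𝓞 K)) :
    ∀ i, p ∣ r i := by
  classical
  have hp := hpri.out
  have hpp := Nat.prime_iff_prime_int.1 hp
  have hπ : Prime (hζ.toInteger - 1) := hζ.zeta_sub_one_prime'
  have hπp : (hζ.toInteger - 1) ∣ (p : 𝓞 K) := hζ.toInteger_sub_one_dvd_prime'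
  have hassoc := IsCyclotomicExtension.Rat.associated_zeta_sub_one_pow_prime p hζ
  have hpow : (hζ.toInteger - 1) ^ (p - 1) ∣ (p : 𝓞 K) := hassoc.dvd
  -- each unit is at its own level
  have hlev : ∀ i, Lev p (hζ.toInteger - 1) (j i) (u i : 𝓞 K) (a i) := by
    intro i
    refine ⟨c i, ?_, hu i⟩
    exact not_dvd_of_unit_intMod hζ (u i)
      ((dvd_pow_self _ (Nat.succ_ne_zero _)).trans (hu i))
  intro i
  induction i using WellFoundedLT.induction with
  | ind i ih =>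
    have hx : ∀ i' ∈ (Finset.univ : Finset (Fin s)),
        Lev p (hζ.toInteger - 1) (j i) (((u i' ^ r i' : (𝓞 K)ˣ) : 𝓞 K))
          (if i' = i then (r i : ℤ) * a i else 0) := by
      intro i' _
      rcases lt_trichotomy i' i with hlt | heq | hgt
      · rw [if_neg (ne_of_lt hlt)]
        obtain ⟨k, hk⟩ := ih i' hlt
        have hmem : u i' ^ r i' ∈ intModSubgroup p K := by
          apply powSubgroup_le_intModSubgroup hodd
          rw [hk, mul_comm, pow_mul]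
          exact pow_mem_powSubgroup p _
        obtain ⟨n, hn⟩ := hmem
        refine Lev.of_intMod hpow (hj2 i) ?_ hn
        refine not_dvd_of_unit_intMod (y := 1) hζ (u i' ^ r i') ?_
        rw [mul_one]
        exact hπp.trans hn
      · subst heq
        rw [if_pos rfl]
        have := Lev.pow hp (hj1 i') (hlev i') (r i')
        simpa using this
      · rw [if_neg (ne_of_gt hgt)]
        have h0 := Lev.of_lt (hjmono hgt) (hlev i')
        have := Lev.pow hp (hj1 i) h0 (r i')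
        simpa using this
    have hprod := Lev.prod hp (hj1 i) Finset.univ _ _ hx
    rw [Finset.sum_ite_eq' Finset.univ i, if_pos (Finset.mem_univ i)] at hprod
    have hr' : ∃ n : ℤ, (p : 𝓞 K) ∣ (∏ i', ((u i' ^ r i' : (𝓞 K)ˣ) : 𝓞 K)) - (n : 𝓞 K) := by
      obtain ⟨n, hn⟩ := hr
      refine ⟨n, ?_⟩
      rwa [Units.coe_prod] at hn
    have hdvd := Lev.dvd_of_intMod hp hπ hπp hpow (hj1 i) (hj2 i) hprod hr'
    rcases hpp.dvd_or_dvd hdvd with h | h
    · exact_mod_cast h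
    · exact absurd h (ha i)

/-- Independence (integer exponents) of units with strictly increasing `π`-adic levels. -/
theorem indep_of_levels (hodd : p ≠ 2) {ζ : K} (hζ : IsPrimitiveRoot ζ p) {s : ℕ}
    (u : Fin s → (𝓞 K)ˣ) (j : Fin s → ℕ) (c a : Fin s → ℤ)
    (hj1 : ∀ i, 1 ≤ j i) (hj2 : ∀ i, j i + 2 ≤ p) (hjmono : StrictMono j)
    (ha : ∀ i, ¬ (p : ℤ) ∣ a i)
    (hu : ∀ i, (hζ.toInteger - 1) ^ (j i + 1) ∣
      (u i : 𝓞 K) - (c i : 𝓞 K) * (1 + (a i : 𝓞 K) * (hζ.toInteger - 1) ^ (j i)))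
    (e : Fin s → ℤ)
    (he : ∃ n : ℤ, (p : 𝓞 K) ∣ ((∏ i, u i ^ e i : (𝓞 K)ˣ) : 𝓞 K) - (n : 𝓞 K)) :
    ∀ i, (p : ℤ) ∣ e i := by
  have hp := hpri.out
  have hp0 : (0 : ℤ) < p := by exact_mod_cast hp.pos
  have hmem : (∏ i, u i ^ e i) ∈ intModSubgroup p K := he
  have hpw : ((∏ i, u i ^ (e i / (p : ℤ))) ^ p)⁻¹ ∈ intModSubgroup p K :=
    Subgroup.inv_mem _ (powSubgroup_le_intModSubgroup hodd (pow_mem_powSubgroup p _))
  have hr : (∏ i, u i ^ ((e i % (p : ℤ)).toNat)) ∈ intModSubgroup p K := by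
    have := Subgroup.mul_mem _ hmem hpw
    convert this using 1
    rw [← Finset.prod_pow, ← Finset.prod_inv_distrib, ← Finset.prod_mul_distrib]
    refine Finset.prod_congr rfl fun i _ => ?_
    have h0 : 0 ≤ (e i) % (p : ℤ) := Int.emod_nonneg _ hp0.ne'
    rw [← zpow_natCast (u i) ((e i % (p : ℤ)).toNat), Int.toNat_of_nonneg h0, ← zpow_natCast,
      ← zpow_mul, ← zpow_neg, ← zpow_add]
    congr 1
    have := Int.emod_add_mul_ediv (e i) p
    linarith
  have key := indep_nat_of_levels hodd hζ u j c a hj1 hj2 hjmono ha hu _ hr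
  intro i
  have h1 := key i
  have h0 : 0 ≤ (e i) % (p : ℤ) := Int.emod_nonneg _ hp0.ne'
  have h2 : (e i) % (p : ℤ) < p := Int.emod_lt_of_pos _ hp0
  have h3 : (e i % (p : ℤ)).toNat = 0 := by
    have h4 : (e i % (p : ℤ)).toNat < p := by omega
    exact Nat.eq_zero_of_dvd_of_lt h1 h4
  have h5 : e i % (p : ℤ) = 0 := by omega
  exact Int.dvd_of_emod_eq_zero h5

/-- **Kummer's lemma from a level certificate**: `(p-1)/2` units with strictly increasing
`π`-adic levels `1 ≤ j i ≤ p - 2` and leading coefficients prime to `p`. -/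
theorem kummer_of_levels (p : ℕ) [Fact p.Prime] (hodd : p ≠ 2) (K : Type*) [Field K]
    [NumberField K] [IsCyclotomicExtension {p} ℚ K] {ζ : K} (hζ : IsPrimitiveRoot ζ p)
    (u : Fin ((p - 1) / 2) → (𝓞 K)ˣ) (j : Fin ((p - 1) / 2) → ℕ) (c a : Fin ((p - 1) / 2) → ℤ)
    (hj1 : ∀ i, 1 ≤ j i) (hj2 : ∀ i, j i + 2 ≤ p) (hjmono : StrictMono j)
    (ha : ∀ i, ¬ (p : ℤ) ∣ a i)
    (hu : ∀ i, (hζ.toInteger - 1) ^ (j i + 1) ∣
      (u i : 𝓞 K) - (c i : 𝓞 K) * (1 + (a i : 𝓞 K) * (hζ.toInteger - 1) ^ (j i))) :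
    Fermat.Agent.H9.KummerProp (𝓞 K) p :=
  kummer_of_indep p hodd K u (indep_of_levels hodd hζ u j c a hj1 hj2 hjmono ha hu)

end Main

end Fermat.Agent.H83
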