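import Mathlib
import Fermat.Agent.H83.KummerLevels

/-!
# Kummer's lemma for `p = 11`

Explicit units with strictly increasing `(ζ - 1)`-adic levels; all identities are polynomial
identities in `ζ` modulo the cyclotomic relation.
-/

set_option linter.unusedSectionVars false
set_option linter.style.haveILetI false
set_option linter.unusedVariables false
set_option maxHeartbeats 1600000

namespace Fermat.Agent.H83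

open NumberField

/-- **Kummer's lemma** for the `11`-th cyclotomic field: a unit congruent to a rational
integer modulo `11` is a `11`-th power. -/
theorem kummer_eleven (K : Type*) [Field K] [NumberField K] [IsCyclotomicExtension {11} ℚ K] :
    Fermat.Agent.H9.KummerProp (𝓞 K) 11 := by
  haveI : Fact (Nat.Prime 11) := ⟨by norm_num⟩
  have hζ := IsCyclotomicExtension.zeta_spec 11 ℚ K
  have hprim : IsPrimitiveRoot hζ.toInteger 11 := hζ.toInteger_isPrimitiveRoot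
  obtain ⟨θ, hθ⟩ : ∃ θ : 𝓞 K, θ = hζ.toInteger := ⟨_, rfl⟩
  rw [← hθ] at hprim
  have hΦ : (1) + (1) * θ + (1) * θ ^ 2 + (1) * θ ^ 3 + (1) * θ ^ 4 + (1) * θ ^ 5 + (1) * θ ^ 6 + (1) * θ ^ 7 + (1) * θ ^ 8 + (1) * θ ^ 9 + (1) * θ ^ 10 = 0 := by
    have h := hprim.geom_sum_eq_zero (by norm_num)
    simp only [Finset.sum_range_succ, Finset.sum_range_zero] at h
    linear_combination h
  have hu0 : ((1) * θ) * ((1) * θ ^ 10) = (1 : 𝓞 K) := by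
    linear_combination ((-1) + (1) * θ) * hΦ
  obtain ⟨u0, hv0⟩ : ∃ u : (𝓞 K)ˣ, (u : 𝓞 K) = (1) * θ :=
    ⟨Units.mkOfMulEqOne _ _ hu0, rfl⟩
  have hu1 : ((1) * θ ^ 5 + (1) * θ ^ 6) * ((-1) + (-1) * θ ^ 2 + (-1) * θ ^ 4 + (-1) * θ ^ 7 + (-1) * θ ^ 9) = (1 : 𝓞 K) := by
    linear_combination ((-1) + (1) * θ + (-1) * θ ^ 5) * hΦ
  obtain ⟨u1, hv1⟩ : ∃ u : (𝓞 K)ˣ, (u : 𝓞 K) = (1) * θ ^ 5 + (1) * θ ^ 6 :=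
    ⟨Units.mkOfMulEqOne _ _ hu1, rfl⟩
  have hu2 : ((1) * θ ^ 4 + (2) * θ ^ 5 + (2) * θ ^ 6 + (1) * θ ^ 7) * ((1) * θ ^ 2 + (-1) * θ ^ 3 + (1) * θ ^ 4 + (1) * θ ^ 7 + (-1) * θ ^ 8 + (1) * θ ^ 9) = (1 : 𝓞 K) := by
    linear_combination ((-1) + (1) * θ + (1) * θ ^ 6) * hΦ
  obtain ⟨u2, hv2⟩ : ∃ u : (𝓞 K)ˣ, (u : 𝓞 K) = (1) * θ ^ 4 + (2) * θ ^ 5 + (2) * θ ^ 6 + (1) * θ ^ 7 :=
    ⟨Units.mkOfMulEqOne _ _ hu2, rfl⟩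
  have hu3 : ((-27) + (-25) * θ ^ 2 + (-4) * θ ^ 3 + (-19) * θ ^ 4 + (-11) * θ ^ 5 + (-11) * θ ^ 6 + (-19) * θ ^ 7 + (-4) * θ ^ 8 + (-25) * θ ^ 9) * ((3) + (-2) * θ ^ 2 + (1) * θ ^ 3 + (2) * θ ^ 4 + (2) * θ ^ 7 + (1) * θ ^ 8 + (-2) * θ ^ 9) = (1 : 𝓞 K) := by
    linear_combination ((-82) + (82) * θ + (-21) * θ ^ 2 + (-18) * θ ^ 3 + (-22) * θ ^ 4 + (11) * θ ^ 5 + (1) * θ ^ 6 + (-67) * θ ^ 7 + (50) * θ ^ 8) * hΦ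
  obtain ⟨u3, hv3⟩ : ∃ u : (𝓞 K)ˣ, (u : 𝓞 K) = (-27) + (-25) * θ ^ 2 + (-4) * θ ^ 3 + (-19) * θ ^ 4 + (-11) * θ ^ 5 + (-11) * θ ^ 6 + (-19) * θ ^ 7 + (-4) * θ ^ 8 + (-25) * θ ^ 9 :=
    ⟨Units.mkOfMulEqOne _ _ hu3, rfl⟩
  have hu4 : ((7) * θ ^ 2 + (26) * θ ^ 3 + (46) * θ ^ 4 + (56) * θ ^ 5 + (56) * θ ^ 6 + (46) * θ ^ 7 + (26) * θ ^ 8 + (7) * θ ^ 9) * ((147) + (104) * θ ^ 2 + (61) * θ ^ 3 + (58) * θ ^ 4 + (73) * θ ^ 5 + (73) * θ ^ 6 + (58) * θ ^ 7 + (61) * θ ^ 8 + (104) * θ ^ 9) = (1 : 𝓞 K) := by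
    linear_combination ((-1) + (1) * θ + (1029) * θ ^ 2 + (2793) * θ ^ 3 + (3668) * θ ^ 4 + (3873) * θ ^ 5 + (3645) * θ ^ 6 + (2403) * θ ^ 7 + (728) * θ ^ 8) * hΦ
  obtain ⟨u4, hv4⟩ : ∃ u : (𝓞 K)ˣ, (u : 𝓞 K) = (7) * θ ^ 2 + (26) * θ ^ 3 + (46) * θ ^ 4 + (56) * θ ^ 5 + (56) * θ ^ 6 + (46) * θ ^ 7 + (26) * θ ^ 8 + (7) * θ ^ 9 :=
    ⟨Units.mkOfMulEqOne _ _ hu4, rfl⟩
  have H0 : (θ - 1) ^ (1 + 1) ∣ (u0 : 𝓞 K) - ((1 : ℤ) : 𝓞 K) * (1 + ((1 : ℤ) : 𝓞 K) * (θ - 1) ^ 1) := by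
    refine ⟨0, ?_⟩
    rw [hv0]
    push_cast
    linear_combination (0) * hΦ
  have H1 : (θ - 1) ^ (2 + 1) ∣ (u1 : 𝓞 K) - ((2 : ℤ) : 𝓞 K) * (1 + ((7 : ℤ) : 𝓞 K) * (θ - 1) ^ 2) := by
    refine ⟨(11) + (9) * θ + (8) * θ ^ 2 + (8) * θ ^ 3 + (9) * θ ^ 4 + (10) * θ ^ 5 + (10) * θ ^ 6 + (9) * θ ^ 7 + (7) * θ ^ 8 + (4) * θ ^ 9, ?_⟩
    rw [hv1]
    push_cast
    linear_combination ((-5) + (9) * θ + (-4) * θ ^ 2) * hΦ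
  have H2 : (θ - 1) ^ (4 + 1) ∣ (u2 : 𝓞 K) - ((6 : ℤ) : 𝓞 K) * (1 + ((9 : ℤ) : 𝓞 K) * (θ - 1) ^ 4) := by
    refine ⟨(57) + (49) * θ + (31) * θ ^ 2 + (7) * θ ^ 3 + (-17) * θ ^ 4 + (-35) * θ ^ 5 + (-43) * θ ^ 6 + (-40) * θ ^ 7 + (-28) * θ ^ 8 + (-12) * θ ^ 9, ?_⟩
    rw [hv2]
    push_cast
    linear_combination ((-3) + (-17) * θ + (52) * θ ^ 2 + (-44) * θ ^ 3 + (12) * θ ^ 4) * hΦ
  have H3 : (θ - 1) ^ (6 + 1) ∣ (u3 : 𝓞 K) - ((9 : ℤ) : 𝓞 K) * (1 + ((1 : ℤ) : 𝓞 K) * (θ - 1) ^ 6) := by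
    refine ⟨(17) + (52) * θ + (103) * θ ^ 2 + (154) * θ ^ 3 + (189) * θ ^ 4 + (197) * θ ^ 5 + (174) * θ ^ 6 + (127) * θ ^ 7 + (70) * θ ^ 8 + (23) * θ ^ 9, ?_⟩
    rw [hv3]
    push_cast
    linear_combination ((-28) + (15) * θ + (-51) * θ ^ 2 + (170) * θ ^ 3 + (-211) * θ ^ 4 + (114) * θ ^ 5 + (-23) * θ ^ 6) * hΦ
  have H4 : (θ - 1) ^ (8 + 1) ∣ (u4 : 𝓞 K) - ((6 : ℤ) : 𝓞 K) * (1 + ((2 : ℤ) : 𝓞 K) * (θ - 1) ^ 8) := by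
    refine ⟨(-2043) + (-5055) * θ + (-8067) * θ ^ 2 + (-10122) * θ ^ 3 + (-10568) * θ ^ 4 + (-9265) * θ ^ 5 + (-6628) * θ ^ 6 + (-3494) * θ ^ 7 + (-857) * θ ^ 8 + (446) * θ ^ 9, ?_⟩
    rw [hv4]
    push_cast
    linear_combination ((-2061) + (15489) * θ + (-49877) * θ ^ 2 + (89260) * θ ^ 3 + (-96285) * θ ^ 4 + (63773) * θ ^ 5 + (-25146) * θ ^ 6 + (5317) * θ ^ 7 + (-446) * θ ^ 8) * hΦ
  refine kummer_of_levels 11 (by norm_num) K hζ (![u0, u1, u2, u3, u4] : Fin ((11 - 1) / 2) → (𝓞 K)ˣ)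
    (![1, 2, 4, 6, 8] : Fin ((11 - 1) / 2) → ℕ) (![1, 2, 6, 9, 6] : Fin ((11 - 1) / 2) → ℤ)
    (![1, 7, 9, 1, 2] : Fin ((11 - 1) / 2) → ℤ) ?_ ?_ ?_ ?_ ?_
  · intro i; fin_cases i <;> simp
  · intro i; fin_cases i <;> simp
  · intro i k hik; fin_cases i <;> fin_cases k <;> simp at hik ⊢
  · intro i; fin_cases i <;> norm_num
  · intro i
    rw [← hθ]
    fin_cases i
    exacts [H0, H1, H2, H3, H4]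

end Fermat.Agent.H83
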