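import Mathlib
import Fermat.Agent.H83.KummerLevels

/-!
# Kummer's lemma for `p = 5`

Explicit units with strictly increasing `(ζ - 1)`-adic levels; all identities are polynomial
identities in `ζ` modulo the cyclotomic relation.
-/

set_option linter.unusedSectionVars false
set_option linter.style.haveILetI false
set_option linter.unusedVariables false
set_option maxHeartbeats 1600000

namespace Fermat.Agent.H83

open NumberField

/-- **Kummer's lemma** for the `5`-th cyclotomic field: a unit congruent to a rational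
integer modulo `5` is a `5`-th power. -/
theorem kummer_five (K : Type*) [Field K] [NumberField K] [IsCyclotomicExtension {5} ℚ K] :
    Fermat.Agent.H9.KummerProp (𝓞 K) 5 := by
  haveI : Fact (Nat.Prime 5) := ⟨by norm_num⟩
  have hζ := IsCyclotomicExtension.zeta_spec 5 ℚ K
  have hprim : IsPrimitiveRoot hζ.toInteger 5 := hζ.toInteger_isPrimitiveRoot
  obtain ⟨θ, hθ⟩ : ∃ θ : 𝓞 K, θ = hζ.toInteger := ⟨_, rfl⟩
  rw [← hθ] at hprim
  have hΦ : (1) + (1) * θ + (1) * θ ^ 2 + (1) * θ ^ 3 + (1) * θ ^ 4 = 0 := by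
    have h := hprim.geom_sum_eq_zero (by norm_num)
    simp only [Finset.sum_range_succ, Finset.sum_range_zero] at h
    linear_combination h
  have hu0 : ((1) * θ) * ((1) * θ ^ 4) = (1 : 𝓞 K) := by
    linear_combination ((-1) + (1) * θ) * hΦ
  obtain ⟨u0, hv0⟩ : ∃ u : (𝓞 K)ˣ, (u : 𝓞 K) = (1) * θ :=
    ⟨Units.mkOfMulEqOne _ _ hu0, rfl⟩
  have hu1 : ((1) * θ ^ 2 + (1) * θ ^ 3) * ((1) + (1) * θ ^ 2 + (1) * θ ^ 3) = (1 : 𝓞 K) := by
    linear_combination ((-1) + (1) * θ + (1) * θ ^ 2) * hΦ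
  obtain ⟨u1, hv1⟩ : ∃ u : (𝓞 K)ˣ, (u : 𝓞 K) = (1) * θ ^ 2 + (1) * θ ^ 3 :=
    ⟨Units.mkOfMulEqOne _ _ hu1, rfl⟩
  have H0 : (θ - 1) ^ (1 + 1) ∣ (u0 : 𝓞 K) - ((1 : ℤ) : 𝓞 K) * (1 + ((1 : ℤ) : 𝓞 K) * (θ - 1) ^ 1) := by
    refine ⟨0, ?_⟩
    rw [hv0]
    push_cast
    linear_combination (0) * hΦ
  have H1 : (θ - 1) ^ (2 + 1) ∣ (u1 : 𝓞 K) - ((2 : ℤ) : 𝓞 K) * (1 + ((2 : ℤ) : 𝓞 K) * (θ - 1) ^ 2) := by
    refine ⟨(3) + (3) * θ + (3) * θ ^ 2 + (2) * θ ^ 3, ?_⟩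
    rw [hv1]
    push_cast
    linear_combination ((-3) + (5) * θ + (-2) * θ ^ 2) * hΦ
  refine kummer_of_levels 5 (by norm_num) K hζ (![u0, u1] : Fin ((5 - 1) / 2) → (𝓞 K)ˣ)
    (![1, 2] : Fin ((5 - 1) / 2) → ℕ) (![1, 2] : Fin ((5 - 1) / 2) → ℤ)
    (![1, 2] : Fin ((5 - 1) / 2) → ℤ) ?_ ?_ ?_ ?_ ?_
  · intro i; fin_cases i <;> simp
  · intro i; fin_cases i <;> simp
  · intro i k hik; fin_cases i <;> fin_cases k <;> simp at hik ⊢
  · intro i; fin_cases i <;> norm_num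
  · intro i
    rw [← hθ]
    fin_cases i
    exacts [H0, H1]

end Fermat.Agent.H83
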