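import Mathlib
import Fermat.Agent.H83.KummerLevels

/-!
# Kummer's lemma for `p = 13`

Explicit units with strictly increasing `(ζ - 1)`-adic levels; all identities are polynomial
identities in `ζ` modulo the cyclotomic relation.
-/

set_option linter.unusedSectionVars false
set_option linter.style.haveILetI false
set_option linter.unusedVariables false
set_option maxHeartbeats 1600000

namespace Fermat.Agent.H83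

open NumberField

/-- **Kummer's lemma** for the `13`-th cyclotomic field: a unit congruent to a rational
integer modulo `13` is a `13`-th power. -/
theorem kummer_thirteen (K : Type*) [Field K] [NumberField K] [IsCyclotomicExtension {13} ℚ K] :
    Fermat.Agent.H9.KummerProp (𝓞 K) 13 := by
  haveI : Fact (Nat.Prime 13) := ⟨by norm_num⟩
  have hζ := IsCyclotomicExtension.zeta_spec 13 ℚ K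
  have hprim : IsPrimitiveRoot hζ.toInteger 13 := hζ.toInteger_isPrimitiveRoot
  obtain ⟨θ, hθ⟩ : ∃ θ : 𝓞 K, θ = hζ.toInteger := ⟨_, rfl⟩
  rw [← hθ] at hprim
  have hΦ : (1) + (1) * θ + (1) * θ ^ 2 + (1) * θ ^ 3 + (1) * θ ^ 4 + (1) * θ ^ 5 + (1) * θ ^ 6 + (1) * θ ^ 7 + (1) * θ ^ 8 + (1) * θ ^ 9 + (1) * θ ^ 10 + (1) * θ ^ 11 + (1) * θ ^ 12 = 0 := by
    have h := hprim.geom_sum_eq_zero (by norm_num)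
    simp only [Finset.sum_range_succ, Finset.sum_range_zero] at h
    linear_combination h
  have hu0 : ((1) * θ) * ((1) * θ ^ 12) = (1 : 𝓞 K) := by
    linear_combination ((-1) + (1) * θ) * hΦ
  obtain ⟨u0, hv0⟩ : ∃ u : (𝓞 K)ˣ, (u : 𝓞 K) = (1) * θ :=
    ⟨Units.mkOfMulEqOne _ _ hu0, rfl⟩
  have hu1 : ((1) * θ ^ 6 + (1) * θ ^ 7) * ((1) + (1) * θ ^ 2 + (1) * θ ^ 4 + (1) * θ ^ 6 + (1) * θ ^ 7 + (1) * θ ^ 9 + (1) * θ ^ 11) = (1 : 𝓞 K) := by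
    linear_combination ((-1) + (1) * θ + (1) * θ ^ 6) * hΦ
  obtain ⟨u1, hv1⟩ : ∃ u : (𝓞 K)ˣ, (u : 𝓞 K) = (1) * θ ^ 6 + (1) * θ ^ 7 :=
    ⟨Units.mkOfMulEqOne _ _ hu1, rfl⟩
  have hu2 : ((9) + (-19) * θ ^ 2 + (-34) * θ ^ 3 + (-40) * θ ^ 4 + (-41) * θ ^ 5 + (-41) * θ ^ 6 + (-41) * θ ^ 7 + (-41) * θ ^ 8 + (-40) * θ ^ 9 + (-34) * θ ^ 10 + (-19) * θ ^ 11) * ((-1644) + (-1547) * θ ^ 2 + (-188) * θ ^ 3 + (-1280) * θ ^ 4 + (-517) * θ ^ 5 + (-909) * θ ^ 6 + (-909) * θ ^ 7 + (-517) * θ ^ 8 + (-1280) * θ ^ 9 + (-188) * θ ^ 10 + (-1547) * θ ^ 11) = (1 : 𝓞 K) := by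
    linear_combination ((-14797) + (14797) * θ + (17313) * θ ^ 2 + (36891) * θ ^ 3 + (29429) * θ ^ 4 + (35288) * θ ^ 5 + (32894) * θ ^ 6 + (31698) * θ ^ 7 + (36422) * θ ^ 8 + (26777) * θ ^ 9 + (29393) * θ ^ 10) * hΦ
  obtain ⟨u2, hv2⟩ : ∃ u : (𝓞 K)ˣ, (u : 𝓞 K) = (9) + (-19) * θ ^ 2 + (-34) * θ ^ 3 + (-40) * θ ^ 4 + (-41) * θ ^ 5 + (-41) * θ ^ 6 + (-41) * θ ^ 7 + (-41) * θ ^ 8 + (-40) * θ ^ 9 + (-34) * θ ^ 10 + (-19) * θ ^ 11 :=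
    ⟨Units.mkOfMulEqOne _ _ hu2, rfl⟩
  have hu3 : ((-641) + (-604) * θ ^ 2 + (-72) * θ ^ 3 + (-501) * θ ^ 4 + (-200) * θ ^ 5 + (-355) * θ ^ 6 + (-355) * θ ^ 7 + (-200) * θ ^ 8 + (-501) * θ ^ 9 + (-72) * θ ^ 10 + (-604) * θ ^ 11) * ((-9) + (5) * θ ^ 2 + (-5) * θ ^ 3 + (-5) * θ ^ 4 + (2) * θ ^ 5 + (-1) * θ ^ 6 + (-1) * θ ^ 7 + (2) * θ ^ 8 + (-5) * θ ^ 9 + (-5) * θ ^ 10 + (5) * θ ^ 11) = (1 : 𝓞 K) := by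
    linear_combination ((5768) + (-5768) * θ + (2231) * θ ^ 2 + (1622) * θ ^ 3 + (841) * θ ^ 4 + (-1516) * θ ^ 5 + (1533) * θ ^ 6 + (-218) * θ ^ 7 + (-1785) * θ ^ 8 + (5680) * θ ^ 9 + (-3020) * θ ^ 10) * hΦ
  obtain ⟨u3, hv3⟩ : ∃ u : (𝓞 K)ˣ, (u : 𝓞 K) = (-641) + (-604) * θ ^ 2 + (-72) * θ ^ 3 + (-501) * θ ^ 4 + (-200) * θ ^ 5 + (-355) * θ ^ 6 + (-355) * θ ^ 7 + (-200) * θ ^ 8 + (-501) * θ ^ 9 + (-72) * θ ^ 10 + (-604) * θ ^ 11 :=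
    ⟨Units.mkOfMulEqOne _ _ hu3, rfl⟩
  have hu4 : ((-1) + (2) * θ ^ 2 + (3) * θ ^ 3 + (6) * θ ^ 4 + (10) * θ ^ 5 + (10) * θ ^ 6 + (10) * θ ^ 7 + (10) * θ ^ 8 + (6) * θ ^ 9 + (3) * θ ^ 10 + (2) * θ ^ 11) * ((28) + (-31) * θ ^ 2 + (-14) * θ ^ 3 + (24) * θ ^ 4 + (14) * θ ^ 5 + (-25) * θ ^ 6 + (-25) * θ ^ 7 + (14) * θ ^ 8 + (24) * θ ^ 9 + (-14) * θ ^ 10 + (-31) * θ ^ 11) = (1 : 𝓞 K) := by
    linear_combination ((-29) + (29) * θ + (87) * θ ^ 2 + (11) * θ ^ 3 + (-16) * θ ^ 4 + (63) * θ ^ 5 + (-20) * θ ^ 6 + (-114) * θ ^ 7 + (-59) * θ ^ 8 + (-59) * θ ^ 9 + (-62) * θ ^ 10) * hΦ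
  obtain ⟨u4, hv4⟩ : ∃ u : (𝓞 K)ˣ, (u : 𝓞 K) = (-1) + (2) * θ ^ 2 + (3) * θ ^ 3 + (6) * θ ^ 4 + (10) * θ ^ 5 + (10) * θ ^ 6 + (10) * θ ^ 7 + (10) * θ ^ 8 + (6) * θ ^ 9 + (3) * θ ^ 10 + (2) * θ ^ 11 :=
    ⟨Units.mkOfMulEqOne _ _ hu4, rfl⟩
  have hu5 : ((-143) + (-81) * θ ^ 2 + (-112) * θ ^ 3 + (24) * θ ^ 4 + (-141) * θ ^ 5 + (-35) * θ ^ 6 + (-35) * θ ^ 7 + (-141) * θ ^ 8 + (24) * θ ^ 9 + (-112) * θ ^ 10 + (-81) * θ ^ 11) * ((-2) + (29) * θ ^ 2 + (60) * θ ^ 3 + (106) * θ ^ 4 + (141) * θ ^ 5 + (165) * θ ^ 6 + (165) * θ ^ 7 + (141) * θ ^ 8 + (106) * θ ^ 9 + (60) * θ ^ 10 + (29) * θ ^ 11) = (1 : 𝓞 K) := by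
    linear_combination ((285) + (-285) * θ + (-3985) * θ ^ 2 + (-4371) * θ ^ 3 + (-9199) * θ ^ 4 + (-10434) * θ ^ 5 + (-10146) * θ ^ 6 + (-11332) * θ ^ 7 + (-6502) * θ ^ 8 + (-5759) * θ ^ 9 + (-2349) * θ ^ 10) * hΦ
  obtain ⟨u5, hv5⟩ : ∃ u : (𝓞 K)ˣ, (u : 𝓞 K) = (-143) + (-81) * θ ^ 2 + (-112) * θ ^ 3 + (24) * θ ^ 4 + (-141) * θ ^ 5 + (-35) * θ ^ 6 + (-35) * θ ^ 7 + (-141) * θ ^ 8 + (24) * θ ^ 9 + (-112) * θ ^ 10 + (-81) * θ ^ 11 :=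
    ⟨Units.mkOfMulEqOne _ _ hu5, rfl⟩
  have H0 : (θ - 1) ^ (1 + 1) ∣ (u0 : 𝓞 K) - ((1 : ℤ) : 𝓞 K) * (1 + ((1 : ℤ) : 𝓞 K) * (θ - 1) ^ 1) := by
    refine ⟨0, ?_⟩
    rw [hv0]
    push_cast
    linear_combination (0) * hΦ
  have H1 : (θ - 1) ^ (2 + 1) ∣ (u1 : 𝓞 K) - ((2 : ℤ) : 𝓞 K) * (1 + ((5 : ℤ) : 𝓞 K) * (θ - 1) ^ 2) := by
    refine ⟨(7) + (5) * θ + (4) * θ ^ 2 + (4) * θ ^ 3 + (5) * θ ^ 4 + (7) * θ ^ 5 + (9) * θ ^ 6 + (10) * θ ^ 7 + (10) * θ ^ 8 + (9) * θ ^ 9 + (7) * θ ^ 10 + (4) * θ ^ 11, ?_⟩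
    rw [hv1]
    push_cast
    linear_combination ((-5) + (9) * θ + (-4) * θ ^ 2) * hΦ
  have H2 : (θ - 1) ^ (4 + 1) ∣ (u2 : 𝓞 K) - ((10 : ℤ) : 𝓞 K) * (1 + ((11 : ℤ) : 𝓞 K) * (θ - 1) ^ 4) := by
    refine ⟨(-125) + (-171) * θ + (-27) * θ ^ 2 + (267) * θ ^ 3 + (643) * θ ^ 4 + (1019) * θ ^ 5 + (1313) * θ ^ 6 + (1457) * θ ^ 7 + (1411) * θ ^ 8 + (1176) * θ ^ 9 + (801) * θ ^ 10 + (375) * θ ^ 11, ?_⟩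
    rw [hv2]
    push_cast
    linear_combination ((-236) + (1130) * θ + (-1995) * θ ^ 2 + (1449) * θ ^ 3 + (-375) * θ ^ 4) * hΦ
  have H3 : (θ - 1) ^ (6 + 1) ∣ (u3 : 𝓞 K) - ((3 : ℤ) : 𝓞 K) * (1 + ((1 : ℤ) : 𝓞 K) * (θ - 1) ^ 6) := by
    refine ⟨(2) + (15) * θ + (50) * θ ^ 2 + (92) * θ ^ 3 + (134) * θ ^ 4 + (169) * θ ^ 5 + (182) * θ ^ 6 + (181) * θ ^ 7 + (151) * θ ^ 8 + (116) * θ ^ 9 + (65) * θ ^ 10 + (30) * θ ^ 11, ?_⟩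
    rw [hv3]
    push_cast
    linear_combination ((-645) + (664) * θ + (-681) * θ ^ 2 + (637) * θ ^ 3 + (-436) * θ ^ 4 + (175) * θ ^ 5 + (-30) * θ ^ 6) * hΦ
  have H4 : (θ - 1) ^ (8 + 1) ∣ (u4 : 𝓞 K) - ((9 : ℤ) : 𝓞 K) * (1 + ((1 : ℤ) : 𝓞 K) * (θ - 1) ^ 8) := by
    refine ⟨(-897) + (-2806) * θ + (-5281) * θ ^ 2 + (-7756) * θ ^ 3 + (-9665) * θ ^ 4 + (-10571) * θ ^ 5 + (-10266) * θ ^ 6 + (-8819) * θ ^ 7 + (-6561) * θ ^ 8 + (-4010) * θ ^ 9 + (-1752) * θ ^ 10 + (-305) * θ ^ 11, ?_⟩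
    rw [hv4]
    push_cast
    linear_combination ((-916) + (6255) * θ + (-17908) * θ ^ 2 + (27181) * θ ^ 3 + (-22531) * θ ^ 4 + (8701) * θ ^ 5 + (215) * θ ^ 6 + (-1298) * θ ^ 7 + (305) * θ ^ 8) * hΦ
  have H5 : (θ - 1) ^ (10 + 1) ∣ (u5 : 𝓞 K) - ((12 : ℤ) : 𝓞 K) * (1 + ((2 : ℤ) : 𝓞 K) * (θ - 1) ^ 10) := by
    refine ⟨(2212) + (5048) * θ + (7884) * θ ^ 2 + (10072) * θ ^ 3 + (11111) * θ ^ 4 + (10760) * θ ^ 5 + (9097) * θ ^ 6 + (6502) * θ ^ 7 + (3570) * θ ^ 8 + (975) * θ ^ 9 + (-688) * θ ^ 10 + (-1039) * θ ^ 11, ?_⟩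
    rw [hv5]
    push_cast
    linear_combination ((2033) + (-21077) * θ + (91899) * θ ^ 2 + (-234079) * θ ^ 3 + (387187) * θ ^ 4 + (-434521) * θ ^ 5 + (334933) * θ ^ 6 + (-175042) * θ ^ 7 + (59343) * θ ^ 8 + (-11780) * θ ^ 9 + (1039) * θ ^ 10) * hΦ
  refine kummer_of_levels 13 (by norm_num) K hζ (![u0, u1, u2, u3, u4, u5] : Fin ((13 - 1) / 2) → (𝓞 K)ˣ)
    (![1, 2, 4, 6, 8, 10] : Fin ((13 - 1) / 2) → ℕ) (![1, 2, 10, 3, 9, 12] : Fin ((13 - 1) / 2) → ℤ)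
    (![1, 5, 11, 1, 1, 2] : Fin ((13 - 1) / 2) → ℤ) ?_ ?_ ?_ ?_ ?_
  · intro i; fin_cases i <;> simp
  · intro i; fin_cases i <;> simp
  · intro i k hik; fin_cases i <;> fin_cases k <;> simp at hik ⊢
  · intro i; fin_cases i <;> norm_num
  · intro i
    rw [← hθ]
    fin_cases i
    exacts [H0, H1, H2, H3, H4, H5]

end Fermat.Agent.H83
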