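import Fermat.Agent.H83.S16TwoExp
import Fermat.Agent.H6.S16UB.Interfaces

/-!
# S16 (helper83): the norm machine

`normMachine_of_sturm : SturmModStatement → NormMachineStatement` (interfaces of helper6).

Route: `N := ModularForm.norm 𝒮ℒ Y` is a level-one form of weight `k · [SL₂(ℤ) : Γ]`; it is the
product over the cosets of the translates of `Y`, so its expansion in `e(z / h)` is the product `B`
of the expansions of the translates; on the other hand it is `(qExpansion 1 N)(X ^ h)`.  Reducing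
modulo `φ` and using that `κ⟦X⟧` is a domain, the order of the reduction of `qExpansion 1 N` times
`h` is the sum of the orders of the reductions of the translates; the level-one Sturm bound modulo
`φ` finishes.
-/

namespace Fermat.Agent.H83.S16Two

open UpperHalfPlane Function CongruenceSubgroup SlashInvariantForm
open scoped MatrixGroups ModularForm Real Manifold

theorem qParam_add_period {h : ℕ} (hh : 0 < h) (w : ℂ) :
    Periodic.qParam (h : ℝ) (w + (h : ℝ)) = Periodic.qParam (h : ℝ) w := by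
  have h0 : ((h : ℝ) : ℂ) ≠ 0 := by
    have : (h : ℝ) ≠ 0 := by exact_mod_cast hh.ne'
    exact_mod_cast this
  simp only [Periodic.qParam]
  have : 2 * (π : ℂ) * Complex.I * (w + ((h : ℝ) : ℂ)) / ((h : ℝ) : ℂ) =
      2 * π * Complex.I * w / ((h : ℝ) : ℂ) + 2 * π * Complex.I := by
    field_simp
  rw [this, Complex.exp_add, Complex.exp_two_pi_mul_I, mul_one]

theorem HasQ.periodic {h : ℕ} (hh : 0 < h) {F : ℍ → ℂ} {s : PowerSeries ℂ} (hF : HasQ h F s) :
    Periodic (F ∘ UpperHalfPlane.ofComplex) (h : ℝ) := by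
  intro w
  simp only [Function.comp_apply]
  by_cases hw : 0 < w.im
  · have hw' : 0 < (w + (h : ℝ)).im := by simpa using hw
    rw [UpperHalfPlane.ofComplex_apply_of_im_pos hw', UpperHalfPlane.ofComplex_apply_of_im_pos hw]
    have h1 := hF ⟨w + (h : ℝ), hw'⟩
    have h2 := hF ⟨w, hw⟩
    have hq : Periodic.qParam (h : ℝ) (w + (h : ℝ)) = Periodic.qParam (h : ℝ) w :=
      qParam_add_period hh w
    simp only at h1 h2
    rw [hq] at h1
    exact h1.unique h2
  · have hw' : ¬ 0 < (w + (h : ℝ)).im := by simpa using hw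
    rw [UpperHalfPlane.ofComplex_apply_of_im_nonpos (not_lt.1 hw'),
      UpperHalfPlane.ofComplex_apply_of_im_nonpos (not_lt.1 hw)]

/-- Uniqueness of the expansion of a holomorphic function. -/
theorem HasQ.unique {h : ℕ} (hh : 0 < h) {F : ℍ → ℂ} (hhol : MDiff F) {s s' : PowerSeries ℂ}
    (h1 : HasQ h F s) (h2 : HasQ h F s') : s = s' := by
  have hh' : (0 : ℝ) < h := by exact_mod_cast hh
  have hbdd : IsBoundedAtImInfty F :=
    isBoundedAtImInfty_of_hasSum_qExpansion (c := fun n => PowerSeries.coeff n s) hh' (by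
      intro τ; simpa [smul_eq_mul] using h1 τ)
  have han : AnalyticAt ℂ (cuspFunction (h : ℝ) F) 0 :=
    analyticAt_cuspFunction_zero hh' (h1.periodic hh) hhol hbdd
  have e1 := (hasFPowerSeriesOnBall_cuspFunction (c := fun n => PowerSeries.coeff n s)
    hh' han (by intro τ; simpa [smul_eq_mul] using h1 τ)).hasFPowerSeriesAt
  have e2 := (hasFPowerSeriesOnBall_cuspFunction (c := fun n => PowerSeries.coeff n s')
    hh' han (by intro τ; simpa [smul_eq_mul] using h2 τ)).hasFPowerSeriesAt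
  have e3 := e1.eq_formalMultilinearSeries e2
  ext m
  have := congrArg (fun p : FormalMultilinearSeries ℂ ℂ ℂ => p.coeff m) e3
  simpa [FormalMultilinearSeries.coeff_ofScalars] using this

theorem hasQ_prod {ι : Type*} (t : Finset ι) {h : ℕ} (hh : 0 < h) (F : ι → ℍ → ℂ)
    (s : ι → PowerSeries ℂ) (hF : ∀ i ∈ t, HasQ h (F i) (s i)) :
    HasQ h (∏ i ∈ t, F i) (∏ i ∈ t, s i) := by
  classical
  induction t using Finset.induction_on with
  | empty =>
    simp only [Finset.prod_empty]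
    have : HasQ h (fun _ => (1 : ℂ)) (PowerSeries.C 1) := hasQ_const h 1
    exact HasQ.congr this rfl (by simp)
  | insert a t ha ih =>
    rw [Finset.prod_insert ha, Finset.prod_insert ha]
    exact (hF a (Finset.mem_insert_self a t)).mul hh
      (ih fun i hi => hF i (Finset.mem_insert_of_mem hi))

end Fermat.Agent.H83.S16Two

namespace Fermat.Agent.H83.S16Two

open UpperHalfPlane Function CongruenceSubgroup SlashInvariantForm
open scoped MatrixGroups ModularForm Real Manifold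

/-- The image in `GL(2, ℝ)` of a subgroup of `SL(2, ℤ)`. -/
abbrev imGL (Γ : Subgroup SL(2, ℤ)) : Subgroup (GL (Fin 2) ℝ) :=
  Γ.map (Matrix.SpecialLinearGroup.mapGL ℝ)

theorem card_quot_imGL (Γ : Subgroup SL(2, ℤ)) :
    Nat.card (𝒮ℒ ⧸ (imGL Γ).subgroupOf 𝒮ℒ) = Γ.index := by
  rw [← Subgroup.index_eq_card]
  show (imGL Γ).relIndex 𝒮ℒ = _
  rw [MonoidHom.range_eq_map, imGL,
    Subgroup.relIndex_map_map_of_injective _ _ Matrix.SpecialLinearGroup.mapGL_injective,
    Subgroup.relIndex_top_right]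

theorem exists_rep {Γ : Subgroup SL(2, ℤ)} {k : ℤ} (Y : ModularForm (imGL Γ) k)
    (q : 𝒮ℒ ⧸ (imGL Γ).subgroupOf 𝒮ℒ) :
    ∃ γ : SL(2, ℤ), quotientFunc Y q = ⇑Y ∣[k] γ := by
  induction q using Quotient.inductionOn with
  | h g =>
    obtain ⟨γ₀, hγ₀⟩ := g.2
    refine ⟨γ₀⁻¹, ?_⟩
    rw [quotientFunc_mk, ← hγ₀, ← map_inv]
    rfl

/-- the class of `γ⁻¹`. -/
noncomputable def cls (Γ : Subgroup SL(2, ℤ)) (γ : SL(2, ℤ)) : 𝒮ℒ ⧸ (imGL Γ).subgroupOf 𝒮ℒ :=
  QuotientGroup.mk (⟨Matrix.SpecialLinearGroup.mapGL ℝ γ⁻¹, ⟨γ⁻¹, rfl⟩⟩ : 𝒮ℒ)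

theorem quotientFunc_cls {Γ : Subgroup SL(2, ℤ)} {k : ℤ} (Y : ModularForm (imGL Γ) k)
    (γ : SL(2, ℤ)) : quotientFunc Y (cls Γ γ) = ⇑Y ∣[k] γ := by
  show quotientFunc Y ⟦_⟧ = _
  rw [quotientFunc_mk]
  simp only [map_inv, inv_inv]
  rfl

theorem cls_eq_iff {Γ : Subgroup SL(2, ℤ)} (γ γ' : SL(2, ℤ)) :
    cls Γ γ = cls Γ γ' ↔ γ * γ'⁻¹ ∈ Γ := by
  rw [cls, cls, QuotientGroup.eq, Subgroup.mem_subgroupOf]
  simp only [Subgroup.coe_mul, Subgroup.coe_inv, ← map_inv, ← map_mul, inv_inv]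
  rw [Subgroup.mem_map_iff_mem Matrix.SpecialLinearGroup.mapGL_injective]

end Fermat.Agent.H83.S16Two

namespace Fermat.Agent.H83.S16Two

open UpperHalfPlane Function CongruenceSubgroup SlashInvariantForm
open scoped MatrixGroups ModularForm Real Manifold

open Fermat.Agent.H6.S16UB in
theorem normMachine_of_sturm (hSt : SturmModStatement) : NormMachineStatement := by
  intro Γ _ k Y h hh A κ _ φ b hexp hne S hS
  classical
  let _ : Fintype (𝒮ℒ ⧸ (imGL Γ).subgroupOf 𝒮ℒ) := Fintype.ofFinite _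
  have hhQ : ∀ γ : SL(2, ℤ), HasQ h (⇑Y ∣[(k : ℤ)] γ) ((b γ).map A.subtype) := by
    intro γ z
    have := hexp γ z
    simpa [PowerSeries.coeff_map] using this
  choose γq hγq using exists_rep Y
  -- the norm
  set N : ModularForm 𝒮ℒ ((k : ℤ) * (Nat.card (𝒮ℒ ⧸ (imGL Γ).subgroupOf 𝒮ℒ) : ℤ)) :=
    ModularForm.norm 𝒮ℒ Y with hN
  have hNfun : (⇑N : ℍ → ℂ) = ∏ q, (⇑Y ∣[(k : ℤ)] γq q) := by
    rw [hN, ModularForm.coe_norm]
    exact Finset.prod_congr rfl fun q _ => hγq q
  set B : PowerSeries A := ∏ q, b (γq q) with hB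
  have hBQ : HasQ h ⇑N (B.map A.subtype) := by
    rw [hNfun, hB, map_prod]
    exact hasQ_prod _ hh _ _ fun q _ => hhQ (γq q)
  -- level-one expansion
  have hN1 : HasQ 1 ⇑N (qExpansion 1 ⇑N) := by
    intro z
    have := ModularForm.hasSum_qExpansion N one_pos _root_.one_mem_strictPeriods_SL z
    simpa using this
  have hNh := hN1.expand h hh.ne'
  have huniq : (qExpansion 1 ⇑N).expand h hh.ne' = B.map A.subtype :=
    HasQ.unique hh N.holo' hNh hBQ
  -- c
  set c : PowerSeries A := PowerSeries.mk fun m => PowerSeries.coeff (h * m) B with hc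
  have hcN : qExpansion 1 ⇑N = c.map A.subtype := by
    ext m
    rw [PowerSeries.coeff_map, hc, PowerSeries.coeff_mk]
    have := congrArg (PowerSeries.coeff (h * m)) huniq
    rw [PowerSeries.coeff_expand_mul, PowerSeries.coeff_map] at this
    exact this
  have hinj : Function.Injective (PowerSeries.map A.subtype) :=
    PowerSeries.map_injective A.subtype Subtype.coe_injective
  have hcB : c.expand h hh.ne' = B := by
    apply hinj
    rw [PowerSeries.map_expand, ← hcN, huniq]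
  have hBne : B.map φ ≠ 0 := by
    rw [hB, map_prod]
    exact Finset.prod_ne_zero_iff.2 fun q _ => hne (γq q)
  have hcφ : (c.map φ).expand h hh.ne' = B.map φ := by
    rw [← PowerSeries.map_expand, hcB]
  have hcne : c.map φ ≠ 0 := by
    intro h0
    rw [h0, map_zero] at hcφ
    exact hBne hcφ.symm
  -- Sturm
  have hk' : ((k : ℤ) * (Nat.card (𝒮ℒ ⧸ (imGL Γ).subgroupOf 𝒮ℒ) : ℤ)) =
      ((k * Nat.card (𝒮ℒ ⧸ (imGL Γ).subgroupOf 𝒮ℒ) : ℕ) : ℤ) := by push_cast; rfl
  have hSturm := hSt A κ φ (k * Nat.card (𝒮ℒ ⧸ (imGL Γ).subgroupOf 𝒮ℒ))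
    (ModularForm.mcast hk' N) c (by simpa using hcN) hcne
  -- orders
  have hord : (B.map φ).order = ∑ q, ((b (γq q)).map φ).order := by
    rw [hB, map_prod, PowerSeries.order_prod]
  have hord2 : (B.map φ).order = h • (c.map φ).order := by
    rw [← hcφ, PowerSeries.order_expand]
  -- S-sum
  have hSle : ∑ γ ∈ S, ((b γ).map φ).order ≤ ∑ q, ((b (γq q)).map φ).order := by
    have hbeq : ∀ γ, b γ = b (γq (cls Γ γ)) := by
      intro γ
      have h1 := hhQ γ
      have h2 := hhQ (γq (cls Γ γ))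
      rw [← hγq (cls Γ γ), quotientFunc_cls] at h2
      have hhol : MDiff (⇑Y ∣[(k : ℤ)] γ) :=
        (ModularForm.translate Y (Matrix.SpecialLinearGroup.mapGL ℝ γ)).holo'
      exact hinj (HasQ.unique hh hhol h1 h2)
    calc ∑ γ ∈ S, ((b γ).map φ).order
        = ∑ γ ∈ S, ((b (γq (cls Γ γ))).map φ).order :=
          Finset.sum_congr rfl fun γ _ => by rw [← hbeq γ]
      _ = ∑ q ∈ S.image (cls Γ), ((b (γq q)).map φ).order := by
          rw [Finset.sum_image]
          intro γ hγ γ' hγ' hqq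
          exact hS γ hγ γ' hγ' ((cls_eq_iff γ γ').1 hqq)
      _ ≤ ∑ q, ((b (γq q)).map φ).order :=
          Finset.sum_le_sum_of_subset (Finset.subset_univ _)
  calc 12 * ∑ γ ∈ S, ((b γ).map φ).order
      ≤ 12 * ∑ q, ((b (γq q)).map φ).order := by gcongr
    _ = (h : ℕ∞) * (12 * (c.map φ).order) := by
        rw [← hord, hord2, nsmul_eq_mul]; ring
    _ ≤ (h : ℕ∞) * ((k * Nat.card (𝒮ℒ ⧸ (imGL Γ).subgroupOf 𝒮ℒ) : ℕ) : ℕ∞) := by gcongr
    _ = ((h * (k * Γ.index) : ℕ) : ℕ∞) := by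
        rw [card_quot_imGL]; push_cast; rfl

end Fermat.Agent.H83.S16Two
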