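import Mathlib

/-!
# S16, prime 2 (helper83): the resolvent identity

Pure algebra for the level-one-only proof of `NoUnitEightStatement` (findings #221).

For `E₄ = 1 + 16 x`, `E₆ = 1 - 8 y`, `H = 1 + 4 w` one has the exact identity
`27 H⁴ - 18 E₄ H² - 8 E₆ H - E₄² = 64 (y - 5 x) + 256 Q(w, x, y)`.
With `x = 15 ∑ σ₃(n) qⁿ`, `y = 63 ∑ σ₅(n) qⁿ` the series `y - 5 x` is divisible by `4`, and modulo `2`
the quotient of the left-hand side by `256` is `q + O(q²)` as soon as `w` is constant modulo `2`.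
-/

namespace Fermat.Agent.H83.S16Two

open PowerSeries

/-- `Q(w, x, y)`. -/
def resQ {R : Type*} [CommRing R] (w x y : R) : R :=
  w + 9 * w ^ 2 + 27 * w ^ 3 + 27 * w ^ 4 - 9 * x * w - 18 * x * w ^ 2 + y * w - x ^ 2

/-- The resolvent polynomial `P(H) = 27 H⁴ - 18 E₄ H² - 8 E₆ H - E₄²`. -/
def resP {R : Type*} [CommRing R] (H E4 E6 : R) : R :=
  27 * H ^ 4 - 18 * E4 * H ^ 2 - 8 * E6 * H - E4 ^ 2

theorem resP_eq {R : Type*} [CommRing R] (w x y d : R) (hd : 4 * d = y - 5 * x) :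
    resP (1 + 4 * w) (1 + 16 * x) (1 - 8 * y) = 256 * (d + resQ w x y) := by
  have : y = 4 * d + 5 * x := by rw [hd]; ring
  subst this
  simp only [resP, resQ]
  ring

/-- `15 ∑_{n ≥ 1} σ₃(n) qⁿ`. -/
noncomputable def xser : PowerSeries ℤ :=
  PowerSeries.mk fun n => if n = 0 then 0 else 15 * (ArithmeticFunction.sigma 3 n : ℤ)

/-- `63 ∑_{n ≥ 1} σ₅(n) qⁿ`. -/
noncomputable def yser : PowerSeries ℤ :=
  PowerSeries.mk fun n => if n = 0 then 0 else 63 * (ArithmeticFunction.sigma 5 n : ℤ)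

/-- `(y - 5 x) / 4`. -/
noncomputable def dser : PowerSeries ℤ :=
  PowerSeries.mk fun n => if n = 0 then 0 else
    (63 * (ArithmeticFunction.sigma 5 n : ℤ) - 75 * (ArithmeticFunction.sigma 3 n : ℤ)) / 4

theorem four_dvd_term (d : ℤ) : (4 : ℤ) ∣ 63 * d ^ 5 - 75 * d ^ 3 := by
  have h : ∀ r : ZMod 4, 63 * r ^ 5 - 75 * r ^ 3 = 0 := by decide
  have := h (d : ZMod 4)
  have h4 := (ZMod.intCast_zmod_eq_zero_iff_dvd (63 * d ^ 5 - 75 * d ^ 3) 4).1 (by
    push_cast; exact this)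
  exact_mod_cast h4

theorem two_dvd_term (d : ℤ) : (2 : ℤ) ∣ 15 * d ^ 3 + 63 * d ^ 5 := by
  have h : ∀ r : ZMod 2, 15 * r ^ 3 + 63 * r ^ 5 = 0 := by decide
  have := h (d : ZMod 2)
  have h2 := (ZMod.intCast_zmod_eq_zero_iff_dvd (15 * d ^ 3 + 63 * d ^ 5) 2).1 (by
    push_cast; exact this)
  exact_mod_cast h2

theorem sigma_cast (k n : ℕ) :
    (ArithmeticFunction.sigma k n : ℤ) = ∑ d ∈ n.divisors, (d : ℤ) ^ k := by
  rw [ArithmeticFunction.sigma_apply]
  push_cast
  rfl

theorem four_dvd_sigma (n : ℕ) :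
    (4 : ℤ) ∣ 63 * (ArithmeticFunction.sigma 5 n : ℤ) - 75 * (ArithmeticFunction.sigma 3 n : ℤ) := by
  rw [sigma_cast, sigma_cast, Finset.mul_sum, Finset.mul_sum, ← Finset.sum_sub_distrib]
  exact Finset.dvd_sum fun d _ => four_dvd_term d

theorem two_dvd_sigma (n : ℕ) :
    (2 : ℤ) ∣ 15 * (ArithmeticFunction.sigma 3 n : ℤ) + 63 * (ArithmeticFunction.sigma 5 n : ℤ) := by
  rw [sigma_cast, sigma_cast, Finset.mul_sum, Finset.mul_sum, ← Finset.sum_add_distrib]
  exact Finset.dvd_sum fun d _ => two_dvd_term d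

theorem four_mul_dser : 4 * dser = yser - 5 * xser := by
  ext n
  have h4 : (4 : PowerSeries ℤ) = PowerSeries.C (4 : ℤ) := by simp
  have h5 : (5 : PowerSeries ℤ) = PowerSeries.C (5 : ℤ) := by simp
  rw [h4, h5, map_sub, PowerSeries.coeff_C_mul, PowerSeries.coeff_C_mul]
  simp only [dser, yser, xser, PowerSeries.coeff_mk]
  split_ifs with h
  · simp
  · rw [Int.mul_ediv_cancel' (four_dvd_sigma n)]
    ring

theorem coeff_zero_dser : PowerSeries.coeff 0 dser = 0 := by simp [dser]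

theorem coeff_one_dser : PowerSeries.coeff 1 dser = -3 := by
  simp [dser]

theorem coeff_zero_xser : PowerSeries.coeff 0 xser = 0 := by simp [xser]

theorem coeff_zero_yser : PowerSeries.coeff 0 yser = 0 := by simp [yser]

/-- `x + y` is divisible by `2`. -/
theorem xser_add_yser : ∃ s : PowerSeries ℤ, xser + yser = 2 * s := by
  refine ⟨PowerSeries.mk fun n => if n = 0 then 0 else
    (15 * (ArithmeticFunction.sigma 3 n : ℤ) + 63 * (ArithmeticFunction.sigma 5 n : ℤ)) / 2, ?_⟩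
  ext n
  have h2 : (2 : PowerSeries ℤ) = PowerSeries.C (2 : ℤ) := by simp
  rw [h2, map_add, PowerSeries.coeff_C_mul]
  simp only [yser, xser, PowerSeries.coeff_mk]
  split_ifs with h
  · simp
  · rw [Int.mul_ediv_cancel' (two_dvd_sigma n)]

/-- The series `e = d + x²`; its reduction modulo 2 is `Δ mod 2`. -/
noncomputable def eser : PowerSeries ℤ := dser + xser ^ 2

theorem coeff_zero_eser : PowerSeries.coeff 0 eser = 0 := by
  have hx : PowerSeries.constantCoeff xser = 0 := by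
    rw [← PowerSeries.coeff_zero_eq_constantCoeff_apply]; exact coeff_zero_xser
  have hd : PowerSeries.constantCoeff dser = 0 := by
    rw [← PowerSeries.coeff_zero_eq_constantCoeff_apply]; exact coeff_zero_dser
  simp [eser, PowerSeries.coeff_zero_eq_constantCoeff, hx, hd]

theorem coeff_one_eser : PowerSeries.coeff 1 eser = -3 := by
  have hx : PowerSeries.constantCoeff xser = 0 := by
    rw [← PowerSeries.coeff_zero_eq_constantCoeff_apply]; exact coeff_zero_xser
  have : PowerSeries.coeff 1 (xser ^ 2) = 0 := by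
    rw [pow_two, PowerSeries.coeff_mul]
    apply Finset.sum_eq_zero
    intro kl hkl
    have hkl := Finset.HasAntidiagonal.mem_antidiagonal.1 hkl
    rcases kl with ⟨k, l⟩
    simp only at hkl ⊢
    have : k = 0 ∨ l = 0 := by omega
    rcases this with rfl | rfl
    · rw [coeff_zero_xser, zero_mul]
    · rw [coeff_zero_xser, mul_zero]
  rw [eser, map_add, coeff_one_dser, this, add_zero]

end Fermat.Agent.H83.S16Two
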