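import Mathlib

/-!
# S16, prime 2 (helper83): calculus of expansions in `e(z / h)`

`HasQ h F s` : `F z = ∑ sₙ e(n z / h)` for all `z` in the upper half plane, `s` a formal power series.
Closed under sums, scalar multiples and products.
-/

namespace Fermat.Agent.H83.S16Two

open UpperHalfPlane Function
open scoped Real

/-- `F z = ∑_n sₙ · e(n z / h)` on the upper half plane. -/
def HasQ (h : ℕ) (F : ℍ → ℂ) (s : PowerSeries ℂ) : Prop :=
  ∀ z : ℍ, HasSum (fun n : ℕ => PowerSeries.coeff n s * Periodic.qParam (h : ℝ) (z : ℂ) ^ n) (F z)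

theorem norm_qParam_lt_one {h : ℕ} (hh : 0 < h) (z : ℍ) :
    ‖Periodic.qParam (h : ℝ) (z : ℂ)‖ < 1 := by
  rw [Periodic.norm_qParam]
  apply Real.exp_lt_one_iff.2 ?_ |>.trans_le le_rfl
  have h1 : (0 : ℝ) < h := by exact_mod_cast hh
  have h2 : 0 < (z : ℂ).im := z.im_pos
  have : -2 * π * (z : ℂ).im / h = -(2 * π * (z : ℂ).im / h) := by ring
  rw [this, neg_lt_zero]
  positivity

/-- The half point `z / 2`. -/
noncomputable def halfPt (z : ℍ) : ℍ :=
  ⟨(z : ℂ) / 2, by
    have : ((z : ℂ) / 2).im = (z : ℂ).im / 2 := by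
      simp
    rw [this]
    exact half_pos z.im_pos⟩

theorem qParam_halfPt_sq (h : ℕ) (z : ℍ) :
    Periodic.qParam (h : ℝ) ((halfPt z : ℍ) : ℂ) ^ 2 = Periodic.qParam (h : ℝ) (z : ℂ) := by
  simp only [Periodic.qParam, halfPt]
  rw [← Complex.exp_nat_mul]
  congr 1
  push_cast
  ring

theorem HasQ.summable_norm {h : ℕ} (hh : 0 < h) {F : ℍ → ℂ} {s : PowerSeries ℂ}
    (hF : HasQ h F s) (z : ℍ) :
    Summable fun n : ℕ => ‖PowerSeries.coeff n s * Periodic.qParam (h : ℝ) (z : ℂ) ^ n‖ := by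
  set q' := Periodic.qParam (h : ℝ) ((halfPt z : ℍ) : ℂ) with hq'
  have hsq : Periodic.qParam (h : ℝ) (z : ℂ) = q' ^ 2 := (qParam_halfPt_sq h z).symm
  have hlt : ‖q'‖ < 1 := norm_qParam_lt_one hh (halfPt z)
  have hsum := (hF (halfPt z)).summable
  obtain ⟨C, hC⟩ := (hsum.tendsto_atTop_zero.norm).bddAbove_range
  have hC' : ∀ n, ‖PowerSeries.coeff n s * q' ^ n‖ ≤ C := fun n => hC ⟨n, rfl⟩
  have hC0 : 0 ≤ C := le_trans (norm_nonneg _) (hC' 0)
  refine Summable.of_nonneg_of_le (fun n => norm_nonneg _) (fun n => ?_)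
    ((summable_geometric_of_lt_one (norm_nonneg q') hlt).mul_left C)
  rw [hsq]
  have : PowerSeries.coeff n s * (q' ^ 2) ^ n = (PowerSeries.coeff n s * q' ^ n) * q' ^ n := by
    ring
  rw [this, norm_mul, norm_pow]
  exact mul_le_mul_of_nonneg_right (hC' n) (pow_nonneg (norm_nonneg _) _)

theorem HasQ.add {h : ℕ} {F G : ℍ → ℂ} {s t : PowerSeries ℂ}
    (hF : HasQ h F s) (hG : HasQ h G t) : HasQ h (F + G) (s + t) := by
  intro z
  have := (hF z).add (hG z)
  simp only [map_add, add_mul, Pi.add_apply]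
  exact this

theorem HasQ.neg {h : ℕ} {F : ℍ → ℂ} {s : PowerSeries ℂ}
    (hF : HasQ h F s) : HasQ h (-F) (-s) := by
  intro z
  have := (hF z).neg
  simp only [map_neg, neg_mul, Pi.neg_apply]
  exact this

theorem HasQ.sub {h : ℕ} {F G : ℍ → ℂ} {s t : PowerSeries ℂ}
    (hF : HasQ h F s) (hG : HasQ h G t) : HasQ h (F - G) (s - t) := by
  rw [sub_eq_add_neg, sub_eq_add_neg]
  exact hF.add hG.neg

theorem HasQ.const_mul {h : ℕ} {F : ℍ → ℂ} {s : PowerSeries ℂ}
    (hF : HasQ h F s) (c : ℂ) : HasQ h (fun z => c * F z) (PowerSeries.C c * s) := by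
  intro z
  have := (hF z).mul_left c
  simp only [PowerSeries.coeff_C_mul, mul_assoc]
  exact this

theorem hasQ_const (h : ℕ) (c : ℂ) : HasQ h (fun _ => c) (PowerSeries.C c) := by
  intro z
  have : (fun n : ℕ => PowerSeries.coeff n (PowerSeries.C c) *
      Periodic.qParam (h : ℝ) (z : ℂ) ^ n) = fun n => if n = 0 then c else 0 := by
    funext n
    rw [PowerSeries.coeff_C]
    split_ifs with hn
    · simp [hn]
    · simp
  rw [this]
  exact hasSum_ite_eq 0 c

theorem HasQ.mul {h : ℕ} (hh : 0 < h) {F G : ℍ → ℂ} {s t : PowerSeries ℂ}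
    (hF : HasQ h F s) (hG : HasQ h G t) : HasQ h (F * G) (s * t) := by
  intro z
  set q := Periodic.qParam (h : ℝ) (z : ℂ) with hq
  have h1 := hF.summable_norm hh z
  have h2 := hG.summable_norm hh z
  have hprod := tsum_mul_tsum_eq_tsum_sum_antidiagonal_of_summable_norm h1 h2
  have hsumm := summable_norm_sum_mul_antidiagonal_of_summable_norm h1 h2
  have hterm : ∀ n : ℕ, PowerSeries.coeff n (s * t) * q ^ n =
      ∑ kl ∈ Finset.HasAntidiagonal.antidiagonal n,
        (PowerSeries.coeff kl.1 s * q ^ kl.1) * (PowerSeries.coeff kl.2 t * q ^ kl.2) := by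
    intro n
    rw [PowerSeries.coeff_mul, Finset.sum_mul]
    refine Finset.sum_congr rfl fun kl hkl => ?_
    have hkl' := Finset.HasAntidiagonal.mem_antidiagonal.1 hkl
    rw [← hkl', pow_add]
    ring
  have hS : Summable fun n : ℕ => PowerSeries.coeff n (s * t) * q ^ n := by
    simp_rw [hterm]
    exact hsumm.of_norm
  have : (F * G) z = ∑' n : ℕ, PowerSeries.coeff n (s * t) * q ^ n := by
    simp_rw [hterm]
    rw [← hprod, (hF z).tsum_eq, (hG z).tsum_eq]
    rfl
  rw [this]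
  exact hS.hasSum

theorem HasQ.congr {h : ℕ} {F G : ℍ → ℂ} {s t : PowerSeries ℂ}
    (hF : HasQ h F s) (hFG : F = G) (hst : s = t) : HasQ h G t := by
  subst hFG; subst hst; exact hF

theorem HasQ.pow {h : ℕ} (hh : 0 < h) {F : ℍ → ℂ} {s : PowerSeries ℂ}
    (hF : HasQ h F s) (n : ℕ) : HasQ h (F ^ n) (s ^ n) := by
  induction n with
  | zero =>
    simp only [pow_zero]
    have : HasQ h (fun _ => (1 : ℂ)) (PowerSeries.C 1) := hasQ_const h 1
    exact HasQ.congr this rfl (by simp)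
  | succ n ih =>
    rw [pow_succ, pow_succ]
    exact ih.mul hh hF

/-- Passing from the variable `e(z)` to the variable `e(z / p)`. -/
theorem HasQ.expand {F : ℍ → ℂ} {s : PowerSeries ℂ} (hF : HasQ 1 F s) (p : ℕ) (hp : p ≠ 0) :
    HasQ p F (s.expand p hp) := by
  intro z
  have hq : Periodic.qParam ((1 : ℕ) : ℝ) (z : ℂ) = Periodic.qParam (p : ℝ) (z : ℂ) ^ p := by
    simp only [Periodic.qParam]
    rw [← Complex.exp_nat_mul]
    congr 1
    have : (p : ℂ) ≠ 0 := by exact_mod_cast hp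
    push_cast
    field_simp
  have hinj : Function.Injective fun n : ℕ => p * n :=
    fun a b hab => Nat.eq_of_mul_eq_mul_left (Nat.pos_of_ne_zero hp) hab
  have := hF z
  rw [hq] at this
  rw [← hinj.hasSum_iff] 
  · convert this using 1
    funext n
    simp only [Function.comp_apply, PowerSeries.coeff_expand_mul, pow_mul]
  · intro m hm
    have : ¬ p ∣ m := by
      rintro ⟨k, rfl⟩
      exact hm ⟨k, rfl⟩
    rw [PowerSeries.coeff_expand_of_not_dvd p hp s this, zero_mul]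

end Fermat.Agent.H83.S16Two
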