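import Fermat.Agent.H83.S16Norm
import Fermat.Agent.H59.S16OmegaInterface
import Fermat.Agent.H59.S16LevelOne

/-!
# S16, prime 2, route (β): final assembly (helper83)

`noUnitModEight_of_omega : H59.OmegaStatement → H1.S16L2.NoUnitModEightStatement`.

The norm of `Ω` to level one is the product over the cosets of the translates of `Ω`; every
translate has expansion `Δ(tᵖ) + 2 Y`, hence the norm has `q`-expansion `Δ ^ m + 2 Y''` with
`m = [SL₂(ℤ) : Γ₀(p)]`, while its weight is `8 m < 12 m`: contradiction with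
`H59.levelOne_qExpansion_ne_discriminant_pow_add`.
-/

namespace Fermat.Agent.H83.S16Two

open UpperHalfPlane Function CongruenceSubgroup SlashInvariantForm
open scoped MatrixGroups ModularForm Real Manifold
open Fermat.Agent.H59

theorem discriminant_mem_seriesIn (R : Subring ℂ) :
    qExpansion 1 ModularForm.discriminant ∈ seriesIn R := by
  rw [qExpansion_discriminant_eq_X_mul]
  exact (seriesIn R).mul_mem (X_mem_seriesIn R) (map_int_mem_seriesIn R _)

theorem expand_mem_seriesIn {R : Subring ℂ} {P : PowerSeries ℂ} (hP : P ∈ seriesIn R)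
    (p : ℕ) (hp : p ≠ 0) : P.expand p hp ∈ seriesIn R := by
  intro n
  rw [PowerSeries.coeff_expand]
  split_ifs
  · exact hP _
  · exact R.zero_mem

theorem two_mem_seriesIn (R : Subring ℂ) : (2 : PowerSeries ℂ) ∈ seriesIn R := by
  have : (2 : PowerSeries ℂ) = 1 + 1 := by norm_num
  rw [this]
  exact (seriesIn R).add_mem (seriesIn R).one_mem (seriesIn R).one_mem

/-- A product of series of the form `D + 2 Y` is of the form `D ^ n + 2 Y'`. -/
theorem prod_add_two_mul {ι : Type*} (t : Finset ι) (R : Subring ℂ) (D : PowerSeries ℂ)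
    (hD : D ∈ seriesIn R) (Y : ι → PowerSeries ℂ) (hY : ∀ i ∈ t, Y i ∈ seriesIn R) :
    ∃ Y' ∈ seriesIn R, ∏ i ∈ t, (D + 2 * Y i) = D ^ t.card + 2 * Y' := by
  classical
  induction t using Finset.induction_on with
  | empty => exact ⟨0, (seriesIn R).zero_mem, by simp⟩
  | insert a t ha ih =>
    obtain ⟨Y', hY', hprod⟩ := ih fun i hi => hY i (Finset.mem_insert_of_mem hi)
    have hYa := hY a (Finset.mem_insert_self a t)
    refine ⟨Y a * D ^ t.card + D * Y' + 2 * (Y a * Y'), ?_, ?_⟩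
    · exact (seriesIn R).add_mem ((seriesIn R).add_mem
        ((seriesIn R).mul_mem hYa ((seriesIn R).pow_mem hD _)) ((seriesIn R).mul_mem hD hY'))
        ((seriesIn R).mul_mem (two_mem_seriesIn R) ((seriesIn R).mul_mem hYa hY'))
    · rw [Finset.prod_insert ha, hprod, Finset.card_insert_of_notMem ha]
      ring

theorem noUnitModEight_of_omega (hΩ : OmegaStatement) :
    Fermat.Agent.H1.S16L2.NoUnitModEightStatement := by
  intro p hp hp5 hp4 H a ha h0 h8
  classical
  obtain ⟨Ω, hΩ'⟩ := hΩ p hp hp5 hp4 H a ha h0 h8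
  have hpos : 0 < p := hp.pos
  have : NeZero p := ⟨hp.ne_zero⟩
  let _ : Fintype (𝒮ℒ ⧸ (imGL (Gamma0 p)).subgroupOf 𝒮ℒ) := Fintype.ofFinite _
  choose γq hγq using exists_rep Ω
  choose Yγ hYγ hexp using hΩ'
  set D : PowerSeries ℂ := PowerSeries.expand p hp.ne_zero (qExpansion 1 ModularForm.discriminant)
    with hD
  have hDmem : D ∈ seriesIn twoInt :=
    expand_mem_seriesIn (discriminant_mem_seriesIn twoInt) p hp.ne_zero
  set N : ModularForm 𝒮ℒ ((8 : ℤ) * (Nat.card (𝒮ℒ ⧸ (imGL (Gamma0 p)).subgroupOf 𝒮ℒ) : ℤ)) :=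
    ModularForm.norm 𝒮ℒ Ω with hN
  have hNfun : (⇑N : ℍ → ℂ) = ∏ q, (⇑Ω ∣[(8 : ℤ)] γq q) := by
    rw [hN, ModularForm.coe_norm]
    exact Finset.prod_congr rfl fun q _ => hγq q
  have hBQ : HasQ p ⇑N (∏ q, (D + 2 * Yγ (γq q))) := by
    rw [hNfun]
    exact hasQ_prod _ hpos _ _ fun q _ => hexp (γq q)
  obtain ⟨Y', hY', hprod⟩ := prod_add_two_mul Finset.univ twoInt D hDmem (fun q => Yγ (γq q))
    (fun q _ => hYγ (γq q))
  rw [hprod] at hBQ
  have hN1 : HasQ 1 ⇑N (qExpansion 1 ⇑N) := by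
    intro z
    have := ModularForm.hasSum_qExpansion N one_pos _root_.one_mem_strictPeriods_SL z
    simpa using this
  have huniq : (qExpansion 1 ⇑N).expand p hp.ne_zero = D ^ Finset.univ.card + 2 * Y' :=
    HasQ.unique hpos N.holo' (hN1.expand p hp.ne_zero) hBQ
  set m : ℕ := (Finset.univ : Finset (𝒮ℒ ⧸ (imGL (Gamma0 p)).subgroupOf 𝒮ℒ)).card with hm
  have hmcard : m = Nat.card (𝒮ℒ ⧸ (imGL (Gamma0 p)).subgroupOf 𝒮ℒ) := by
    rw [hm, Finset.card_univ, Nat.card_eq_fintype_card]
  have hmpos : 0 < m := by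
    rw [hm]
    exact Finset.card_pos.2 ⟨cls (Gamma0 p) 1, Finset.mem_univ _⟩
  -- descend
  set Y'' : PowerSeries ℂ := PowerSeries.mk fun n => PowerSeries.coeff (p * n) Y' with hY''
  have hY''mem : Y'' ∈ seriesIn twoInt := fun n => by
    rw [hY'', PowerSeries.coeff_mk]; exact hY' _
  have hfinal : qExpansion 1 ⇑N = (qExpansion 1 ModularForm.discriminant) ^ m + 2 * Y'' := by
    ext n
    have := congrArg (PowerSeries.coeff (p * n)) huniq
    rw [PowerSeries.coeff_expand_mul, hD, ← map_pow, map_add, PowerSeries.coeff_expand_mul,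
      coeff_two_mul] at this
    rw [this, map_add, coeff_two_mul, hY'', PowerSeries.coeff_mk]
  refine levelOne_qExpansion_ne_discriminant_pow_add twoInt inv_two_not_mem_twoInt m
    ((8 : ℤ) * (Nat.card (𝒮ℒ ⧸ (imGL (Gamma0 p)).subgroupOf 𝒮ℒ) : ℤ)) ?_ N Y'' hY''mem hfinal
  rw [← hmcard]
  have : (0 : ℤ) < m := by exact_mod_cast hmpos
  linarith

end Fermat.Agent.H83.S16Two

namespace Fermat.Agent.H83.S16Two

/-- The same statement in the shape of helper6's interface. -/
theorem noUnitEight_of_modEight (h : Fermat.Agent.H1.S16L2.NoUnitModEightStatement) :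
    Fermat.Agent.H6.S16UB.NoUnitEightStatement := by
  intro p hp hC H a ha h8
  by_contra h2
  have hodd : Odd (a 0) := by
    rcases Int.even_or_odd (a 0) with he | ho
    · exact absurd (by exact_mod_cast he.two_dvd) h2
    · exact ho
  exact h p hp hC.2 hC.1 H a ha hodd fun n hn => by
    have := h8 n hn
    exact_mod_cast this

end Fermat.Agent.H83.S16Two
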