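import Fermat.Agent.H83.S16TwoFin
import Fermat.Agent.H59.S16Omega
import Fermat.Agent.H17.S16Conj

/-!
# S16, `l = 2`: route β (level `p` only), unconditional (helper83 + helper59 + helper17)

Second, independent proof of `NoUnitModEightStatement` (first proof: helper1, via level three).
Inputs: the conjugate expansions (helper17), the weight-8 form `Ω = Q(H/a₀)/256` with all
`SL₂(ℤ)`-translates `≡ Δ(τᵖ)` mod 2 (helper59), and the norm to level one (this directory).
-/

namespace Fermat.Agent.H83.S16Two

/-- Route β: no weight-2 form on `Γ₀(p)`, `p ≡ 3 mod 4`, `p ≥ 5`, with integer q-expansion is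
congruent to an odd constant modulo 8. -/
theorem noUnitModEight_beta : Fermat.Agent.H1.S16L2.NoUnitModEightStatement :=
  noUnitModEight_of_omega (Fermat.Agent.H59.omegaStatement Fermat.Agent.H17.conjStatement)

/-- Route β in the shape used by the upper-bound machine. -/
theorem noUnitEight_beta : Fermat.Agent.H6.S16UB.NoUnitEightStatement :=
  noUnitEight_of_modEight noUnitModEight_beta

end Fermat.Agent.H83.S16Two
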